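import Fermat.Prelude.Def_ModularCurve_LaurentCoeff
import Mathlib

/-!
# Shortcut instances for subfields of Laurent series fields

Instance search for these structures is very slow without shortcuts.
-/

set_option autoImplicit false

noncomputable section

namespace Fermat.Agent.Reduction

variable {K : Type*} [Field K]

scoped instance (priority := high) algLaurent : Algebra K (LaurentSeries K) :=
  HahnSeries.powerSeriesAlgebra ℤ K

variable (S : IntermediateField K (LaurentSeries K))

scoped instance (priority := high) fieldSub : Field S := S.toField

scoped instance (priority := high) algSub : Algebra K S := SubalgebraClass.toAlgebra S

scoped instance (priority := high) modSub : Module K S := Algebra.toModule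

variable {S} (T : IntermediateField K S)

scoped instance (priority := high) fieldSubSub : Field T := T.toField

scoped instance (priority := high) algSubSub : Algebra K T := SubalgebraClass.toAlgebra T

scoped instance (priority := high) algSubSubTop : Algebra T S := T.toAlgebra

scoped instance (priority := high) modSubSubTop : Module T S := Algebra.toModule

scoped instance (priority := high) towerSubSub : IsScalarTower K T S :=
  IntermediateField.isScalarTower_mid' (S := T)

scoped instance (priority := high) freeSubSub : Module.Free T S := Module.Free.of_divisionRing T S

end Fermat.Agent.Reduction
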