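import Fermat.Agent.Reduction.Lattice

/-!
# Reduction maps on places

A `GoodModel.ReductionMap` sends places to places compatibly with divisors of functions in the
Gauss ring. In large degree, Riemann–Roch spaces reduce onto Riemann–Roch spaces.
-/

set_option autoImplicit false
set_option linter.unusedSectionVars false

noncomputable section

namespace Fermat.Agent.Reduction

open IsLocalRing ModularCurve AlgebraicCurve IntermediateField Fermat.Agent.FunctionFieldRR

variable {L : Type*} [Field L] {A : ValuationSubring L}
  {F : IntermediateField L (LaurentSeries L)}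
  {Fk : IntermediateField (ResidueField A) (LaurentSeries (ResidueField A))}

theorem mapDomain_mono {α β : Type*} (r : α → β) {D E : α →₀ ℤ} (h : D ≤ E) :
    Finsupp.mapDomain r D ≤ Finsupp.mapDomain r E := by
  classical
  have h0 : 0 ≤ Finsupp.mapDomain r (E - D) := by
    refine Finsupp.le_def.mpr fun b => ?_
    rw [Finsupp.mapDomain, Finsupp.sum_apply, Finsupp.zero_apply]
    refine Finset.sum_nonneg fun a _ => ?_
    simp only [Finsupp.single_apply]
    split_ifs
    · exact Finsupp.le_def.mp (sub_nonneg.mpr h) a
    · exact le_rfl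
  rw [Finsupp.mapDomain_sub] at h0
  exact sub_nonneg.mp h0

theorem le_mapDomain_apply {α β : Type*} (r : α → β) {D : α →₀ ℤ} (hD : 0 ≤ D) (a : α) :
    D a ≤ Finsupp.mapDomain r D (r a) := by
  classical
  have h1 : Finsupp.single a (D a) ≤ D := Finsupp.le_def.mpr fun x => by
    rw [Finsupp.single_apply]
    split_ifs with hx
    · rw [hx]
    · exact Finsupp.le_def.mp hD x
  have := Finsupp.le_def.mp (mapDomain_mono r h1) (r a)
  rwa [Finsupp.mapDomain_single, Finsupp.single_eq_same] at this

theorem apply_eq_zero_of_mapDomain_apply {α β : Type*} (r : α → β) {D : α →₀ ℤ} (hD : 0 ≤ D)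
    {a : α} (h : Finsupp.mapDomain r D (r a) = 0) : D a = 0 :=
  le_antisymm ((le_mapDomain_apply r hD a).trans h.le) (Finsupp.le_def.mp hD a)

namespace GoodModel

variable (M : GoodModel A F Fk)

include M in
theorem isFunctionField_bar : IsFunctionField L F :=
  ⟨⟨M.jF, M.transcendental_jF, M.fin_bar⟩⟩

include M in
theorem isFunctionField_red : IsFunctionField (ResidueField A) Fk :=
  ⟨⟨M.jK, M.transcendental_jK, M.fin_red⟩⟩

variable [HasPrincipalDivisors L F] [HasPrincipalDivisors (ResidueField A) Fk]

/-- A map on places compatible with the reduction of functions. -/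
structure ReductionMap where
  /-- the map on places -/
  toFun : Place L F → Place (ResidueField A) Fk
  spec : ∀ x : F, M.IsInt x → M.red x ≠ 0 →
    Finsupp.mapDomain toFun (dvs x) = dvs (M.red x)

variable {M}

variable [IsAlgClosed L] [IsFunctionField L F] [IsAlgClosed (ResidueField A)]
  [IsFunctionField (ResidueField A) Fk]

namespace ReductionMap

variable (R : M.ReductionMap)

omit [HasPrincipalDivisors L F] [HasPrincipalDivisors (ResidueField A) Fk] in
theorem degree_map (D : Divisor L F) (f : Place L F → Place (ResidueField A) Fk) :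
    Divisor.degree (Finsupp.mapDomain f D) = Divisor.degree D := by
  induction D using Finsupp.induction with
  | zero => simp
  | single_add P n D _ _ ih =>
    rw [Finsupp.mapDomain_add, map_add, map_add, ih, Finsupp.mapDomain_single,
      Divisor.degree_single, Divisor.degree_single, deg_eq_one, deg_eq_one]

omit [IsAlgClosed L] [IsFunctionField L F] [IsAlgClosed (ResidueField A)]
  [IsFunctionField (ResidueField A) Fk] in
theorem red_mem_rr {D : Divisor L F} {x : F} (hx : x ∈ riemannRochSpace D) (hi : M.IsInt x) :
    M.red x ∈ riemannRochSpace (Finsupp.mapDomain R.toFun D) := by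
  rcases eq_or_ne (M.red x) 0 with h0 | h0
  · rw [h0]; exact zero_mem _
  have hx0 : x ≠ 0 := fun e => h0 (by rw [e]; exact M.red_zero)
  rw [mem_rr_iff_dvs h0, ← R.spec x hi h0, ← Finsupp.mapDomain_add]
  simpa using mapDomain_mono R.toFun ((mem_rr_iff_dvs hx0).mp hx)

theorem redSub_le (D : Divisor L F) :
    M.redSub (riemannRochSpace D) ≤ riemannRochSpace (Finsupp.mapDomain R.toFun D) := by
  rintro _ ⟨x, hx, hi, rfl⟩
  exact R.red_mem_rr hx hi

theorem finrank_le (D : Divisor L F) :
    Module.finrank L (riemannRochSpace D) ≤
      Module.finrank (ResidueField A) (riemannRochSpace (Finsupp.mapDomain R.toFun D)) := by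
  rw [← M.finrank_redSub (riemannRochSpace D)]
  exact Submodule.finrank_mono (R.redSub_le D)

variable {g : ℤ}

/-- In large degree every function on the special fibre lifts. -/
theorem exists_lift
    (hlow : ∀ D : Divisor L F,
      Divisor.degree D + 1 - g ≤ (Module.finrank L (riemannRochSpace D) : ℤ))
    {c : ℤ} (hc : ∀ D : Divisor (ResidueField A) Fk, c ≤ Divisor.degree D →
      (Module.finrank (ResidueField A) (riemannRochSpace D) : ℤ) ≤ Divisor.degree D + 1 - g)
    {D : Divisor L F} (hD : c ≤ Divisor.degree D) {s : Fk}
    (hs : s ∈ riemannRochSpace (Finsupp.mapDomain R.toFun D)) :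
    ∃ x ∈ riemannRochSpace D, M.IsInt x ∧ M.red x = s := by
  have heq : M.redSub (riemannRochSpace D) =
      riemannRochSpace (Finsupp.mapDomain R.toFun D) := by
    refine Submodule.eq_of_le_of_finrank_le (R.redSub_le D) ?_
    rw [M.finrank_redSub]
    have h1 := hlow D
    have h2 := hc (Finsupp.mapDomain R.toFun D) (by rwa [degree_map])
    rw [degree_map] at h2
    omega
  exact M.mem_redSub.mp (heq ▸ hs)

end ReductionMap

end GoodModel

end Fermat.Agent.Reduction
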