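import Fermat.Agent.Reduction.ModularModel
import Fermat.Agent.Reduction.Spec
import Fermat.Prelude.Def_ModularCurve_ReductionModL

/-!
# Generic reduction maps and `IsPlaceReductionModL`

A place map satisfying the specification on integral series satisfies it on the whole Gauss
ring, and conversely.
-/

set_option autoImplicit false
set_option linter.unusedSectionVars false

noncomputable section

namespace Fermat.Agent.Reduction

open IsLocalRing ModularCurve HahnSeries AlgebraicCurve IntermediateField
  Fermat.Agent.FunctionFieldRR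

variable {A : ValuationSubring (AlgebraicClosure ℚ)} {N : ℕ}
  (M : GoodModel A (modularFunctionFieldBar N) (modularFunctionFieldFullC (ResidueField A) N))
  [HasPrincipalDivisors (AlgebraicClosure ℚ) (modularFunctionFieldBar N)]
  [HasPrincipalDivisors (ResidueField A) (modularFunctionFieldFullC (ResidueField A) N)]

/-- A place reduction in the sense of `IsPlaceReductionModL` is a reduction map of the model. -/
def reductionMapOfSpec
    (r : Place (AlgebraicClosure ℚ) (modularFunctionFieldBar N) →
      Place (ResidueField A) (modularFunctionFieldFullC (ResidueField A) N))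
    (hr : IsPlaceReductionModL A N r) : M.ReductionMap where
  toFun := r
  spec := by
    intro x hxi hxr
    have hx0 : x ≠ 0 := fun h => hxr (by rw [h, M.red_zero])
    obtain ⟨c, P, Q, hc, hPQ, hPF, hQF, hPk, hQk, hP0, hQ0⟩ := M.exists_rep' hx0
    set p : modularFunctionFieldBar N := ⟨ιS A P, hPF⟩ with hp
    set q : modularFunctionFieldBar N := ⟨ιS A Q, hQF⟩ with hq
    have key : ∀ (y : LaurentSeries A) (hy : ιS A y ∈ modularFunctionFieldBar N)
        (hy0 : redS A y ≠ 0),
        Finsupp.mapDomain r (dvs (⟨ιS A y, hy⟩ : modularFunctionFieldBar N)) =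
          dvs (M.red ⟨ιS A y, hy⟩) := by
      intro y hy hy0
      refine Finsupp.ext fun v => ?_
      rw [dvs_apply, hr.2 y hy (M.redS_mem hy) hy0 _ (fun P => dvs_apply _ P) v]
      congr 1
      exact Subtype.ext (M.isInt_series (x := (⟨ιS A y, hy⟩ : modularFunctionFieldBar N)) rfl).2.symm
    have hq0 : q ≠ 0 := fun h => hQ0 (by
      rw [show Q = 0 from ιS_injective (by rw [map_zero]; exact congrArg Subtype.val h), map_zero])
    have hp0 : p ≠ 0 := fun h => hP0 (by
      rw [show P = 0 from ιS_injective (by rw [map_zero]; exact congrArg Subtype.val h), map_zero])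
    -- `x` is a constant times `p / q`
    have hxeq : x * q = c • p := Subtype.ext (by
      rw [coe_smul_intermediateField, MulMemClass.coe_mul, mul_comm]
      exact hPQ)
    have hqr : M.red q ≠ 0 := fun h => hQ0 (by
      have h' := congrArg Subtype.val h
      rwa [(M.isInt_series (x := q) rfl).2, ZeroMemClass.coe_zero] at h')
    have hpr : M.red p ≠ 0 := fun h => hP0 (by
      have h' := congrArg Subtype.val h
      rwa [(M.isInt_series (x := p) rfl).2, ZeroMemClass.coe_zero] at h')
    obtain ⟨hxqi, hxq⟩ := M.isInt_mul hxi (M.isInt_series (x := q) rfl).1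
    have h1 : dvs (K := AlgebraicClosure ℚ) x = dvs p - dvs q := by
      rw [eq_sub_iff_add_eq, ← dvs_mul hx0 hq0, hxeq, dvs_smul hc hp0]
    have h2 : dvs (K := ResidueField A) (M.red x) = dvs (M.red p) - dvs (M.red q) := by
      rw [eq_sub_iff_add_eq, ← dvs_mul hxr hqr, ← hxq, hxeq]
      by_cases hcA : c ∈ A
      · rw [(M.isInt_smul hcA (M.isInt_series (x := p) rfl).1).2]
        refine dvs_smul ?_ hpr
        intro h
        have : M.red (x * q) = 0 := by
          rw [hxeq, (M.isInt_smul hcA (M.isInt_series (x := p) rfl).1).2, h, zero_smul]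
        rw [hxq, mul_eq_zero] at this
        exact this.elim hxr hqr
      · exfalso
        have hc' : c⁻¹ ∈ A := (A.mem_or_inv_mem c).resolve_left hcA
        obtain ⟨-, he⟩ := M.isInt_smul hc' hxqi
        have hcc : c⁻¹ • (x * q) = p := by
          rw [hxeq, smul_smul, inv_mul_cancel₀ hc, one_smul]
        rw [hcc] at he
        have hm : residue A ⟨c⁻¹, hc'⟩ = 0 := by
          by_contra hne
          obtain ⟨u, hu⟩ := (residue_ne_zero_iff_isUnit _).mp hne
          have h2 : c⁻¹ * ((↑u⁻¹ : A) : AlgebraicClosure ℚ) = 1 := by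
            have h1 : ((u : A) : AlgebraicClosure ℚ) * ((↑u⁻¹ : A) : AlgebraicClosure ℚ) = 1 := by
              rw [← MulMemClass.coe_mul, Units.mul_inv]; rfl
            rwa [hu] at h1
          exact hcA (((inv_mul_eq_one₀ hc).mp h2).symm ▸ (↑u⁻¹ : A).2)
        rw [hm, zero_smul] at he
        exact hpr he
    rw [h1, h2, Finsupp.mapDomain_sub, key P hPF hP0, key Q hQF hQ0]

variable {M}

/-- A reduction map of the model is a place reduction in the sense of `IsPlaceReductionModL`. -/
theorem isPlaceReductionModL_of_reductionMap [IsAlgClosed (ResidueField A)]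
    [IsFunctionField (AlgebraicClosure ℚ) (modularFunctionFieldBar N)]
    [IsFunctionField (ResidueField A) (modularFunctionFieldFullC (ResidueField A) N)]
    (R : M.ReductionMap) : IsPlaceReductionModL A N R.toFun := by
  refine ⟨fun P => by rw [deg_eq_one, deg_eq_one], fun y hy hyk hy0 D hD Q => ?_⟩
  obtain ⟨hi, hr⟩ := M.isInt_series (x := (⟨ιS A y, hy⟩ : modularFunctionFieldBar N)) rfl
  rw [show D = dvs (⟨ιS A y, hy⟩ : modularFunctionFieldBar N) from eq_dvs hD,
    R.spec _ hi (fun h => hy0 (by rw [← hr, h]; rfl)), dvs_apply]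
  congr 1
  exact Subtype.ext hr

include M in
/-- Principal divisors are generated by divisors of integral series. -/
theorem principalGeneratedByIntegral_of_model :
    PrincipalGeneratedByIntegral A (IsLocalRing.residue A) N := by
  rintro D ⟨f, hf0, hfD⟩
  obtain ⟨c, P, Q, hc, hPQ, hPF, hQF, hPk, hQk, hP0, hQ0⟩ := M.exists_rep' hf0
  set p : modularFunctionFieldBar N := ⟨ιS A P, hPF⟩ with hp
  set q : modularFunctionFieldBar N := ⟨ιS A Q, hQF⟩ with hq
  have hq0 : q ≠ 0 := fun h => hQ0 (by
    rw [show Q = 0 from ιS_injective (by rw [map_zero]; exact congrArg Subtype.val h), map_zero])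
  have hp0 : p ≠ 0 := fun h => hP0 (by
    rw [show P = 0 from ιS_injective (by rw [map_zero]; exact congrArg Subtype.val h), map_zero])
  have hfeq : f * q = c • p := Subtype.ext (by
    rw [coe_smul_intermediateField, MulMemClass.coe_mul, mul_comm]
    exact hPQ)
  rw [show D = dvs f from eq_dvs hfD,
    show dvs (K := AlgebraicClosure ℚ) f = dvs p - dvs q by
      rw [eq_sub_iff_add_eq, ← dvs_mul hf0 hq0, hfeq, dvs_smul hc hp0]]
  exact sub_mem
    (AddSubgroup.subset_closure ⟨P, hPF, hPk, hP0, fun v => dvs_apply _ v⟩)
    (AddSubgroup.subset_closure ⟨Q, hQF, hQk, hQ0, fun v => dvs_apply _ v⟩)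

end Fermat.Agent.Reduction
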