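import Fermat.Agent.Reduction.Construction
import Fermat.Agent.Reduction.Bridge

/-!
# Existence of the reduction of `J₀(N)` modulo `ℓ`
-/

set_option autoImplicit false

noncomputable section

namespace Fermat.Agent.Reduction

open IsLocalRing ModularCurve AlgebraicCurve Fermat.Agent.FunctionFieldRR

/-- `ReductionInputsModL` holds at every place over `ℓ`, given the function-field facts. -/
theorem reductionInputsModL {N ℓ : ℕ} [Fact ℓ.Prime]
    {A : ValuationSubring (AlgebraicClosure ℚ)} (hA : A.LiesOverPrime ℓ) {g : ℤ}
    (hF : ReductionFacts (ResidueField A) N g) : ReductionInputsModL A N := by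
  have := hF.char0.hasPrincipal
  have := hF.charL.hasPrincipal
  have : IsAlgClosed (ResidueField A) := isAlgClosed_residueField
  set M := modularGoodModel A N hA hF with hM
  have := M.isFunctionField_bar
  have := M.isFunctionField_red
  obtain ⟨c, hc⟩ := hF.genus_le
  obtain ⟨R⟩ := M.exists_reductionMap ⟨hF.char0.riemann, hF.charL.riemann, hc⟩
  exact ⟨R.toFun, isPlaceReductionModL_of_reductionMap R, principalGeneratedByIntegral_of_model (M := M)⟩

end Fermat.Agent.Reduction
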