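import Fermat.Agent.Reduction.RootSeries

/-!
# Reduction is injective on torsion of order invertible in `A`
-/

set_option autoImplicit false
set_option linter.unusedSectionVars false

noncomputable section

namespace Fermat.Agent.Reduction

open IsLocalRing ModularCurve HahnSeries AlgebraicCurve IntermediateField
  Fermat.Agent.FunctionFieldRR

variable {L : Type*} [Field L] {A : ValuationSubring L}
  {F : IntermediateField L (LaurentSeries L)}
  {Fk : IntermediateField (ResidueField A) (LaurentSeries (ResidueField A))}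
  [IsAlgClosed L] [IsFunctionField L F] [IsAlgClosed (ResidueField A)]
  [IsFunctionField (ResidueField A) Fk]
  [HasPrincipalDivisors L F] [HasPrincipalDivisors (ResidueField A) Fk]

namespace GoodModel

variable {M : GoodModel A F Fk} (R : M.ReductionMap) {g c : ℤ}
  (H : RRData (A := A) (F := F) (Fk := Fk) g c)

include R H in
/-- A function in the Gauss ring, congruent to `1`, with an `m`-th root in `q⁻ᵉA⟦q⟧` and poles
only at infinity is an `m`-th power. -/
theorem exists_pow_eq {m e : ℕ} (hm : IsUnit (m : A)) (he : c ≤ (e : ℤ)) {F₀ : F}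
    (hmem : F₀ ∈ riemannRochSpace (Finsupp.single M.cuspF ((m * e : ℕ) : ℤ)))
    {γ : LaurentSeries A} (hγ : (ιS A γ) ^ m = (F₀ : LaurentSeries L))
    (hγ1 : redS A γ = 1) (hγlow : ∀ k < -(e : ℤ), γ.coeff k = 0) :
    ∃ x : F, x ^ m = F₀ := by
  classical
  have hm0 : 0 < m := Nat.pos_of_ne_zero fun h => by simp [h] at hm
  set V := riemannRochSpace (Finsupp.single M.cuspF (e : ℤ)) with hV
  have hsingle : (0 : Divisor L F) ≤ Finsupp.single M.cuspF (e : ℤ) :=
    Finsupp.le_def.mpr fun v => by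
      rw [Finsupp.single_apply]; split_ifs <;> simp
  have hscal : Scalable A V := by
    intro v hv hv0
    obtain ⟨a, ha, hai, har⟩ := M.exists_scale hv0
    obtain ⟨y, hy, hy', -⟩ := exists_series_cusp R H (V.smul_mem a hv) hai
    exact ⟨a, y, hy, fun h => har (Subtype.ext (by rw [hy', h]; rfl))⟩
  obtain ⟨B⟩ := exists_pivotBasis V hscal
  have hVlow : ∀ i, ∀ k < -(e : ℤ), (B.vec i).coeff k = 0 := by
    intro i k hk
    obtain ⟨y, hy, -, hy0⟩ :=
      exists_series_cusp R H (B.el_mem i) (M.isInt_series (B.coe_el i)).1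
    rw [B.coe_el] at hy
    rw [ιS_injective hy]
    exact hy0 k hk
  -- the projection of the root to `V`
  set yx : LaurentSeries A :=
    ∑ i, HahnSeries.single 0 (γ.coeff (B.idx i)) * B.vec i with hyx
  set x : F := ∑ i, ((γ.coeff (B.idx i) : A) : L) • B.el i with hx
  have hxV : x ∈ V := V.sum_mem fun i _ => V.smul_mem _ (B.el_mem i)
  have hxy : (x : LaurentSeries L) = ιS A yx := by
    rw [hx, hyx, map_sum, AddSubmonoidClass.coe_finsetSum]
    refine Finset.sum_congr rfl fun i _ => ?_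
    rw [coe_smul_intermediateField, B.coe_el, map_mul, ιS_single]
  have hxr : redS A yx = 1 := by
    have h1 := B.redS_decomp (x := (1 : F)) (y := 1) (one_mem_rr hsingle) (by rw [map_one]; rfl)
    rw [map_one] at h1
    rw [h1, hyx, map_sum]
    refine Finset.sum_congr rfl fun i _ => ?_
    rw [map_mul, redS_single]
    congr 2
    have hc := congrArg (fun z => z.coeff (B.idx i)) (hγ1.trans (map_one (redS A)).symm)
    simpa using hc
  have hpiv : ∀ j, (γ - yx).coeff (B.idx j) = 0 := by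
    intro j
    simp [hyx, HahnSeries.coeff_sum, B.coeff_vec]
  have hlow : ∀ k < -(e : ℤ), (γ - yx).coeff k = 0 := by
    intro k hk
    simp [hyx, HahnSeries.coeff_sum, hγlow k hk, hVlow _ k hk]
  obtain ⟨hxi, -⟩ := M.isInt_series hxy
  by_cases hf : F₀ - x ^ m = 0
  · exact ⟨x, (sub_eq_zero.mp hf).symm⟩
  exfalso
  obtain ⟨a, ha, hai, har⟩ := M.exists_scale hf
  set Um : LaurentSeries A := ∑ i ∈ Finset.range m, γ ^ i * yx ^ (m - 1 - i) with hUm
  have hUr : redS A Um = (m : LaurentSeries (ResidueField A)) := by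
    rw [hUm, map_sum, Finset.sum_congr rfl fun i _ => ?_, Finset.sum_const, Finset.card_range,
      nsmul_eq_mul, mul_one]
    rw [map_mul, map_pow, map_pow, hγ1, hxr, one_pow, one_pow, one_mul]
  have hmk : (m : ResidueField A) ≠ 0 := by
    rw [← map_natCast (residue A)]; exact (hm.map _).ne_zero
  have hUr0 : redS A Um ≠ 0 := by
    rw [hUr]
    intro h
    rw [← map_natCast (algebraMap (ResidueField A) (LaurentSeries (ResidueField A)))] at h
    exact hmk ((map_eq_zero _).mp h)
  have hmemm : F₀ - x ^ m ∈ riemannRochSpace (Finsupp.single M.cuspF ((m * e : ℕ) : ℤ)) := by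
    refine sub_mem hmem (rr_mono ?_ (rr_pow hxV m))
    rw [Finsupp.smul_single, nsmul_eq_mul]
    push_cast
    exact le_rfl
  obtain ⟨y₂, hy₂, hy₂', -⟩ :=
    exists_series_cusp R H (Submodule.smul_mem _ a hmemm) hai
  have hprod : ιS A Um * (HahnSeries.single 0 a * ιS A (γ - yx)) = ιS A y₂ := by
    rw [mul_left_comm, ← map_mul, hUm, geom_sum₂_mul, map_sub, map_pow, map_pow, hγ, ← hxy,
      ← hy₂, coe_smul_intermediateField, AddSubgroupClass.coe_sub, SubmonoidClass.coe_pow]
  obtain ⟨w, hw, hUw⟩ := exists_div M.nil hUr0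
    ((Bdd.of_range ⟨γ - yx, rfl⟩).single_mul a) hprod
  have hwc : ∀ k, (γ - yx).coeff k = 0 → w.coeff k = 0 := by
    intro k hk
    apply A.subtype_injective
    have h := congrArg (fun z => z.coeff k) hw
    simp only [coeff_single_zero_mul, coeffMap_coeff] at h
    rw [h, hk, map_zero, mul_zero]
  -- the reduced error term
  set f₂ := M.red (a • (F₀ - x ^ m)) with hf₂
  set s : Fk := algebraMap (ResidueField A) Fk (m : ResidueField A)⁻¹ * f₂ with hs
  have hsw : (s : LaurentSeries (ResidueField A)) = redS A w := by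
    rw [hs, MulMemClass.coe_mul, IntermediateField.coe_algebraMap_apply, hy₂', ← hUw, map_mul,
      hUr, ← map_natCast (algebraMap (ResidueField A) (LaurentSeries (ResidueField A))),
      ← mul_assoc, ← map_mul, inv_mul_cancel₀ hmk, map_one, one_mul]
  have hs0 : s ≠ 0 :=
    mul_ne_zero ((map_ne_zero (algebraMap (ResidueField A) Fk)).mpr (inv_ne_zero hmk)) har
  have hsmem : s ∈ riemannRochSpace (Finsupp.mapDomain R.toFun (Finsupp.single M.cuspF (e : ℤ))) := by
    have h1 := R.red_mem_rr (Submodule.smul_mem _ a hmemm) hai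
    rw [Finsupp.mapDomain_single, map_cusp R H] at h1 ⊢
    rw [mem_riemannRochSpace_iff]
    intro v
    rcases eq_or_ne v M.cuspK with rfl | hv
    · right
      rw [Finsupp.single_eq_same, ord_cuspK]
      by_contra hlt
      refine hs0 (Subtype.ext (HahnSeries.coeff_order_eq_zero.mp ?_))
      rw [hsw] at hlt ⊢
      rw [coeffMap_coeff, hwc _ (hlow _ (by omega)), map_zero]
    · have h2 : s ∈ riemannRochSpace (Finsupp.single M.cuspK ((m * e : ℕ) : ℤ)) := by
        rw [hs, ← Algebra.smul_def]; exact Submodule.smul_mem _ _ h1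
      simpa [hv, hv.symm] using mem_riemannRochSpace_iff.mp h2 v
  obtain ⟨z, hz, hzi, hzr⟩ := R.exists_lift H.low H.up
    (by rw [Divisor.degree_single, deg_eq_one]; simpa using he) hsmem
  obtain ⟨yz, hyz, hyz', -⟩ := exists_series_cusp R H hz hzi
  refine hs0 (Subtype.ext ?_)
  have hdec := B.redS_decomp hz hyz
  rw [← hzr, hyz', hdec]
  refine Finset.sum_eq_zero fun i _ => ?_
  have h : residue A (yz.coeff (B.idx i)) = 0 := by
    rw [← coeffMap_coeff (residue A), ← hyz', hzr, hsw, coeffMap_coeff, hwc _ (hpiv i), map_zero]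
  rw [h, map_zero, zero_mul]

include R H in
/-- If `mD` is principal and the reduction of `D` is principal, then `D` is principal. -/
theorem isPrincipal_of_nsmul {m : ℕ} (hm : IsUnit (m : A)) {D : Divisor L F}
    (hdeg : Divisor.degree D = 0) (hmD : Divisor.IsPrincipal (m • D))
    (hrD : Divisor.IsPrincipal (Finsupp.mapDomain R.toFun D)) : Divisor.IsPrincipal D := by
  classical
  have hm0 : 0 < m := Nat.pos_of_ne_zero fun h => by simp [h] at hm
  obtain ⟨f, hf0, hf⟩ := hmD
  obtain ⟨h, hh0, hh⟩ := hrD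
  have hf' : m • D = dvs f := eq_dvs hf
  have hh' : Finsupp.mapDomain R.toFun D = dvs h := eq_dvs hh
  set e := c.toNat + 1 with he
  have hce : c ≤ (e : ℤ) := by have := Int.self_le_toNat c; omega
  set E : Divisor L F := Finsupp.single M.cuspF (e : ℤ) with hE
  have hinv : dvs (K := ResidueField A) h⁻¹ = - dvs h :=
    Finsupp.ext fun w => by simp [dvs_apply, w.ord_inv]
  have hlift : h⁻¹ ∈ riemannRochSpace (Finsupp.mapDomain R.toFun (D + E)) := by
    rw [mem_rr_iff_dvs (inv_ne_zero hh0), hinv, Finsupp.mapDomain_add, hh', hE,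
      Finsupp.mapDomain_single, add_comm (dvs h), add_neg_cancel_right]
    exact Finsupp.le_def.mpr fun v => by rw [Finsupp.single_apply]; split_ifs <;> simp
  have hdegDE : c ≤ Divisor.degree (D + E) := by
    rw [map_add, hdeg, hE, Divisor.degree_single, deg_eq_one]
    simpa using hce
  obtain ⟨s, hs, hsi, hsr⟩ := R.exists_lift H.low H.up hdegDE hlift
  have hs0 : s ≠ 0 := fun e' => inv_ne_zero hh0 (by rw [← hsr, e', M.red_zero])
  set B := D + E + dvs s with hB
  have hB0 : 0 ≤ B := (mem_rr_iff_dvs hs0).mp hs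
  have hrB : Finsupp.mapDomain R.toFun B = Finsupp.single M.cuspK (e : ℤ) := by
    rw [hB, Finsupp.mapDomain_add, Finsupp.mapDomain_add, hh',
      R.spec s hsi (hsr ▸ inv_ne_zero hh0), hsr, hinv, hE, Finsupp.mapDomain_single, map_cusp R H]
    abel
  set F₁ := f * s ^ m with hF₁
  have hF₁0 : F₁ ≠ 0 := mul_ne_zero hf0 (pow_ne_zero _ hs0)
  have hF₁d : dvs F₁ = m • (B - E) := by
    rw [hF₁, dvs_mul hf0 (pow_ne_zero _ hs0), dvs_pow, ← hf', hB, ← smul_add]
    congr 1
    abel
  obtain ⟨a, ha, hai, har⟩ := M.exists_scale hF₁0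
  have haF₁ : a • F₁ ≠ 0 := fun h' => har (by rw [h', M.red_zero])
  have hdiv1 : dvs (a • F₁) = m • (B - E) := by rw [dvs_smul ha hF₁0, hF₁d]
  have hred1 : dvs (M.red (a • F₁)) = (0 : Divisor (ResidueField A) Fk) := by
    rw [← R.spec _ hai har, hdiv1, ← Finsupp.mapDomain.addMonoidHom_apply, map_nsmul, map_sub,
      Finsupp.mapDomain.addMonoidHom_apply, Finsupp.mapDomain.addMonoidHom_apply, hrB, hE,
      Finsupp.mapDomain_single, map_cusp R H, sub_self, smul_zero]
  obtain ⟨b₀, hb₀⟩ := exists_eq_algebraMap_of_dvs_eq_zero hred1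
  have hb₀0 : b₀ ≠ 0 := fun h' => har (by rw [hb₀, h', map_zero])
  obtain ⟨⟨b, hbA⟩, hb⟩ := residue_surjective b₀⁻¹
  have hbne : b ≠ 0 := fun h' => inv_ne_zero hb₀0 (by
    rw [← hb, show (⟨b, hbA⟩ : A) = 0 from Subtype.ext h', map_zero])
  obtain ⟨hF₀i, hF₀r⟩ := M.isInt_smul hbA hai
  set F₀ : F := b • (a • F₁) with hF₀
  have hF₀r1 : M.red F₀ = 1 := by
    rw [hF₀r, hb₀, hb, Algebra.smul_def, ← map_mul, inv_mul_cancel₀ hb₀0, map_one]
  have hF₀d : dvs F₀ = m • (B - E) := by
    rw [hF₀, dvs_smul hbne haF₁, hdiv1]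
  have hF₀0 : F₀ ≠ 0 := by
    rw [hF₀, Algebra.smul_def]
    exact mul_ne_zero ((map_ne_zero _).mpr hbne) haF₁
  obtain ⟨γ, hγ, hγ1, hγlow⟩ := exists_root_series R H hm hB0 hrB hF₀i hF₀r1 hF₀d
  have hmem : F₀ ∈ riemannRochSpace (Finsupp.single M.cuspF ((m * e : ℕ) : ℤ)) := by
    rw [mem_rr_iff_dvs hF₀0, hF₀d, nsmul_sub, hE, Finsupp.smul_single, nsmul_eq_mul]
    push_cast
    rw [add_sub_cancel]
    exact nsmul_nonneg hB0 m
  obtain ⟨x, hx⟩ := exists_pow_eq R H hm hce hmem hγ hγ1 hγlow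
  have hx0 : x ≠ 0 := fun h' => hF₀0 (by rw [← hx, h', zero_pow hm0.ne'])
  have hxd : dvs x = B - E := by
    ext v
    have h' := congrArg (fun d : Divisor L F => d v) hF₀d
    simp only [← hx, dvs_pow, Finsupp.smul_apply, nsmul_eq_mul] at h'
    exact mul_left_cancel₀ (by exact_mod_cast hm0.ne') h'
  refine ⟨x / s, div_ne_zero hx0 hs0, fun v => ?_⟩
  rw [← dvs_apply, dvs_div hx0 hs0, hxd, hB]
  simp only [Finsupp.sub_apply, Finsupp.add_apply]
  abel

end GoodModel

end Fermat.Agent.Reduction
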