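import Fermat.Agent.Reduction.Bridge
import Fermat.Agent.Reduction.Injective

/-!
# Reduction of `J₀(N)` is injective on torsion prime to `ℓ`

The statement `ModularCurve.eq_zero_of_reductionModL_eq_zero_of_nsmul_eq_zero`, given the
function-field facts `ReductionFacts`.
-/

set_option autoImplicit false

noncomputable section

namespace Fermat.Agent.Reduction

open IsLocalRing ModularCurve AlgebraicCurve Fermat.Agent.FunctionFieldRR

/-- Reduction of `J₀(N)` is injective on torsion prime to `ℓ`. -/
theorem eq_zero_of_reductionModL_eq_zero {N ℓ : ℕ} [Fact ℓ.Prime]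
    {A : ValuationSubring (AlgebraicClosure ℚ)} (hA : A.LiesOverPrime ℓ) {g : ℤ}
    (hF : ReductionFacts (ResidueField A) N g)
    (h : ReductionInputsModL A N) {m : ℕ} (hm : ¬ ℓ ∣ m) {z : JZero N}
    (hmz : m • z = 0) (hz : reductionModL A N z = 0) : z = 0 := by
  classical
  have := hF.char0.hasPrincipal
  have := hF.charL.hasPrincipal
  have : IsAlgClosed (ResidueField A) := isAlgClosed_residueField
  set M := modularGoodModel A N hA hF with hM
  have := M.isFunctionField_bar
  have := M.isFunctionField_red
  set r := placeReductionModL h with hr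
  have hspec := isPlaceReductionModL_placeReductionModL h
  set R := reductionMapOfSpec M r hspec with hR
  obtain ⟨c, hc⟩ := hF.genus_le
  obtain ⟨⟨D, hD⟩, rfl⟩ := Pic0.mk_surjective z
  rw [reductionModL_mk h] at hz
  have hrD : Divisor.IsPrincipal (Finsupp.mapDomain R.toFun D) := by
    have := (QuotientAddGroup.eq_zero_iff _).mp hz
    rw [AddSubgroup.mem_addSubgroupOf, coe_reductionDegZeroAlong] at this
    exact this
  have hmD : Divisor.IsPrincipal (m • D) := by
    have h' : (QuotientAddGroup.mk (m • (⟨D, hD⟩ : Divisor.degZero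
        (K := AlgebraicClosure ℚ) (F := modularFunctionFieldBar N))) : JZero N) = 0 := by
      rw [QuotientAddGroup.mk_nsmul]; exact hmz
    have := (QuotientAddGroup.eq_zero_iff _).mp h'
    rw [AddSubgroup.mem_addSubgroupOf, AddSubgroupClass.coe_nsmul] at this
    exact this
  have hp := GoodModel.isPrincipal_of_nsmul R ⟨hF.char0.riemann, hc⟩
    (isUnit_natCast_of_not_dvd hA hm) (Divisor.mem_degZero.mp hD) hmD hrD
  exact (QuotientAddGroup.eq_zero_iff _).mpr (AddSubgroup.mem_addSubgroupOf.mpr hp)

end Fermat.Agent.Reduction
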