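import Fermat.Agent.Reduction.Construction

/-!
# The genus does not increase under reduction
-/

set_option autoImplicit false
set_option linter.unusedSectionVars false

noncomputable section

namespace Fermat.Agent.Reduction

open IsLocalRing AlgebraicCurve Fermat.Agent.FunctionFieldRR

variable {L : Type*} [Field L] {A : ValuationSubring L}
  {F : IntermediateField L (LaurentSeries L)}
  {Fk : IntermediateField (ResidueField A) (LaurentSeries (ResidueField A))}
  [IsAlgClosed L] [IsFunctionField L F] [IsAlgClosed (ResidueField A)]
  [IsFunctionField (ResidueField A) Fk]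
  [HasPrincipalDivisors L F] [HasPrincipalDivisors (ResidueField A) Fk]

namespace GoodModel

variable (M : GoodModel A F Fk)

include M in
/-- If Riemann's inequality holds upstairs with `g`, and downstairs Riemann–Roch is an equality
with `g'` in large degree, then `g' ≤ g`. -/
theorem genus_red_le {g g' c : ℤ}
    (hlow : ∀ D : Divisor L F,
      Divisor.degree D + 1 - g ≤ (Module.finrank L (riemannRochSpace D) : ℤ))
    (hlowK : ∀ D : Divisor (ResidueField A) Fk,
      Divisor.degree D + 1 - g' ≤ (Module.finrank (ResidueField A) (riemannRochSpace D) : ℤ))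
    (hupK : ∀ D : Divisor (ResidueField A) Fk, c ≤ Divisor.degree D →
      (Module.finrank (ResidueField A) (riemannRochSpace D) : ℤ) ≤ Divisor.degree D + 1 - g') :
    g' ≤ g := by
  classical
  obtain ⟨P⟩ := (inferInstance : Nonempty (Place L F))
  set n : ℕ := (c + g).toNat + 1 with hn
  set B : Divisor L F := Finsupp.single P (n : ℤ) with hB
  have hB0 : 0 ≤ B := Finsupp.le_def.mpr fun v => by
    rw [hB, Finsupp.single_apply]; split_ifs <;> simp
  have hBdeg : Divisor.degree B = n := by rw [hB, Divisor.degree_single, deg_eq_one]; simp
  have h1 := hlow B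
  have h2 := finrank_rr_le_degree_of_nonneg (M.poleSup_nonneg B) _ (M.redSub_le_poleSup B)
  have h3 := Submodule.finrank_mono (M.redSub_le_poleSup B)
  have h4 := M.degree_poleSup_le hlowK hupK hB0
  rw [M.finrank_redSub] at h2 h3
  have h5 := Int.self_le_toNat (c + g)
  by_cases h : c ≤ Divisor.degree (M.poleSup B)
  · have h6 := hupK _ h
    omega
  · omega

end GoodModel

end Fermat.Agent.Reduction
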