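import Fermat.Prelude.Def_AlgebraicCurve_Repartitions
import Fermat.Prelude.Def_AlgebraicCurve_IsCurveOver
import Fermat.Prelude.Def_ModularCurve_ArithmeticGalois
import Fermat.Prelude.Def_ModularCurve_X0ModL

/-!
# Inputs of the reduction theory of `X₀(N)` modulo `ℓ`

Function-field facts that the reduction theory consumes.
-/

set_option autoImplicit false

noncomputable section

namespace Fermat.Agent.Reduction

open AlgebraicCurve ModularCurve

/-- A function field of one variable over an algebraically closed field for which the
Riemann inequality holds with the number `g`. -/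
structure CurveData (K F : Type*) [Field K] [Field F] [Algebra K F] (g : ℤ) : Prop where
  deg_one : ∀ P : Place K F, P.deg = 1
  hasPrincipal : HasPrincipalDivisors K F
  riemann : ∀ D : Divisor K F,
    Divisor.degree D + 1 - g ≤ (Module.finrank K (riemannRochSpace D) : ℤ)

/-- The Riemann inequality is eventually an equality, i.e. the genus is at least `g`. -/
def GenusAtLeast (K F : Type*) [Field K] [Field F] [Algebra K F] (g : ℤ) : Prop :=
  ∃ c : ℤ, ∀ D : Divisor K F, c ≤ Divisor.degree D →
    (Module.finrank K (riemannRochSpace D) : ℤ) ≤ Divisor.degree D + 1 - g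

variable {K : Type*} [Field K]

/-- `jqModC` as an element of `modularFunctionFieldFullC`. -/
def jC (K : Type*) [Field K] (N : ℕ) : modularFunctionFieldFullC K N :=
  ⟨jqModC K, jqModC_mem_full K N⟩

theorem jqModC_mem_bar (N : ℕ) :
    jqModC (AlgebraicClosure ℚ) ∈ modularFunctionFieldBar N := by
  have h : coeffEmb (AlgebraicClosure ℚ) jq = jqModC (AlgebraicClosure ℚ) := by
    rw [← jqModC_rat]; exact coeffMap_jqModC _
  rw [← h]
  refine coeffEmb_mem_laurentBaseChange _ ?_
  simpa [qExpand_one_apply] using jqd_mem_full N (one_dvd N)

/-- `jqModC` as an element of `modularFunctionFieldBar`. -/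
def jBar (N : ℕ) : modularFunctionFieldBar N :=
  ⟨jqModC (AlgebraicClosure ℚ), jqModC_mem_bar N⟩

/-- The facts about `X₀(N)` in characteristic zero and in characteristic `ℓ` used by the
reduction theory: `k` stands for the residue field. -/
structure ReductionFacts (k : Type*) [Field k] (N : ℕ) (g : ℤ) : Prop where
  char0 : CurveData (AlgebraicClosure ℚ) (modularFunctionFieldBar N) g
  charL : CurveData k (modularFunctionFieldFullC k N) g
  genus_le : GenusAtLeast k (modularFunctionFieldFullC k N) g
  finite_bar : FiniteDimensional
    (IntermediateField.adjoin (AlgebraicClosure ℚ) ({jBar N} : Set (modularFunctionFieldBar N)))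
    (modularFunctionFieldBar N)
  finite_C : FiniteDimensional
    (IntermediateField.adjoin k ({jC k N} : Set (modularFunctionFieldFullC k N)))
    (modularFunctionFieldFullC k N)
  degree_le :
    Module.finrank
      (IntermediateField.adjoin (AlgebraicClosure ℚ) ({jBar N} : Set (modularFunctionFieldBar N)))
      (modularFunctionFieldBar N) ≤
    Module.finrank
      (IntermediateField.adjoin k ({jC k N} : Set (modularFunctionFieldFullC k N)))
      (modularFunctionFieldFullC k N)

end Fermat.Agent.Reduction
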