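import Fermat.Agent.Reduction.RedRing
import Fermat.Agent.Reduction.Interface

/-!
# The series model of `X₀(N)`
-/

set_option autoImplicit false

noncomputable section

namespace Fermat.Agent.Reduction

open IsLocalRing ModularCurve HahnSeries IntermediateField AlgebraicCurve

theorem coeffMap_qExpand_jq {R S : Type*} [CommRing R] [CommRing S] (f : R →+* S) (d : ℕ)
    [NeZero d] : coeffMap f (qExpand R d (jqModC R)) = qExpand S d (jqModC S) := by
  rw [coeffMap_qExpand, coeffMap_jqModC]

theorem coeffEmb_qExpand_jq (L : Type*) [Field L] [Algebra ℚ L] (d : ℕ) [NeZero d] :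
    coeffEmb L (qExpand ℚ d jq) = qExpand L d (jqModC L) := by
  rw [coeffEmb, ← jqModC_rat, coeffMap_qExpand_jq]

/-- The base change of the rational modular function field is generated by the same series. -/
theorem modularFunctionFieldBar_eq (N : ℕ) :
    modularFunctionFieldBar N =
      IntermediateField.adjoin (AlgebraicClosure ℚ)
        (divisorExpansionsC (AlgebraicClosure ℚ) N) := by
  refine le_antisymm ?_ ?_
  · rw [modularFunctionFieldBar, laurentBaseChange, IntermediateField.adjoin_le_iff]
    rintro _ ⟨x, hx, rfl⟩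
    rw [SetLike.mem_coe]
    induction hx using IntermediateField.adjoin_induction with
    | mem x hx =>
      obtain ⟨d, hne, hd, rfl⟩ := hx
      rw [coeffEmb_qExpand_jq]
      exact subset_adjoin _ _ ⟨d, hne, hd, rfl⟩
    | algebraMap x =>
      rw [algebraMap_apply_eq_single, coeffEmb, coeffMap_single,
        ← algebraMap_laurentSeries_eq_single]
      exact IntermediateField.algebraMap_mem _ _
    | add x y _ _ hx hy => rw [map_add]; exact add_mem hx hy
    | inv x _ hx => rw [map_inv₀]; exact inv_mem hx
    | mul x y _ _ hx hy => rw [map_mul]; exact mul_mem hx hy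
  · rw [IntermediateField.adjoin_le_iff]
    rintro _ ⟨d, hne, hd, rfl⟩
    rw [← coeffEmb_qExpand_jq]
    exact coeffEmb_mem_laurentBaseChange _ (jqd_mem_full N hd)

variable (A : ValuationSubring (AlgebraicClosure ℚ)) (N : ℕ)

/-- The series `j(qᵈ)`, `d ∣ N`, with coefficients in `A`. -/
def modularSeriesModel :
    SeriesModel A (modularFunctionFieldBar N)
      (modularFunctionFieldFullC (ResidueField A) N) where
  gens := {x | ∃ (d : ℕ) (_ : NeZero d), d ∣ N ∧ x = qExpand A d (jqModC A)}
  j := jqModC A
  j_mem := ⟨1, inferInstance, one_dvd N, (qExpand_one_apply _).symm⟩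
  coeff_j := coeff_jqModC_neg_one A
  coeff_j_of_lt := fun _ hn => coeff_jqModC_of_lt A hn
  bar_eq := by
    rw [modularFunctionFieldBar_eq]
    congr 1
    ext x
    constructor
    · rintro ⟨d, hne, hd, rfl⟩
      exact ⟨_, ⟨d, hne, hd, rfl⟩, coeffMap_qExpand_jq A.subtype d⟩
    · rintro ⟨_, ⟨d, hne, hd, rfl⟩, rfl⟩
      exact ⟨d, hne, hd, coeffMap_qExpand_jq A.subtype d⟩
  red_eq := by
    rw [modularFunctionFieldFullC]
    congr 1
    ext x
    constructor
    · rintro ⟨d, hne, hd, rfl⟩
      exact ⟨_, ⟨d, hne, hd, rfl⟩, coeffMap_qExpand_jq (residue A) d⟩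
    · rintro ⟨_, ⟨d, hne, hd, rfl⟩, rfl⟩
      exact ⟨d, hne, hd, coeffMap_qExpand_jq (residue A) d⟩

theorem modularSeriesModel_jF : (modularSeriesModel A N).jF = jBar N :=
  Subtype.ext (coeffMap_jqModC A.subtype)

theorem modularSeriesModel_jK : (modularSeriesModel A N).jK = jC (ResidueField A) N :=
  Subtype.ext (coeffMap_jqModC (residue A))

/-- The good model of `X₀(N)` at `A`, given finiteness and the degree inequality. -/
def modularGoodModelOf {ℓ : ℕ} [Fact ℓ.Prime] (hA : A.LiesOverPrime ℓ)
    (hbar : FiniteDimensional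
      (IntermediateField.adjoin (AlgebraicClosure ℚ) ({jBar N} : Set (modularFunctionFieldBar N)))
      (modularFunctionFieldBar N))
    (hC : FiniteDimensional
      (IntermediateField.adjoin (ResidueField A)
        ({jC (ResidueField A) N} : Set (modularFunctionFieldFullC (ResidueField A) N)))
      (modularFunctionFieldFullC (ResidueField A) N))
    (hdeg : Module.finrank
      (IntermediateField.adjoin (AlgebraicClosure ℚ) ({jBar N} : Set (modularFunctionFieldBar N)))
      (modularFunctionFieldBar N) ≤
    Module.finrank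
      (IntermediateField.adjoin (ResidueField A)
        ({jC (ResidueField A) N} : Set (modularFunctionFieldFullC (ResidueField A) N)))
      (modularFunctionFieldFullC (ResidueField A) N)) :
    GoodModel A (modularFunctionFieldBar N) (modularFunctionFieldFullC (ResidueField A) N) where
  toSeriesModel := modularSeriesModel A N
  nil :=
    letI : Algebra ℚ (AlgebraicClosure ℚ) := AlgebraicClosure.instAlgebra ℚ
    haveI : Algebra.IsAlgebraic ℚ (AlgebraicClosure ℚ) := AlgebraicClosure.isAlgebraic ℚ
    nilModulo_of_liesOverPrime hA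
  fin_bar := by rw [modularSeriesModel_jF]; exact hbar
  fin_red := by rw [modularSeriesModel_jK]; exact hC
  degree_le := by rw [modularSeriesModel_jF, modularSeriesModel_jK]; exact hdeg

/-- The good model of `X₀(N)` at `A`, given the degree facts. -/
def modularGoodModel {ℓ : ℕ} [Fact ℓ.Prime] (hA : A.LiesOverPrime ℓ) {g : ℤ}
    (hF : ReductionFacts (ResidueField A) N g) :
    GoodModel A (modularFunctionFieldBar N) (modularFunctionFieldFullC (ResidueField A) N) :=
  modularGoodModelOf A N hA hF.finite_bar hF.finite_C hF.degree_le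

end Fermat.Agent.Reduction
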