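import Fermat.Agent.Reduction.FieldFacts
import Fermat.Agent.Reduction.GenusLe
import Fermat.Agent.Reduction.ModularModel
import Fermat.Agent.Reduction.Bridge
import Fermat.Agent.FunctionFieldRR.RiemannRoch
import Fermat.Agent.FunctionFieldRR.RationalBase
import Fermat.Agent.FunctionFieldRR.PlaceExists

/-!
# The function-field facts for the reduction of `X₀(N)` at primes not dividing `N`
-/

set_option autoImplicit false

noncomputable section

namespace Fermat.Agent.Reduction

open IsLocalRing ModularCurve AlgebraicCurve IntermediateField Fermat.Agent.FunctionFieldRR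

section Transport

variable {K : Type*} [Field K] {N : ℕ} [NeZero N] {E : IntermediateField K (LaurentSeries K)}

theorem finrank_of_eq (hE : E = modularFunctionFieldFullC K N) (j : E)
    (hj : (j : LaurentSeries K) = jqModC K) (hN : (N : K) ≠ 0) :
    Module.finrank K⟮j⟯ E = dedekindPsi N := by
  subst hE
  obtain rfl : j = jC K N := Subtype.ext hj
  exact finrank_jC K N hN

theorem isSeparable_of_eq (hE : E = modularFunctionFieldFullC K N) (j : E)
    (hj : (j : LaurentSeries K) = jqModC K) (hN : (N : K) ≠ 0) :
    Algebra.IsSeparable K⟮j⟯ E := by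
  subst hE
  obtain rfl : j = jC K N := Subtype.ext hj
  exact isSeparable_jC K N hN

end Transport

section Curve

variable {K F : Type*} [Field K] [Field F] [Algebra K F] [IsAlgClosed K] [IsFunctionField K F]
  {x : F} (hx : Transcendental K x) [FiniteDimensional K⟮x⟯ F] [Algebra.IsSeparable K⟮x⟯ F]

/-- A function field with a separating element satisfies Riemann's inequality with its genus. -/
theorem curveData_genusOf {g : ℤ} (hg : (genusOf hx : ℤ) ≤ g) : CurveData K F g where
  deg_one := deg_eq_one
  hasPrincipal := hasPrincipalDivisors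
  riemann D := by
    have := riemann_inequality hx D
    omega

theorem genusAtLeast_genusOf {g : ℤ} (hg : g ≤ (genusOf hx : ℤ)) : GenusAtLeast K F g :=
  ⟨2 * (genusOf hx : ℤ) - 1, fun D hD => by
    have := finrank_eq_of_degree_gt hx (D := D) (by omega)
    omega⟩

end Curve

theorem bar_eq_fullC (N : ℕ) :
    modularFunctionFieldBar N = modularFunctionFieldFullC (AlgebraicClosure ℚ) N := by
  rw [modularFunctionFieldBar_eq, modularFunctionFieldFullC]

theorem natCast_ne_zero_bar (N : ℕ) [NeZero N] : (N : AlgebraicClosure ℚ) ≠ 0 :=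
  Nat.cast_ne_zero.mpr (NeZero.ne N)

/-- `[ℚ̄(X₀(N)) : ℚ̄(j)] = ψ(N)`. -/
theorem finrank_jBar (N : ℕ) [NeZero N] :
    Module.finrank (AlgebraicClosure ℚ)⟮jBar N⟯ (modularFunctionFieldBar N) = dedekindPsi N :=
  finrank_of_eq (bar_eq_fullC N) _ rfl (natCast_ne_zero_bar N)

theorem finiteDimensional_jBar (N : ℕ) [NeZero N] :
    FiniteDimensional (AlgebraicClosure ℚ)⟮jBar N⟯ (modularFunctionFieldBar N) :=
  Module.finite_of_finrank_pos (by rw [finrank_jBar]; exact dedekindPsi_pos N)

theorem isSeparable_jBar (N : ℕ) [NeZero N] :
    Algebra.IsSeparable (AlgebraicClosure ℚ)⟮jBar N⟯ (modularFunctionFieldBar N) :=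
  isSeparable_of_eq (bar_eq_fullC N) _ rfl (natCast_ne_zero_bar N)

theorem transcendental_jBar (N : ℕ) : Transcendental (AlgebraicClosure ℚ) (jBar N) :=
  transcendental_of_coeff_neg_one _ (coeff_jqModC_neg_one _)
    (fun _ hn => coeff_jqModC_of_lt _ hn)

theorem transcendental_jC (K : Type*) [Field K] (N : ℕ) : Transcendental K (jC K N) :=
  transcendental_of_coeff_neg_one _ (coeff_jqModC_neg_one _)
    (fun _ hn => coeff_jqModC_of_lt _ hn)

/-- The genus of `X₀(N)` over `ℚ̄`. -/
def genus0 (N : ℕ) [NeZero N] : ℕ :=
  haveI : IsFunctionField (AlgebraicClosure ℚ) (modularFunctionFieldBar N) :=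
    haveI := finiteDimensional_jBar N
    IsFunctionField.of_finiteDimensional _ (transcendental_jBar N)
  haveI := finiteDimensional_jBar N
  haveI := isSeparable_jBar N
  genusOf (transcendental_jBar N)

variable (K : Type*) [Field K] [IsAlgClosed K] (N : ℕ) [NeZero N]

/-- The genus of `X₀(N)` in the characteristic of `K`. -/
def genusC (hN : (N : K) ≠ 0) : ℕ :=
  haveI : IsFunctionField K (modularFunctionFieldFullC K N) :=
    haveI := finiteDimensional_jC K N hN
    IsFunctionField.of_finiteDimensional _ (transcendental_jC K N)
  haveI := finiteDimensional_jC K N hN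
  haveI := isSeparable_jC K N hN
  genusOf (transcendental_jC K N)

variable {N}

/-- The residue field of a place over `ℓ ∤ N` sees `N` as nonzero. -/
theorem natCast_residue_ne_zero {ℓ : ℕ} [Fact ℓ.Prime] {A : ValuationSubring (AlgebraicClosure ℚ)}
    (hA : A.LiesOverPrime ℓ) {m : ℕ} (hm : ¬ ℓ ∣ m) : (m : ResidueField A) ≠ 0 := by
  rw [← map_natCast (residue A)]
  exact (residue_ne_zero_iff_isUnit _).mpr (isUnit_natCast_of_not_dvd hA hm)

/-- `genus` cannot increase under reduction. -/
theorem genusC_le_genus0 {ℓ : ℕ} [Fact ℓ.Prime] {A : ValuationSubring (AlgebraicClosure ℚ)}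
    (hA : A.LiesOverPrime ℓ) [IsAlgClosed (ResidueField A)]
    (hN : (N : ResidueField A) ≠ 0) : genusC (ResidueField A) N hN ≤ genus0 N := by
  have hbar := finiteDimensional_jBar N
  have hC := finiteDimensional_jC (ResidueField A) N hN
  have := isSeparable_jBar N
  have := isSeparable_jC (ResidueField A) N hN
  have : IsFunctionField (AlgebraicClosure ℚ) (modularFunctionFieldBar N) :=
    IsFunctionField.of_finiteDimensional _ (transcendental_jBar N)
  have : IsFunctionField (ResidueField A) (modularFunctionFieldFullC (ResidueField A) N) :=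
    IsFunctionField.of_finiteDimensional _ (transcendental_jC _ N)
  have := (hasPrincipalDivisors :
    HasPrincipalDivisors (AlgebraicClosure ℚ) (modularFunctionFieldBar N))
  have := (hasPrincipalDivisors :
    HasPrincipalDivisors (ResidueField A) (modularFunctionFieldFullC (ResidueField A) N))
  have M := modularGoodModelOf A N hA hbar hC
    (by rw [finrank_jBar, finrank_jC _ N hN])
  have h := M.genus_red_le (g := genus0 N) (g' := genusC (ResidueField A) N hN)
    (c := 2 * (genusC (ResidueField A) N hN : ℤ) - 1)
    (riemann_inequality (transcendental_jBar N)) (riemann_inequality (transcendental_jC _ N))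
    fun D hD => le_of_eq (finrank_eq_of_degree_gt (transcendental_jC _ N)
      (show 2 * (genusC (ResidueField A) N hN : ℤ) - 2 < _ by omega))
  exact_mod_cast h

/-- All function-field facts, given that the genus does not drop. -/
theorem reductionFacts_of_genus_le {ℓ : ℕ} [Fact ℓ.Prime]
    {A : ValuationSubring (AlgebraicClosure ℚ)} (hA : A.LiesOverPrime ℓ)
    [IsAlgClosed (ResidueField A)] (hN : (N : ResidueField A) ≠ 0)
    (hg : genus0 N ≤ genusC (ResidueField A) N hN) :
    ReductionFacts (ResidueField A) N (genus0 N) := by
  have hbar := finiteDimensional_jBar N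
  have hC := finiteDimensional_jC (ResidueField A) N hN
  have := isSeparable_jBar N
  have := isSeparable_jC (ResidueField A) N hN
  have : IsFunctionField (AlgebraicClosure ℚ) (modularFunctionFieldBar N) :=
    IsFunctionField.of_finiteDimensional _ (transcendental_jBar N)
  have : IsFunctionField (ResidueField A) (modularFunctionFieldFullC (ResidueField A) N) :=
    IsFunctionField.of_finiteDimensional _ (transcendental_jC _ N)
  exact
  { char0 := curveData_genusOf (transcendental_jBar N) le_rfl
    charL := curveData_genusOf (transcendental_jC _ N)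
      (by exact_mod_cast genusC_le_genus0 hA hN)
    genus_le := genusAtLeast_genusOf (transcendental_jC _ N) (by exact_mod_cast hg)
    finite_bar := hbar
    finite_C := hC
    degree_le := by rw [finrank_jBar, finrank_jC _ N hN] }

end Fermat.Agent.Reduction
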