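import Fermat.Agent.Reduction.Facts
import Fermat.Agent.Reduction.Exists
import Fermat.Agent.Reduction.JZeroInjective

/-!
# The function-field facts at `ℓ ∤ N` from genus equality
-/

set_option autoImplicit false

noncomputable section

namespace Fermat.Agent.Reduction

open IsLocalRing ModularCurve AlgebraicCurve IntermediateField Fermat.Agent.FunctionFieldRR

variable {N ℓ : ℕ} [NeZero N] [Fact ℓ.Prime] {A : ValuationSubring (AlgebraicClosure ℚ)}

/-- All function-field facts at `ℓ ∤ N`, given that the genus does not drop. -/
theorem exists_reductionFacts (hℓN : ¬ ℓ ∣ N) (hA : A.LiesOverPrime ℓ)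
    (hg : ∀ [IsAlgClosed (ResidueField A)] (hN : (N : ResidueField A) ≠ 0),
      genus0 N ≤ genusC (ResidueField A) N hN) :
    ReductionFacts (ResidueField A) N (genus0 N) :=
  haveI : IsAlgClosed (ResidueField A) := isAlgClosed_residueField
  reductionFacts_of_genus_le hA (natCast_residue_ne_zero hA hℓN)
    (hg (natCast_residue_ne_zero hA hℓN))

end Fermat.Agent.Reduction
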