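import Fermat.Agent.IgusaGenus.GenusEq
import Fermat.Agent.IgusaGenus.RamInputs
import Fermat.Agent.Reduction.GenusCriterion

/-!
# The function-field facts at `ℓ ∤ N`, unconditionally
-/

set_option autoImplicit false

noncomputable section

namespace Fermat.Agent.Reduction

open IsLocalRing ModularCurve

variable {N ℓ : ℕ} [NeZero N] [Fact ℓ.Prime] {A : ValuationSubring (AlgebraicClosure ℚ)}

/-- The genus of `X₀(N)` does not drop modulo `ℓ ∤ N`. -/
theorem genus0_le_genusC (hA : A.LiesOverPrime ℓ) [IsAlgClosed (ResidueField A)]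
    (hN : (N : ResidueField A) ≠ 0) : genus0 N ≤ genusC (ResidueField A) N hN :=
  IgusaGenus.genus0_le_genusC_of_covers hA hN (fun c => IgusaGenus.exists_cover_finite c)
    IgusaGenus.exists_cover_cusp

/-- All function-field facts used by the reduction theory at `ℓ ∤ N`. -/
theorem reductionFacts (hℓN : ¬ ℓ ∣ N) (hA : A.LiesOverPrime ℓ) :
    ReductionFacts (ResidueField A) N (genus0 N) :=
  exists_reductionFacts hℓN hA fun hN => genus0_le_genusC hA hN

end Fermat.Agent.Reduction
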