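import Fermat.Prelude.Def_FLTPrelim_Ramification
import Mathlib

/-!
# Valuation subrings of an algebraic extension of `ℚ`

Powers of a nonunit eventually become divisible by any given nonzero element, and the
residue field of such a ring is algebraically closed of characteristic `ℓ` when the field is.
-/

set_option autoImplicit false

noncomputable section

namespace Fermat.Agent.Reduction

open IsLocalRing Polynomial

variable {L : Type*} [Field L] (A : ValuationSubring L)

/-- The maximal ideal is nilpotent modulo every nonzero element. -/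
def NilModulo : Prop :=
  ∀ ρ ∈ maximalIdeal A, ∀ c : A, c ≠ 0 → ∃ k : ℕ, c ∣ ρ ^ k

variable {A}

theorem natCast_mem_maximalIdeal {ℓ : ℕ} (hA : A.LiesOverPrime ℓ) :
    (ℓ : A) ∈ maximalIdeal A := by
  obtain ⟨hmem, hmax⟩ := ValuationSubring.mem_nonunits_iff_exists_mem_maximalIdeal.mp hA
  have : (⟨(ℓ : L), hmem⟩ : A) = (ℓ : A) := Subtype.ext (by simp)
  rwa [this] at hmax

theorem residue_natCast_eq_zero {ℓ : ℕ} (hA : A.LiesOverPrime ℓ) :
    (ℓ : ResidueField A) = 0 := by
  rw [← map_natCast (residue A), residue_eq_zero_iff]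
  exact natCast_mem_maximalIdeal hA

/-- The residue field has characteristic `ℓ`. -/
theorem charP_residueField {ℓ : ℕ} [Fact ℓ.Prime] (hA : A.LiesOverPrime ℓ) :
    CharP (ResidueField A) ℓ :=
  (CharP.charP_iff_prime_eq_zero (Fact.out : ℓ.Prime)).mpr (residue_natCast_eq_zero hA)

theorem isUnit_intCast_of_not_dvd {ℓ : ℕ} [Fact ℓ.Prime] (hA : A.LiesOverPrime ℓ) {m : ℤ}
    (hm : ¬ (ℓ : ℤ) ∣ m) : IsUnit (m : A) := by
  have := charP_residueField hA
  by_contra hu
  have h0 : residue A (m : A) = 0 := (residue_eq_zero_iff _).mpr hu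
  rw [map_intCast, CharP.intCast_eq_zero_iff (ResidueField A) ℓ] at h0
  exact hm h0

theorem isUnit_natCast_of_not_dvd {ℓ : ℕ} [Fact ℓ.Prime] (hA : A.LiesOverPrime ℓ) {m : ℕ}
    (hm : ¬ ℓ ∣ m) : IsUnit (m : A) := by
  have := isUnit_intCast_of_not_dvd hA (m := (m : ℤ)) (by exact_mod_cast hm)
  simpa using this

section Algebraic

variable [Algebra ℚ L] [Algebra.IsAlgebraic ℚ L]

theorem isAlgebraic_int (c : A) : IsAlgebraic ℤ c := by
  have h : IsAlgebraic ℤ (c : L) :=
    (IsFractionRing.isAlgebraic_iff ℤ ℚ L).mpr (Algebra.IsAlgebraic.isAlgebraic (c : L))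
  exact (isAlgebraic_algHom_iff A.subtype.toIntAlgHom A.subtype_injective).mp h

theorem exists_int_dvd {c : A} (hc : c ≠ 0) : ∃ r : ℤ, r ≠ 0 ∧ c ∣ (r : A) := by
  obtain ⟨r, hr, hdvd⟩ := (isAlgebraic_int c).exists_nonzero_dvd
    (mem_nonZeroDivisors_of_ne_zero hc)
  exact ⟨r, hr, by simpa using hdvd⟩

/-- Some power of a nonunit is divisible by `ℓ`. -/
theorem exists_prime_dvd_pow {ℓ : ℕ} [Fact ℓ.Prime] (hA : A.LiesOverPrime ℓ) {ρ : A}
    (hρ : ρ ∈ maximalIdeal A) : ∃ k : ℕ, (ℓ : A) ∣ ρ ^ k := by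
  classical
  obtain ⟨p, hp0, hp⟩ := isAlgebraic_int ρ
  set q := p.primPart with hq
  have hqρ : Polynomial.aeval ρ q = 0 := by
    have h := congrArg (Polynomial.aeval ρ) p.eq_C_content_mul_primPart
    rw [hp, map_mul, Polynomial.aeval_C, ← hq] at h
    rcases mul_eq_zero.mp h.symm with h' | h'
    · exfalso
      have hc : p.content ≠ 0 := fun e => hp0 (Polynomial.content_eq_zero_iff.mp e)
      have h'' : ((p.content : ℤ) : L) = 0 := by
        have := congrArg A.subtype h'
        simpa using this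
      have : CharZero L := charZero_of_injective_algebraMap (algebraMap ℚ L).injective
      exact hc (by exact_mod_cast h'')
    · exact h'
  have hprim : q.IsPrimitive := p.isPrimitive_primPart
  have hex : ∃ i, ¬ (ℓ : ℤ) ∣ q.coeff i := by
    by_contra hall
    push Not at hall
    have : IsUnit (ℓ : ℤ) := hprim _ (Polynomial.C_dvd_iff_dvd_coeff _ _ |>.mpr hall)
    rw [Int.isUnit_iff_natAbs_eq, Int.natAbs_natCast] at this
    exact (Fact.out : ℓ.Prime).ne_one this
  let i := Nat.find hex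
  have hi : ¬ (ℓ : ℤ) ∣ q.coeff i := Nat.find_spec hex
  have hlow : ∀ j < i, (ℓ : ℤ) ∣ q.coeff j := fun j hj => by
    by_contra h; exact Nat.find_min hex hj h
  refine ⟨i, ?_⟩
  have hile : i + 1 ≤ q.natDegree + 1 := by
    have : q.coeff i ≠ 0 := fun e => hi (e ▸ dvd_zero _)
    have := Polynomial.le_natDegree_of_ne_zero this
    omega
  rw [Polynomial.aeval_eq_sum_range, ← Finset.sum_range_add_sum_Ico _ hile,
    Finset.sum_range_succ] at hqρ
  simp only [zsmul_eq_mul] at hqρ
  have h1 : (ℓ : A) ∣ ∑ j ∈ Finset.range i, ((q.coeff j : ℤ) : A) * ρ ^ j := by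
    refine Finset.dvd_sum fun j hj => ?_
    obtain ⟨t, ht⟩ := hlow j (Finset.mem_range.mp hj)
    exact ⟨(t : A) * ρ ^ j, by rw [ht]; push_cast; ring⟩
  have h2 : ρ ^ (i + 1) ∣ ∑ j ∈ Finset.Ico (i + 1) (q.natDegree + 1),
      ((q.coeff j : ℤ) : A) * ρ ^ j :=
    Finset.dvd_sum fun j hj =>
      dvd_mul_of_dvd_right (pow_dvd_pow ρ (Finset.mem_Ico.mp hj).1) _
  obtain ⟨t, ht⟩ := h2
  obtain ⟨s, hs⟩ := h1
  rw [ht, hs] at hqρ
  have hunit : IsUnit (((q.coeff i : ℤ) : A) + ρ * t) := by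
    have hu := isUnit_intCast_of_not_dvd hA hi
    by_contra hnu
    have hm : ((q.coeff i : ℤ) : A) + ρ * t ∈ maximalIdeal A := hnu
    have := (Submodule.add_mem_iff_left _ (Ideal.mul_mem_right t _ hρ)).mp hm
    exact this hu
  have : (ℓ : A) ∣ ρ ^ i * (((q.coeff i : ℤ) : A) + ρ * t) :=
    ⟨-s, by linear_combination hqρ⟩
  exact hunit.dvd_mul_right.mp this

theorem nilModulo_of_liesOverPrime {ℓ : ℕ} [Fact ℓ.Prime] (hA : A.LiesOverPrime ℓ) :
    NilModulo A := by
  intro ρ hρ c hc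
  obtain ⟨r, hr, hcr⟩ := exists_int_dvd hc
  have hfin : FiniteMultiplicity (ℓ : ℤ) r :=
    Int.finiteMultiplicity_iff.mpr ⟨by simp [(Fact.out : ℓ.Prime).ne_one], hr⟩
  obtain ⟨m, hm, hnd⟩ := hfin.exists_eq_pow_mul_and_not_dvd
  obtain ⟨k, hk⟩ := exists_prime_dvd_pow hA hρ
  refine ⟨k * multiplicity (ℓ : ℤ) r, hcr.trans ?_⟩
  set e := multiplicity (ℓ : ℤ) r with he
  clear_value e
  subst hm
  rw [pow_mul]
  push_cast
  exact (isUnit_intCast_of_not_dvd hA hnd).mul_right_dvd.mpr (pow_dvd_pow_of_dvd hk _)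

end Algebraic

/-- The residue field of a valuation ring of an algebraically closed field is algebraically closed. -/
theorem isAlgClosed_residueField [IsAlgClosed L] : IsAlgClosed (ResidueField A) := by
  refine IsAlgClosed.of_exists_root _ fun p hp hirr => ?_
  have hlift : p ∈ Polynomial.lifts (residue A) :=
    (Polynomial.lifts_iff_coeff_lifts p).mpr fun n => residue_surjective _
  obtain ⟨q, hqp, hdeg, hq⟩ := Polynomial.lifts_and_degree_eq_and_monic hlift hp
  obtain ⟨x, hx⟩ := IsAlgClosed.exists_root (q.map A.subtype) (by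
    rw [Polynomial.degree_map_eq_of_injective A.subtype_injective, hdeg]
    exact hirr.degree_pos.ne')
  have hxA : x ∈ A := by
    have hint : IsIntegral A x := by
      refine ⟨q, hq, ?_⟩
      rw [Polynomial.IsRoot, Polynomial.eval_map] at hx
      exact hx
    obtain ⟨y, hy⟩ := IsIntegrallyClosed.isIntegral_iff.mp hint
    rw [← hy]; exact y.2
  refine ⟨residue A ⟨x, hxA⟩, ?_⟩
  rw [← hqp, Polynomial.eval_map, Polynomial.eval₂_at_apply, residue_eq_zero_iff]
  have h0 : q.eval (⟨x, hxA⟩ : A) = 0 := by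
    apply A.subtype_injective
    rw [Polynomial.IsRoot, Polynomial.eval_map] at hx
    rw [← Polynomial.eval₂_at_apply, map_zero]
    exact hx
  rw [h0]
  exact zero_mem _

end Fermat.Agent.Reduction
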