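import Fermat.Agent.Reduction.Interface
import Fermat.Agent.Igusa.Degree
import Fermat.Agent.Gamma0Count.Index
import Fermat.Agent.Reduction.Instances
import Mathlib.FieldTheory.SeparableClosure

/-!
# Degree and separability of the modular function field over `K(j)`
-/

set_option autoImplicit false

noncomputable section

namespace Fermat.Agent.Reduction

open ModularCurve IntermediateField Polynomial

variable (K : Type*) [Field K] (N : ℕ) [NeZero N]

theorem dedekindPsi_pos : 0 < dedekindPsi N := by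
  rw [← Gamma0Count.card_cosetSpace]
  exact Nat.card_pos

/-- `[F_N : K(j)] = ψ(N)`. -/
theorem finrank_jC (hN : (N : K) ≠ 0) :
    Module.finrank K⟮jC K N⟯ (modularFunctionFieldFullC K N) = dedekindPsi N := by
  rw [← relfinrank_top_right,
    ← relfinrank_map_map (K⟮jC K N⟯) ⊤ (modularFunctionFieldFullC K N).val, adjoin_map,
    Set.image_singleton, ← AlgHom.fieldRange_eq_map, fieldRange_val]
  exact Igusa.relfinrank_fullC K N hN

theorem finiteDimensional_jC (hN : (N : K) ≠ 0) :
    FiniteDimensional K⟮jC K N⟯ (modularFunctionFieldFullC K N) :=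
  Module.finite_of_finrank_pos (by rw [finrank_jC K N hN]; exact dedekindPsi_pos N)

/-- Each `j(qᵈ)`, `d` prime to the characteristic, is separable over `K(j)`. -/
theorem isSeparable_jd : ∀ d : ℕ, ∀ _ : NeZero d, (d : K) ≠ 0 →
    IsSeparable (Igusa.jField K) (Igusa.jd K d) := by
  intro d
  induction d using Nat.strong_induction_on with
  | _ d ih =>
  intro _ hd
  by_cases h1 : d = 1
  · subst h1
    rw [Igusa.jd_one]
    exact isSeparable_algebraMap
      (⟨jqModC K, mem_adjoin_simple_self K _⟩ : Igusa.jField K)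
  obtain ⟨p, hp, hpd⟩ := Nat.exists_prime_and_dvd h1
  obtain ⟨d', rfl⟩ := dvd_iff_exists_eq_mul_left.mp hpd
  have : Fact p.Prime := ⟨hp⟩
  have : NeZero d' := ⟨left_ne_zero_of_mul (NeZero.ne (d' * p))⟩
  have hd' : (d' : K) ≠ 0 := Igusa.cast_ne_zero_of_dvd K (dvd_mul_right d' p) hd
  have hpK : (p : K) ≠ 0 := Igusa.cast_ne_zero_of_dvd K (dvd_mul_left p d') hd
  have hlt : d' < d' * p :=
    (lt_mul_iff_one_lt_right (Nat.pos_of_ne_zero (NeZero.ne d'))).mpr hp.one_lt
  set S := separableClosure (Igusa.jField K) (LaurentSeries K) with hS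
  have hy : Igusa.jd K d' ∈ S :=
    mem_separableClosure_iff.mpr (ih d' hlt inferInstance hd')
  obtain ⟨ζ, hζ, hζ'⟩ :=
    Igusa.exists_zeta p (AlgebraicClosure K) (Igusa.cast_ne_zero_algClosure K hpK)
  set φ : S →+* LaurentSeries (AlgebraicClosure K) :=
    (Igusa.emb K p).comp S.toSubfield.subtype with hφ
  set a : S := ⟨_, hy⟩ with ha
  have hva : φ a = Igusa.Jat ((1 : (AlgebraicClosure K)ˣ) ^ p) (d' * p) := by
    show Igusa.emb K p (Igusa.jd K d') = _
    rw [Igusa.emb_jd]
    exact Igusa.Jat_congr (one_pow p).symm (mul_comm p d')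
  have hP : (Igusa.modAt p a).map φ = ∏ γ, (X - C (Igusa.nodeRoot p ζ 1 d' γ)) := by
    rw [Igusa.modAt_map, hva, Igusa.modAt_node p ζ 1 d' hζ']
  have hsep : (Igusa.modAt p a).Separable := by
    rw [← separable_map φ, hP, separable_prod_X_sub_C_iff]
    exact Igusa.nodeRoot_injective p ζ 1 d' hζ
  have hroot : aeval (Igusa.jd K (d' * p)) (Igusa.modAt p a) = 0 := by
    apply Igusa.emb_injective K p
    rw [map_zero, aeval_def, hom_eval₂]
    rw [show (Igusa.emb K p).comp (algebraMap S (LaurentSeries K)) = φ from rfl,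
      ← eval_map, Igusa.modAt_map, hva, Igusa.modAt_node_root_iff p ζ 1 d' hζ']
    refine ⟨none, ?_⟩
    rw [Igusa.emb_jd]
    exact Igusa.Jat_congr (one_pow _).symm (by ring)
  have hx : IsSeparable S (Igusa.jd K (d' * p)) :=
    hsep.of_dvd (minpoly.dvd S _ hroot)
  have hx' : Igusa.jd K (d' * p) ∈ separableClosure S (LaurentSeries K) :=
    mem_separableClosure_iff.mpr hx
  rw [hS, separableClosure.separableClosure_eq_bot, mem_bot] at hx'
  obtain ⟨z, hz⟩ := hx'
  rw [← hz]
  exact mem_separableClosure_iff.mp z.2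

omit [NeZero N] in
theorem isSeparable_fullC_mem (hN : (N : K) ≠ 0) {x : LaurentSeries K}
    (hx : x ∈ modularFunctionFieldFullC K N) : IsSeparable (Igusa.jField K) x := by
  suffices h : modularFunctionFieldFullC K N ≤
      (separableClosure (Igusa.jField K) (LaurentSeries K)).restrictScalars K from
    mem_separableClosure_iff.mp (h hx)
  rw [modularFunctionFieldFullC, adjoin_le_iff]
  rintro y ⟨d, hne, hd, rfl⟩
  exact mem_separableClosure_iff.mpr
    (isSeparable_jd K d hne (Igusa.cast_ne_zero_of_dvd K hd hN))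

/-- `F_N / K(j)` is separable. -/
theorem isSeparable_jC (hN : (N : K) ≠ 0) :
    Algebra.IsSeparable K⟮jC K N⟯ (modularFunctionFieldFullC K N) := by
  refine ⟨fun x => ?_⟩
  let e : Igusa.jField K ≃ₐ[K] K⟮jC K N⟯ :=
    ((IntermediateField.equivOfEq
      (lift_adjoin_simple (F := K) (modularFunctionFieldFullC K N) (jC K N)).symm).trans
      (liftAlgEquiv K⟮jC K N⟯).symm)
  have hsep := isSeparable_fullC_mem K N hN x.2
  have hint : IsIntegral (Igusa.jField K) (x : LaurentSeries K) := hsep.isIntegral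
  refine (Polynomial.Separable.map (show (minpoly (Igusa.jField K) (x : LaurentSeries K)).Separable from hsep)
    (f := (e : Igusa.jField K →+* K⟮jC K N⟯))).of_dvd (minpoly.dvd _ _ ?_)
  apply (modularFunctionFieldFullC K N).val.injective
  rw [map_zero, aeval_def, eval₂_map]
  refine (hom_eval₂ _ _ (modularFunctionFieldFullC K N).val.toRingHom x).trans ?_
  exact minpoly.aeval _ _

end Fermat.Agent.Reduction
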