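import Fermat.Agent.Reduction.Instances
import Fermat.Agent.FunctionFieldRR.PlaceExists

/-!
# The place at `q = 0` of a subfield of a Laurent series field
-/

set_option autoImplicit false

noncomputable section

namespace Fermat.Agent.Reduction

open AlgebraicCurve IntermediateField Fermat.Agent.FunctionFieldRR

variable {K : Type*} [Field K] (E : IntermediateField K (LaurentSeries K))

/-- Functions whose expansion has no negative powers of `q`. -/
def qSubring : ValuationSubring E where
  carrier := {x | ∀ n < 0, (x : LaurentSeries K).coeff n = 0}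
  mul_mem' {x y} hx hy n hn := by
    rcases eq_or_ne (x : LaurentSeries K) 0 with h | h
    · simp [h]
    rcases eq_or_ne (y : LaurentSeries K) 0 with h' | h'
    · simp [h']
    have h1 : 0 ≤ (x : LaurentSeries K).order := not_lt.mp fun hlt =>
      h (HahnSeries.coeff_order_eq_zero.mp (hx _ hlt))
    have h2 : 0 ≤ (y : LaurentSeries K).order := not_lt.mp fun hlt =>
      h' (HahnSeries.coeff_order_eq_zero.mp (hy _ hlt))
    rw [MulMemClass.coe_mul]
    refine HahnSeries.coeff_eq_zero_of_lt_order ?_
    rw [HahnSeries.order_mul h h']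
    omega
  one_mem' n hn := by simp [HahnSeries.coeff_one, hn.ne]
  add_mem' {x y} hx hy n hn := by
    rw [AddMemClass.coe_add, HahnSeries.coeff_add, hx n hn, hy n hn, add_zero]
  zero_mem' n _ := by simp
  neg_mem' {x} hx n hn := by
    rw [NegMemClass.coe_neg, HahnSeries.coeff_neg, hx n hn, neg_zero]
  mem_or_inv_mem' x := by
    rcases eq_or_ne (x : LaurentSeries K) 0 with h | h
    · exact Or.inl fun n _ => by simp [h]
    rcases le_or_gt 0 (x : LaurentSeries K).order with hle | hgt
    · exact Or.inl fun n hn => HahnSeries.coeff_eq_zero_of_lt_order (by omega)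
    · refine Or.inr fun n hn => HahnSeries.coeff_eq_zero_of_lt_order ?_
      have h1 := HahnSeries.order_mul h (inv_ne_zero h)
      rw [mul_inv_cancel₀ h, HahnSeries.order_one] at h1
      rw [IntermediateField.coe_inv]
      omega

variable [IsAlgClosed K] [IsFunctionField K E]

omit [IsAlgClosed K] [IsFunctionField K E] in
theorem qSubring_ne_top (u : E) (hu : (u : LaurentSeries K).order = 1) : qSubring E ≠ ⊤ := by
  intro h
  have hu0 : (u : LaurentSeries K) ≠ 0 := fun e => by simp [e] at hu
  have hmem : u⁻¹ ∈ qSubring E := h ▸ ValuationSubring.mem_top _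
  have h1 := HahnSeries.order_mul hu0 (inv_ne_zero hu0)
  rw [mul_inv_cancel₀ hu0, HahnSeries.order_one, hu] at h1
  refine inv_ne_zero hu0 (HahnSeries.coeff_order_eq_zero.mp ?_)
  rw [← IntermediateField.coe_inv] at h1 ⊢
  exact hmem _ (by omega)

omit [IsAlgClosed K] [IsFunctionField K E] in
theorem algebraMap_mem_qSubring (a : K) : algebraMap K E a ∈ qSubring E := by
  intro n hn
  rw [IntermediateField.coe_algebraMap_apply, ModularCurve.algebraMap_laurentSeries_eq_single,
    HahnSeries.coeff_single_of_ne hn.ne]

/-- The place at `q = 0`. -/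
def qPlace (u : E) (hu : (u : LaurentSeries K).order = 1) : Place K E :=
  placeOfValuationSubring (qSubring E) (algebraMap_mem_qSubring E) (qSubring_ne_top E u hu)

theorem mem_qPlace_iff {u : E} (hu : (u : LaurentSeries K).order = 1) {x : E} :
    x ∈ (qPlace E u hu).toValuationSubring ↔ ∀ n < 0, (x : LaurentSeries K).coeff n = 0 :=
  Iff.rfl

/-- At the place `q = 0`, the order is the order of the series. -/
theorem ord_qPlace {u : E} (hu : (u : LaurentSeries K).order = 1) (x : E) :
    (qPlace E u hu).ord x = (x : LaurentSeries K).order := by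
  set P := qPlace E u hu with hP
  have hu0 : (u : LaurentSeries K) ≠ 0 := fun e => by simp [e] at hu
  have hu0' : u ≠ 0 := fun e => hu0 (by simp [e])
  have horder : ∀ n : ℕ, ((u : LaurentSeries K) ^ n).order = n := fun n => by
    rw [HahnSeries.order_pow, hu]; simp
  have hinv : ∀ z : LaurentSeries K, z ≠ 0 → z⁻¹.order = -z.order := fun z hz => by
    have h1 := HahnSeries.order_mul hz (inv_ne_zero hz)
    rw [mul_inv_cancel₀ hz, HahnSeries.order_one] at h1
    omega
  have hmem : ∀ z : E, 0 ≤ (z : LaurentSeries K).order → 0 ≤ P.ord z := fun z hz =>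
    ord_nonneg_of_mem P ((mem_qPlace_iff E hu).mpr fun n hn =>
      HahnSeries.coeff_eq_zero_of_lt_order (by omega))
  have hzero : ∀ z : E, z ≠ 0 → (z : LaurentSeries K).order = 0 → P.ord z = 0 := fun z hz0 hz => by
    have hz0' : (z : LaurentSeries K) ≠ 0 := fun e => hz0 (Subtype.ext e)
    have h1 := hmem z hz.ge
    have h2 := hmem z⁻¹ (by rw [IntermediateField.coe_inv, hinv _ hz0', hz]; simp)
    rw [P.ord_inv] at h2
    omega
  have hscale : ∀ z : E, z ≠ 0 → P.ord z = (z : LaurentSeries K).order * P.ord u := by
    intro z hz0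
    have hz0' : (z : LaurentSeries K) ≠ 0 := fun e => hz0 (Subtype.ext e)
    obtain ⟨n, hn⟩ := Int.eq_nat_or_neg (z : LaurentSeries K).order
    rcases hn with hn | hn
    · have h := hzero (z * (u ^ n)⁻¹) (mul_ne_zero hz0 (inv_ne_zero (pow_ne_zero _ hu0'))) (by
        rw [MulMemClass.coe_mul, IntermediateField.coe_inv, SubmonoidClass.coe_pow,
          HahnSeries.order_mul hz0' (inv_ne_zero (pow_ne_zero _ hu0)),
          hinv _ (pow_ne_zero _ hu0), horder, hn]
        omega)
      rw [P.ord_mul hz0 (inv_ne_zero (pow_ne_zero _ hu0')), P.ord_inv, ord_pow] at h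
      rw [hn]
      linarith
    · have h := hzero (z * u ^ n) (mul_ne_zero hz0 (pow_ne_zero _ hu0')) (by
        rw [MulMemClass.coe_mul, SubmonoidClass.coe_pow,
          HahnSeries.order_mul hz0' (pow_ne_zero _ hu0), horder, hn]
        omega)
      rw [P.ord_mul hz0 (pow_ne_zero _ hu0'), ord_pow] at h
      rw [hn]
      linarith
  have hu1 : P.ord u = 1 := by
    obtain ⟨t, ht0, ht⟩ := exists_ord_eq_one P
    have h1 := hscale t ht0
    rw [ht] at h1
    exact (Int.eq_one_or_neg_one_of_mul_eq_one (by linarith :
      P.ord u * (t : LaurentSeries K).order = 1)).resolve_right fun h => by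
        have := hmem u (by omega); omega
  rcases eq_or_ne x 0 with rfl | hx
  · simp
  · rw [hscale x hx, hu1, mul_one]

end Fermat.Agent.Reduction
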