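import Fermat.Agent.Reduction.RedSurj
import Fermat.Agent.Reduction.Spec

/-!
# Construction of the reduction map on places

For an effective divisor `B` of large degree the poles of the reduced lattice of `L(B)` form a
divisor `poleSup B` of the same degree, additive in `B`; this gives the image of each place.
-/

set_option autoImplicit false
set_option linter.unusedSectionVars false

noncomputable section

namespace Fermat.Agent.Reduction

open IsLocalRing ModularCurve HahnSeries AlgebraicCurve IntermediateField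
  Fermat.Agent.FunctionFieldRR

variable {L : Type*} [Field L] {A : ValuationSubring L}
  {F : IntermediateField L (LaurentSeries L)}
  {Fk : IntermediateField (ResidueField A) (LaurentSeries (ResidueField A))}
  [IsAlgClosed L] [IsFunctionField L F] [IsAlgClosed (ResidueField A)]
  [IsFunctionField (ResidueField A) Fk]
  [HasPrincipalDivisors L F] [HasPrincipalDivisors (ResidueField A) Fk]

theorem finrank_rr_le_degree_of_nonneg {K E : Type*} [Field K] [Field E] [Algebra K E]
    [IsAlgClosed K] [IsFunctionField K E] {D : Divisor K E} (hD : 0 ≤ D)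
    (S : Submodule K E) (hS : S ≤ riemannRochSpace D) :
    (Module.finrank K S : ℤ) ≤ Divisor.degree D + 1 :=
  le_trans (Int.ofNat_le.mpr (Submodule.finrank_mono hS)) (finrank_rr_le hD)

namespace GoodModel

variable (M : GoodModel A F Fk)

open Classical in
/-- The supremum of the pole divisors of the reduced lattice of `L(B)`. -/
def poleSup (B : Divisor L F) : Divisor (ResidueField A) Fk :=
  haveI := (M.finite_and_finrank_redSub (riemannRochSpace B)).1
  haveI : Module.Free (ResidueField A) (M.redSub (riemannRochSpace B)) :=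
    Module.Free.of_divisionRing _ _
  (insert 0 (Finset.univ.image fun i =>
    polesOf ((Module.finBasis (ResidueField A) (M.redSub (riemannRochSpace B)) i : Fk)))).sup'
      (Finset.insert_nonempty _ _) id

theorem poleSup_nonneg (B : Divisor L F) : 0 ≤ M.poleSup B := by
  classical
  rw [poleSup]
  exact Finset.le_sup' id (Finset.mem_insert_self _ _)

theorem redSub_le_poleSup (B : Divisor L F) :
    M.redSub (riemannRochSpace B) ≤ riemannRochSpace (M.poleSup B) := by
  classical
  have := (M.finite_and_finrank_redSub (riemannRochSpace B)).1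
  have : Module.Free (ResidueField A) (M.redSub (riemannRochSpace B)) :=
    Module.Free.of_divisionRing _ _
  set b := Module.finBasis (ResidueField A) (M.redSub (riemannRochSpace B)) with hb
  intro s hs
  have hdec := congrArg (M.redSub (riemannRochSpace B)).subtype (b.sum_repr ⟨s, hs⟩)
  rw [map_sum] at hdec
  rw [← show _ = s from hdec]
  refine Submodule.sum_mem _ fun i _ => ?_
  rw [map_smul]
  refine Submodule.smul_mem _ _ (rr_mono ?_ (mem_rr_polesOf _))
  rw [poleSup]
  refine Finset.le_sup' id ?_
  exact Finset.mem_insert_of_mem (Finset.mem_image_of_mem _ (Finset.mem_univ i))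

theorem one_mem_redSub {B : Divisor L F} (hB : 0 ≤ B) :
    (1 : Fk) ∈ M.redSub (riemannRochSpace B) :=
  ⟨1, one_mem_rr hB, M.isInt_one, M.red_one⟩

/-- At each place the bound `poleSup B` is attained. -/
theorem exists_ord_eq_poleSup {B : Divisor L F} (hB : 0 ≤ B) (v : Place (ResidueField A) Fk) :
    ∃ s ∈ M.redSub (riemannRochSpace B), s ≠ 0 ∧ v.ord s = - M.poleSup B v := by
  classical
  have := (M.finite_and_finrank_redSub (riemannRochSpace B)).1
  have : Module.Free (ResidueField A) (M.redSub (riemannRochSpace B)) :=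
    Module.Free.of_divisionRing _ _
  set b := Module.finBasis (ResidueField A) (M.redSub (riemannRochSpace B)) with hb
  have hle := fun x (hx : x ∈ M.redSub (riemannRochSpace B)) =>
    mem_riemannRochSpace_iff.mp (M.redSub_le_poleSup B hx) v
  rcases eq_or_ne (M.poleSup B v) 0 with h0 | h0
  · exact ⟨1, M.one_mem_redSub hB, one_ne_zero, by rw [h0, Place.ord_one, neg_zero]⟩
  have hval : M.poleSup B v = (insert 0 (Finset.univ.image fun i =>
      polesOf (b i : Fk))).sup' (Finset.insert_nonempty _ _) (fun D => D v) := by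
    rw [poleSup]
    exact Finset.apply_sup'_eq_sup'_comp (Finset.insert_nonempty _ _)
      (fun D : Divisor (ResidueField A) Fk => D v) fun D E => Finsupp.sup_apply D E v
  obtain ⟨D, hD, hDv⟩ := Finset.exists_mem_eq_sup' (Finset.insert_nonempty _ _)
    (f := fun D : Divisor (ResidueField A) Fk => D v)
    (s := insert 0 (Finset.univ.image fun i => polesOf (b i : Fk)))
  rw [hDv] at hval
  rcases Finset.mem_insert.mp hD with rfl | hD
  · exact absurd hval h0
  obtain ⟨i, -, rfl⟩ := Finset.mem_image.mp hD
  rw [polesOf_apply] at hval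
  refine ⟨(b i : Fk), (b i).2, fun h => h0 (by rw [hval, h]; simp), ?_⟩
  rcases le_total (-v.ord ((b i : Fk))) 0 with h | h
  · rw [max_eq_right h] at hval; exact absurd hval h0
  · rw [max_eq_left h] at hval; omega

/-- A single element of the reduced lattice attains all the poles. -/
theorem exists_polesOf_eq {B : Divisor L F} (hB : 0 ≤ B) :
    ∃ s ∈ M.redSub (riemannRochSpace B), polesOf (K := ResidueField A) s = M.poleSup B := by
  classical
  set S := M.redSub (riemannRochSpace B) with hS
  let P : (M.poleSup B).support → Submodule (ResidueField A) S := fun v =>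
    (riemannRochSpace (M.poleSup B - Finsupp.single v.1 1)).comap S.subtype
  have hP : ∀ v, P v ≠ ⊤ := by
    intro v htop
    obtain ⟨s, hs, hs0, hord⟩ := M.exists_ord_eq_poleSup hB v.1
    have : (⟨s, hs⟩ : S) ∈ P v := htop ▸ Submodule.mem_top
    have h := (mem_rr hs0).mp this v.1
    simp at h
    omega
  obtain ⟨s, hs⟩ := Submodule.exists_forall_notMem_of_forall_ne_top P hP
  refine ⟨s, s.2, Finsupp.ext fun v => ?_⟩
  rw [polesOf_apply]
  have hle := mem_riemannRochSpace_iff.mp (M.redSub_le_poleSup B s.2) v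
  have h0 : 0 ≤ M.poleSup B v := Finsupp.le_def.mp (M.poleSup_nonneg B) v
  by_cases hv : v ∈ (M.poleSup B).support
  · have hnot := hs ⟨v, hv⟩
    have hs0 : (s : Fk) ≠ 0 := fun h => hnot (by rw [Submodule.mem_comap]; simp [h])
    have hge := hle.resolve_left hs0
    have hlt : v.ord (s : Fk) < -M.poleSup B v + 1 := by
      by_contra hcon
      refine hnot ((mem_rr hs0).mpr fun w => ?_)
      rcases eq_or_ne w v with rfl | hw
      · simp; omega
      · have := (mem_rr hs0).mp (M.redSub_le_poleSup B s.2) w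
        simpa [hw, hw.symm] using this
    omega
  · rw [Finsupp.notMem_support_iff] at hv
    rw [hv] at hle ⊢
    rcases hle with h | h
    · simp [h]
    · exact max_eq_right (by omega)

theorem degree_poleSup_le {g' c : ℤ}
    (hlowK : ∀ D : Divisor (ResidueField A) Fk,
      Divisor.degree D + 1 - g' ≤ (Module.finrank (ResidueField A) (riemannRochSpace D) : ℤ))
    (hupK : ∀ D : Divisor (ResidueField A) Fk, c ≤ Divisor.degree D →
      (Module.finrank (ResidueField A) (riemannRochSpace D) : ℤ) ≤ Divisor.degree D + 1 - g')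
    {B : Divisor L F} (hB : 0 ≤ B) :
    Divisor.degree (M.poleSup B) ≤ Divisor.degree B := by
  classical
  rcases (degree_nonneg_of_nonneg (M.poleSup_nonneg B)).eq_or_lt with h0 | hpos
  · rw [← h0]; exact degree_nonneg_of_nonneg hB
  obtain ⟨s, hs, hpoles⟩ := M.exists_polesOf_eq hB
  obtain ⟨v, hv⟩ : ∃ v, M.poleSup B v ≠ 0 := by
    by_contra hall
    push Not at hall
    rw [show M.poleSup B = 0 from Finsupp.ext hall, map_zero] at hpos
    omega
  have htr : Transcendental (ResidueField A) s := by
    refine transcendental_of_ord_ne_zero v fun h => hv ?_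
    rw [← hpoles, polesOf_apply, h]
    rfl
  obtain ⟨x, hxB, hxi, hxs⟩ := hs
  have hxtr : Transcendental L x := by
    rcases eq_algebraMap_or_transcendental (K := L) x with ⟨a, ha⟩ | h
    · exfalso
      by_cases haA : a ∈ A
      · rw [← hxs, ha, (M.isInt_const haA).2] at htr
        exact htr (isAlgebraic_algebraMap _)
      · have ha' : a⁻¹ ∈ A := (A.mem_or_inv_mem a).resolve_left haA
        have ha0 : a ≠ 0 := fun e => haA (e ▸ A.zero_mem)
        obtain ⟨-, h2⟩ := M.isInt_smul ha' hxi
        have hone : a⁻¹ • x = 1 := by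
          rw [ha, Algebra.smul_def, ← map_mul, inv_mul_cancel₀ ha0, map_one]
        rw [hone, M.red_one] at h2
        have hm : residue A ⟨a⁻¹, ha'⟩ ≠ 0 := fun h => by simp [h] at h2
        obtain ⟨u, hu⟩ := (residue_ne_zero_iff_isUnit _).mp hm
        have h3 : a⁻¹ * ((↑u⁻¹ : A) : L) = 1 := by
          have h1 : ((u : A) : L) * ((↑u⁻¹ : A) : L) = 1 := by
            rw [← MulMemClass.coe_mul, Units.mul_inv]; rfl
          rwa [hu] at h1
        exact haA (((inv_mul_eq_one₀ ha0).mp h3).symm ▸ (↑u⁻¹ : A).2)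
    · exact h
  have := finiteDimensional_adjoin htr
  have : FiniteDimensional L⟮x⟯ F := finiteDimensional_adjoin hxtr
  let e := Module.finBasis (ResidueField A)⟮s⟯ Fk
  choose z hz hze using fun i => M.exists_isInt_red_eq (e i)
  have hli : LinearIndependent L⟮x⟯ z := by
    refine M.linearIndependent_of_red hxi (hxs ▸ htr) hz ?_
    rw [funext hze, hxs]
    exact e.linearIndependent
  have h1 := hli.fintype_card_le_finrank
  rw [Fintype.card_fin] at h1
  have h2 := degree_polesOf_le_finrank hlowK ⟨c, hupK⟩ htr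
  have h3 := finrank_le_degree_polesOf hxtr
  have h4 : Divisor.degree (polesOf (K := L) x) ≤ Divisor.degree B := by
    refine degree_mono (Finsupp.le_def.mpr fun w => ?_)
    rw [polesOf_apply]
    rcases mem_riemannRochSpace_iff.mp hxB w with h | h
    · simpa [h] using Finsupp.le_def.mp hB w
    · exact max_le (by linarith) (Finsupp.le_def.mp hB w)
  rw [hpoles] at h2
  omega

theorem poleSup_add_le {B B' : Divisor L F} (hB : 0 ≤ B) (hB' : 0 ≤ B') :
    M.poleSup B + M.poleSup B' ≤ M.poleSup (B + B') := by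
  refine Finsupp.le_def.mpr fun v => ?_
  obtain ⟨s, ⟨x, hx, hxi, rfl⟩, hs0, hs⟩ := M.exists_ord_eq_poleSup hB v
  obtain ⟨t, ⟨y, hy, hyi, rfl⟩, ht0, ht⟩ := M.exists_ord_eq_poleSup hB' v
  have hmem : M.red x * M.red y ∈ M.redSub (riemannRochSpace (B + B')) :=
    ⟨x * y, rr_mul hx hy, (M.isInt_mul hxi hyi).1, (M.isInt_mul hxi hyi).2⟩
  have h := (mem_rr (mul_ne_zero hs0 ht0)).mp (M.redSub_le_poleSup _ hmem) v
  rw [v.ord_mul hs0 ht0, hs, ht] at h
  rw [Finsupp.add_apply]
  omega

/-- The numerical hypotheses for the construction. -/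
structure ConstructionData (g c : ℤ) : Prop where
  low : ∀ D : Divisor L F,
    Divisor.degree D + 1 - g ≤ (Module.finrank L (riemannRochSpace D) : ℤ)
  lowK : ∀ D : Divisor (ResidueField A) Fk,
    Divisor.degree D + 1 - g ≤ (Module.finrank (ResidueField A) (riemannRochSpace D) : ℤ)
  upK : ∀ D : Divisor (ResidueField A) Fk, c ≤ Divisor.degree D →
    (Module.finrank (ResidueField A) (riemannRochSpace D) : ℤ) ≤ Divisor.degree D + 1 - g

variable {g c : ℤ} (H : ConstructionData (A := A) (F := F) (Fk := Fk) g c)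

include H in
theorem degree_poleSup {B : Divisor L F} (hB : 0 ≤ B) (hdeg : c + g ≤ Divisor.degree B) :
    Divisor.degree (M.poleSup B) = Divisor.degree B := by
  refine le_antisymm (M.degree_poleSup_le H.lowK H.upK hB) ?_
  have h1 := H.low B
  have h2 := finrank_rr_le_degree_of_nonneg (M.poleSup_nonneg B) _ (M.redSub_le_poleSup B)
  have h3 := Submodule.finrank_mono (M.redSub_le_poleSup B)
  rw [M.finrank_redSub] at h2 h3
  by_cases h : c ≤ Divisor.degree (M.poleSup B)
  · have h4 := H.upK _ h
    omega
  · omega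

include H in
theorem poleSup_add {B B' : Divisor L F} (hB : 0 ≤ B) (hB' : 0 ≤ B')
    (hdeg : c + g ≤ Divisor.degree B) (hdeg' : c + g ≤ Divisor.degree B') :
    M.poleSup (B + B') = M.poleSup B + M.poleSup B' := by
  refine (sub_eq_zero.mp (eq_zero_of_degree_eq_zero (sub_nonneg.mpr (M.poleSup_add_le hB hB')) ?_))
  have h0 := degree_nonneg_of_nonneg hB'
  have h1 := degree_mono (M.poleSup_add_le hB hB')
  rw [map_add, M.degree_poleSup H hB hdeg, M.degree_poleSup H hB' hdeg'] at h1
  have h2 := M.degree_poleSup_le H.lowK H.upK (add_nonneg hB hB')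
  rw [map_add] at h2
  rw [map_sub, map_add, M.degree_poleSup H hB hdeg, M.degree_poleSup H hB' hdeg']
  omega

include H in
/-- Existence of the image of a place. -/
theorem exists_image (E₀ : ℕ) (hE : c + g ≤ (E₀ : ℤ)) (hE0 : 0 < E₀) (P : Place L F) :
    ∃ Q : Place (ResidueField A) Fk,
      M.poleSup (Finsupp.single P (E₀ : ℤ)) = Finsupp.single Q (E₀ : ℤ) := by
  classical
  set ψ := fun a : ℕ => M.poleSup (Finsupp.single P (a : ℤ)) with hψ
  have hnn : ∀ a : ℕ, (0 : Divisor L F) ≤ Finsupp.single P (a : ℤ) := fun a =>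
    Finsupp.le_def.mpr fun v => by rw [Finsupp.single_apply]; split_ifs <;> simp
  have hdeg : ∀ a : ℕ, Divisor.degree (Finsupp.single P (a : ℤ)) = a := fun a => by
    rw [Divisor.degree_single, deg_eq_one]; simp
  have hadd : ∀ a b : ℕ, E₀ ≤ a → E₀ ≤ b → ψ (a + b) = ψ a + ψ b := by
    intro a b ha hb
    simp only [hψ]
    rw [Nat.cast_add, Finsupp.single_add]
    exact M.poleSup_add H (hnn a) (hnn b) (by rw [hdeg]; omega) (by rw [hdeg]; omega)
  set δ := ψ (E₀ + 1) - ψ E₀ with hδ
  have hlin : ∀ i : ℕ, ψ (E₀ + i) = ψ E₀ + i • δ := by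
    intro i
    induction i with
    | zero => simp
    | succ i ih =>
      have h1 := hadd (E₀ + (i + 1)) E₀ (by omega) le_rfl
      have h2 := hadd (E₀ + i) (E₀ + 1) (by omega) (by omega)
      rw [show E₀ + (i + 1) + E₀ = E₀ + i + (E₀ + 1) by omega, h2, ih] at h1
      have hδ' : ψ (E₀ + 1) = ψ E₀ + δ := by rw [hδ, add_sub_cancel]
      apply add_right_cancel (b := ψ E₀)
      rw [← h1, hδ', succ_nsmul]
      abel
  have hE₀δ : ψ E₀ = E₀ • δ := by
    have h1 := hadd E₀ E₀ le_rfl le_rfl
    rw [hlin E₀] at h1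
    exact (add_left_cancel h1).symm
  have hδ0 : 0 ≤ δ := by
    refine Finsupp.le_def.mpr fun v => ?_
    have h := Finsupp.le_def.mp (M.poleSup_nonneg (Finsupp.single P (E₀ : ℤ))) v
    rw [show M.poleSup (Finsupp.single P (E₀ : ℤ)) = E₀ • δ from hE₀δ, Finsupp.smul_apply,
      nsmul_eq_mul] at h
    exact (mul_nonneg_iff_of_pos_left (by exact_mod_cast hE0)).mp h
  have hδdeg : Divisor.degree δ = 1 := by
    rw [hδ, map_sub]
    simp only [hψ]
    rw [M.degree_poleSup H (hnn _) (by rw [hdeg]; push_cast; omega),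
      M.degree_poleSup H (hnn _) (by rw [hdeg]; omega), hdeg, hdeg]
    push_cast
    ring
  obtain ⟨Q, hQ⟩ := eq_single_of_degree_eq_one hδ0 hδdeg
  exact ⟨Q, by rw [show M.poleSup (Finsupp.single P (E₀ : ℤ)) = E₀ • δ from hE₀δ, hQ,
    Finsupp.smul_single, nsmul_eq_mul, mul_one]⟩

include H in
/-- The reduction map exists. -/
theorem exists_reductionMap : Nonempty M.ReductionMap := by
  classical
  set E₀ : ℕ := (c + g).toNat + 1 with hE₀
  have hE : c + g ≤ (E₀ : ℤ) := by have := Int.self_le_toNat (c + g); omega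
  choose r hr using M.exists_image H E₀ hE (by omega)
  refine ⟨⟨r, fun x hxi hx0 => ?_⟩⟩
  have hE₀pos : (0 : ℤ) < E₀ := by omega
  -- `poleSup` agrees with `r` on effective divisors of large degree
  have hsmul : ∀ (B : Divisor L F), 0 ≤ B → c + g ≤ Divisor.degree B →
      ∀ n : ℕ, M.poleSup ((n + 1) • B) = (n + 1) • M.poleSup B := by
    intro B hB hdeg n
    induction n with
    | zero => rw [zero_add, one_nsmul, one_nsmul]
    | succ n ih =>
      rw [succ_nsmul B (n + 1), succ_nsmul (M.poleSup B) (n + 1), M.poleSup_add H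
        (nsmul_nonneg hB _) hB ?_ hdeg, ih]
      rw [map_nsmul, succ_nsmul]
      have := degree_nonneg_of_nonneg hB
      have := nsmul_nonneg this n
      omega
  have hmul : ∀ (n : ℕ) (B : Divisor L F), 0 ≤ B → Divisor.degree B = (n : ℤ) + 1 →
      M.poleSup (E₀ • B) = E₀ • Finsupp.mapDomain r B := by
    intro n
    induction n with
    | zero =>
      intro B hB hdeg
      obtain ⟨P, rfl⟩ := eq_single_of_degree_eq_one hB (by simpa using hdeg)
      rw [Finsupp.smul_single, nsmul_eq_mul, mul_one, hr, Finsupp.mapDomain_single,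
        Finsupp.smul_single, nsmul_eq_mul, mul_one]
    | succ n ih =>
      intro B hB hdeg
      obtain ⟨P, hP⟩ : ∃ P, B P ≠ 0 := by
        by_contra hall
        push Not at hall
        rw [show B = 0 from Finsupp.ext hall, map_zero] at hdeg
        omega
      set B' := B - Finsupp.single P 1 with hB'
      have hB'0 : 0 ≤ B' := Finsupp.le_def.mpr fun v => by
        have h0 : (0 : ℤ) ≤ B v := Finsupp.le_def.mp hB v
        rcases eq_or_ne P v with rfl | hv
        · simp [hB']; omega
        · simp [hB', hv.symm, h0]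
      have hB'deg : Divisor.degree B' = (n : ℤ) + 1 := by
        rw [hB', map_sub, hdeg, Divisor.degree_single, deg_eq_one]; push_cast; ring
      have hnn : (0 : Divisor L F) ≤ E₀ • Finsupp.single P (1 : ℤ) :=
        nsmul_nonneg (Finsupp.le_def.mpr fun v => by
          rw [Finsupp.single_apply]; split_ifs <;> simp) _
      conv_lhs => rw [show B = B' + Finsupp.single P 1 by rw [hB', sub_add_cancel]]
      rw [nsmul_add, M.poleSup_add H (nsmul_nonneg hB'0 _) hnn
        (by rw [map_nsmul, hB'deg, nsmul_eq_mul]; nlinarith)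
        (by rw [map_nsmul, Divisor.degree_single, deg_eq_one, nsmul_eq_mul]; simpa using hE),
        ih B' hB'0 hB'deg, Finsupp.smul_single, nsmul_eq_mul, mul_one, hr, hB',
        Finsupp.mapDomain_sub, Finsupp.mapDomain_single, nsmul_sub, Finsupp.smul_single,
        nsmul_eq_mul, mul_one, sub_add_cancel]
  have hmap : ∀ B : Divisor L F, 0 ≤ B → (E₀ : ℤ) ≤ Divisor.degree B →
      M.poleSup B = Finsupp.mapDomain r B := by
    intro B hB hdeg
    obtain ⟨n, hn⟩ := Int.eq_ofNat_of_zero_le (show 0 ≤ Divisor.degree B - 1 by omega)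
    have h1 := hsmul B hB (by omega) (c + g).toNat
    rw [show (c + g).toNat + 1 = E₀ from rfl, hmul n B hB (by omega)] at h1
    refine Finsupp.ext fun v => ?_
    have h2 := congrArg (fun D : Divisor (ResidueField A) Fk => D v) h1
    simp only [Finsupp.smul_apply, nsmul_eq_mul] at h2
    exact (mul_left_cancel₀ hE₀pos.ne' h2).symm
  have hx : x ≠ 0 := fun h => hx0 (by rw [h, M.red_zero])
  obtain ⟨P₀⟩ := (inferInstance : Nonempty (Place L F))
  set B : Divisor L F := polesOf x⁻¹ + Finsupp.single P₀ (E₀ : ℤ) with hB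
  have hsingle : (0 : Divisor L F) ≤ Finsupp.single P₀ (E₀ : ℤ) :=
    Finsupp.le_def.mpr fun v => by rw [Finsupp.single_apply]; split_ifs <;> simp
  have hB0 : 0 ≤ B := add_nonneg (polesOf_nonneg _) hsingle
  have hB'0 : 0 ≤ B - dvs (K := L) x := by
    refine Finsupp.le_def.mpr fun v => ?_
    have h1 := Finsupp.le_def.mp hsingle v
    simp only [hB, Finsupp.sub_apply, Finsupp.add_apply, Finsupp.zero_apply, polesOf_apply,
      dvs_apply, Place.ord_inv] at h1 ⊢
    have := le_max_left (- -v.ord x) 0
    linarith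
  have hBdeg : (E₀ : ℤ) ≤ Divisor.degree B := by
    rw [hB, map_add, Divisor.degree_single, deg_eq_one]
    have := degree_nonneg_of_nonneg (polesOf_nonneg (K := L) x⁻¹)
    push_cast
    omega
  have hB'deg : (E₀ : ℤ) ≤ Divisor.degree (B - dvs (K := L) x) := by
    rw [map_sub, degree_dvs, sub_zero]; exact hBdeg
  have hle : Finsupp.mapDomain r (dvs (K := L) x) ≤ dvs (M.red x) := by
    refine Finsupp.le_def.mpr fun v => ?_
    obtain ⟨s, ⟨z, hz, hzi, rfl⟩, hs0, hs⟩ := M.exists_ord_eq_poleSup hB0 v
    have hmem : M.red x * M.red z ∈ M.redSub (riemannRochSpace (B - dvs (K := L) x)) := by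
      refine ⟨x * z, ?_, (M.isInt_mul hxi hzi).1, (M.isInt_mul hxi hzi).2⟩
      have hx' : x ∈ riemannRochSpace (-dvs (K := L) x) := by
        rw [mem_rr hx]
        intro w
        simp [dvs_apply]
      have := rr_mul hx' hz
      rwa [neg_add_eq_sub] at this
    have h := (mem_rr (mul_ne_zero hx0 hs0)).mp (M.redSub_le_poleSup _ hmem) v
    rw [v.ord_mul hx0 hs0, hs, hmap _ hB0 hBdeg, hmap _ hB'0 hB'deg, Finsupp.mapDomain_sub,
      Finsupp.sub_apply] at h
    rw [dvs_apply]
    omega
  refine (sub_eq_zero.mp (eq_zero_of_degree_eq_zero (sub_nonneg.mpr hle) ?_)).symm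
  rw [map_sub, degree_dvs, ReductionMap.degree_map, degree_dvs, sub_zero]

end GoodModel

end Fermat.Agent.Reduction
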