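import Fermat.Agent.Reduction.Cusp

/-!
# Integrality of expansions at infinity

A function in the Gauss ring whose poles lie among the poles of `u = 1/j` has an expansion in
`A⟦q⟧`. Consequently the reduction map sends the cusp at infinity to the cusp at infinity.
-/

set_option autoImplicit false
set_option linter.unusedSectionVars false

noncomputable section

namespace Fermat.Agent.Reduction

open IsLocalRing ModularCurve HahnSeries AlgebraicCurve IntermediateField
  Fermat.Agent.FunctionFieldRR

variable {L : Type*} [Field L] {A : ValuationSubring L}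
  {F : IntermediateField L (LaurentSeries L)}
  {Fk : IntermediateField (ResidueField A) (LaurentSeries (ResidueField A))}
  [IsAlgClosed L] [IsFunctionField L F] [IsAlgClosed (ResidueField A)]
  [IsFunctionField (ResidueField A) Fk]
  [HasPrincipalDivisors L F] [HasPrincipalDivisors (ResidueField A) Fk]

namespace GoodModel

variable {M : GoodModel A F Fk} (R : M.ReductionMap) {g c : ℤ}
  (H : RRData (A := A) (F := F) (Fk := Fk) g c)

include R H in
/-- Multiplication by `u` generates the spaces `L(mZ)` for large `m`. -/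
theorem rr_succ_le {m : ℕ} (hm : c.toNat + 1 ≤ m) :
    riemannRochSpace ((m + 1) • M.Zdiv) ≤
      riemannRochSpace (m • M.Zdiv) ⊔
        (riemannRochSpace (m • M.Zdiv)).map (LinearMap.mulLeft L M.uF) := by
  classical
  set Z := M.Zdiv with hZ
  have hZ0 : 0 ≤ Z := polesOf_nonneg _
  have hdeg := one_le_degree_Z (M := M)
  have hcn := Int.self_le_toNat c
  have hdim : ∀ k : ℕ, c.toNat ≤ k →
      (Module.finrank L (riemannRochSpace (k • Z)) : ℤ) = k * Divisor.degree Z + 1 - g := by
    intro k hk
    have hkc : (c.toNat : ℤ) ≤ (k : ℤ) := by exact_mod_cast hk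
    rw [H.finrank_eq (by rw [map_nsmul, nsmul_eq_mul]; nlinarith) R, map_nsmul, nsmul_eq_mul]
  obtain ⟨m', rfl⟩ : ∃ m', m = m' + 1 := ⟨m - 1, by omega⟩
  set V := riemannRochSpace ((m' + 1) • Z) with hV
  set U := V.map (LinearMap.mulLeft L M.uF) with hU
  have hinj : Function.Injective (LinearMap.mulLeft L M.uF) := fun a b h =>
    mul_left_cancel₀ M.uF_ne_zero h
  have hUdim : Module.finrank L U = Module.finrank L V :=
    (Submodule.equivMapOfInjective _ hinj V).finrank_eq.symm
  have hsup : V ⊔ U ≤ riemannRochSpace ((m' + 1 + 1) • Z) := by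
    refine sup_le (rr_mono (nsmul_le_nsmul_left hZ0 (Nat.le_succ _))) ?_
    rintro _ ⟨x, hx, rfl⟩
    rw [succ_nsmul Z (m' + 1), add_comm]
    exact rr_mul (mem_rr_polesOf M.uF) hx
  have hinf : V ⊓ U ≤ (riemannRochSpace (m' • Z)).map (LinearMap.mulLeft L M.uF) := by
    rintro z ⟨hz, x, hx, rfl⟩
    refine ⟨x, ?_, rfl⟩
    rcases eq_or_ne x 0 with rfl | hx0
    · exact zero_mem _
    rw [SetLike.mem_coe, hV, mem_rr hx0] at hx
    rw [LinearMap.mulLeft_apply, SetLike.mem_coe, hV, mem_rr (mul_ne_zero M.uF_ne_zero hx0)] at hz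
    rw [SetLike.mem_coe, mem_rr hx0]
    intro v
    have h1 := hx v
    have h2 := hz v
    rw [v.ord_mul M.uF_ne_zero hx0] at h2
    have hZv : Z v = max (-v.ord M.uF) 0 := polesOf_apply _ _
    simp only [Finsupp.smul_apply, nsmul_eq_mul] at h1 h2 ⊢
    push_cast at h1 h2 ⊢
    rcases le_or_gt 0 (v.ord M.uF) with hv | hv
    · rw [max_eq_right (by omega)] at hZv
      rw [hZv] at h1 ⊢
      linarith
    · rw [max_eq_left (by omega)] at hZv
      rw [hZv] at h2 ⊢
      linarith
  have : Module.Finite L U := Module.Finite.equiv (Submodule.equivMapOfInjective _ hinj V)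
  have h0 := Submodule.finrank_sup_add_finrank_inf_eq V U
  have h1 : Module.finrank L ↥(V ⊓ U) ≤ Module.finrank L (riemannRochSpace (m' • Z)) :=
    (Submodule.finrank_mono hinf).trans (Submodule.finrank_map_le _ _)
  rw [hUdim] at h0
  have hVd : (Module.finrank L V : ℤ) = ((m' + 1 : ℕ) : ℤ) * Divisor.degree Z + 1 - g :=
    hdim _ (by omega)
  have h2 := hdim m' (by omega)
  have h3 := hdim (m' + 1 + 1) (by omega)
  refine le_of_eq (Submodule.eq_of_le_of_finrank_le hsup ?_).symm
  have h0' : (Module.finrank L ↥(V ⊔ U) : ℤ) + Module.finrank L ↥(V ⊓ U) =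
      Module.finrank L V + Module.finrank L V := by exact_mod_cast h0
  have h1' : (Module.finrank L ↥(V ⊓ U) : ℤ) ≤ Module.finrank L (riemannRochSpace (m' • Z)) := by
    exact_mod_cast h1
  push_cast at hVd h3
  have key : (Module.finrank L (riemannRochSpace ((m' + 1 + 1) • Z)) : ℤ) ≤
      Module.finrank L ↥(V ⊔ U) := by linarith
  exact_mod_cast key

include R H in
/-- Functions in the Gauss ring with poles among those of `u` expand in `A⟦q⟧`. -/
theorem exists_series_of_mem {n : ℕ} {x : F} (hx : x ∈ riemannRochSpace (n • M.Zdiv))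
    (hi : M.IsInt x) :
    ∃ y : LaurentSeries A, (x : LaurentSeries L) = ιS A y ∧
      (M.red x : LaurentSeries (ResidueField A)) = redS A y ∧ ∀ k < 0, y.coeff k = 0 := by
  classical
  set m₀ := c.toNat + 1 with hm₀
  set W := riemannRochSpace (m₀ • M.Zdiv) with hW
  have : Module.Free L W := Module.Free.of_divisionRing L W
  let b := Module.finBasis L W
  obtain ⟨Q, hQ, hQF, hQb⟩ := M.exists_common_denom fun i => (b i : F)
  have hWb : ∀ w ∈ W, Bdd A (ιS A Q * (w : LaurentSeries L)) := by
    intro w hw
    have hdec := congrArg W.subtype (b.sum_repr ⟨w, hw⟩)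
    rw [map_sum] at hdec
    rw [← show _ = w from hdec, AddSubmonoidClass.coe_finsetSum, Finset.mul_sum]
    refine Bdd.sum _ _ fun i _ => ?_
    rw [map_smul, coe_smul_intermediateField, mul_left_comm]
    exact (hQb i).single_mul _
  have hall : ∀ (i : ℕ) (w : F), w ∈ riemannRochSpace ((m₀ + i) • M.Zdiv) →
      Bdd A (ιS A Q * (w : LaurentSeries L)) := by
    intro i
    induction i with
    | zero => exact hWb
    | succ i ih =>
      intro w hw
      obtain ⟨a, ha, _, ⟨z, hz, rfl⟩, rfl⟩ :=
        Submodule.mem_sup.mp (rr_succ_le R H (Nat.le_add_right _ i) hw)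
      rw [AddMemClass.coe_add, mul_add, LinearMap.mulLeft_apply, MulMemClass.coe_mul, M.coe_uF,
        mul_left_comm]
      exact (ih a ha).add ((ih z hz).range_mul _)
  have hQ0 : Q ≠ 0 := fun e => hQ (by rw [e, map_zero])
  have hint : (x : LaurentSeries L) ∈ (ιS A).range := by
    refine mem_range_of_almostIntegral M.nil hQ0 fun k => ?_
    have hk : x ^ k ∈ riemannRochSpace ((m₀ + k * n) • M.Zdiv) := by
      refine rr_mono ?_ (rr_pow hx k)
      rw [← mul_nsmul']
      exact nsmul_le_nsmul_left (polesOf_nonneg _) (Nat.le_add_left _ _)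
    obtain ⟨hqi, -⟩ := M.isInt_mul (M.isInt_series (x := (⟨ιS A Q, hQF⟩ : F)) rfl).1
      (M.isInt_pow hi k).1
    obtain ⟨y, hy, -⟩ := M.exists_series hqi (by
      rw [MulMemClass.coe_mul, SubmonoidClass.coe_pow]
      have := hall _ _ hk
      rwa [SubmonoidClass.coe_pow] at this)
    refine ⟨y, ?_⟩
    rw [← hy, MulMemClass.coe_mul, SubmonoidClass.coe_pow]
  obtain ⟨y, hy⟩ := hint
  refine ⟨y, hy.symm, (M.isInt_series hy.symm).2, fun k hk => ?_⟩
  have hord : 0 ≤ M.cuspF.ord x := by
    rcases mem_riemannRochSpace_iff.mp hx M.cuspF with h | h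
    · rw [h]; simp
    · simpa [Z_apply_cusp] using h
  rw [ord_cuspF] at hord
  apply A.subtype_injective
  have h1 := congrArg (fun z => z.coeff k) hy
  simp only [coeffMap_coeff] at h1
  rw [h1, map_zero]
  exact HahnSeries.coeff_eq_zero_of_lt_order (by omega)

include H in
/-- Evaluation commutes with reduction: if `P` is a zero of `x - a` and no pole of `x` reduces
to `r(P)`, then `a` is integral and `r(P)` is a zero of `x̄ - ā`. -/
theorem exists_residue_eq {x : F} (hi : M.IsInt x) {P : Place L F} {D : Divisor L F}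
    (hD : 0 ≤ D) (hx : x ∈ riemannRochSpace D)
    (hP : Finsupp.mapDomain R.toFun D (R.toFun P) = 0) {a : L}
    (ha : VanishesTo P 1 (x - algebraMap L F a)) :
    ∃ h : a ∈ A, VanishesTo (R.toFun P) 1
      (M.red x - algebraMap (ResidueField A) Fk (residue A ⟨a, h⟩)) := by
  classical
  have hDP : D P = 0 := apply_eq_zero_of_mapDomain_apply R.toFun hD hP
  -- a function of `L(D)` vanishing at `P` reduces to one vanishing at `r(P)`
  have key : ∀ z : F, z ∈ riemannRochSpace D → M.IsInt z → VanishesTo P 1 z →
      VanishesTo (R.toFun P) 1 (M.red z) := by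
    intro z hz hzi hzP
    have hz' : z ∈ riemannRochSpace (D - Finsupp.single P 1) := by
      rw [mem_riemannRochSpace_iff] at hz ⊢
      intro v
      rcases eq_or_ne v P with rfl | hv
      · exact hzP.imp_right fun h => by simp [hDP]; omega
      · simpa [hv, hv.symm] using hz v
    have h := mem_riemannRochSpace_iff.mp (R.red_mem_rr hz' hzi) (R.toFun P)
    refine h.imp_right fun h' => ?_
    rw [Finsupp.mapDomain_sub, Finsupp.mapDomain_single] at h'
    simp [hP] at h'
    omega
  by_cases haA : a ∈ A
  · refine ⟨haA, ?_⟩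
    obtain ⟨h1, h2⟩ := M.isInt_sub hi (M.isInt_const haA).1
    rw [(M.isInt_const haA).2] at h2
    rw [← h2]
    exact key _ (sub_mem hx (algebraMap_mem_rr hD a)) h1 ha
  · exfalso
    have ha0 : a ≠ 0 := fun e => haA (e ▸ A.zero_mem)
    have ha' : a⁻¹ ∈ A := (A.mem_or_inv_mem a).resolve_left haA
    obtain ⟨h1, h2⟩ := M.isInt_sub (M.isInt_smul ha' hi).1 M.isInt_one
    have hres : residue A ⟨a⁻¹, ha'⟩ = 0 := by
      rw [residue_eq_zero_iff]
      intro hu
      obtain ⟨u, hu⟩ := hu
      have e : a⁻¹ * ((↑u⁻¹ : A) : L) = 1 := by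
        have h1 : ((u : A) : L) * ((↑u⁻¹ : A) : L) = 1 := by
          rw [← MulMemClass.coe_mul, Units.mul_inv]; rfl
        rwa [hu] at h1
      exact haA (((inv_mul_eq_one₀ ha0).mp e).symm ▸ (↑u⁻¹ : A).2)
    rw [(M.isInt_smul ha' hi).2, hres, zero_smul, M.red_one, zero_sub] at h2
    have hvan : VanishesTo P 1 (a⁻¹ • x - 1) := by
      have e : a⁻¹ • x - 1 = a⁻¹ • (x - algebraMap L F a) := by
        rw [smul_sub, Algebra.algebraMap_eq_smul_one, smul_smul, inv_mul_cancel₀ ha0, one_smul]
      rw [e]
      exact ha.smul _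
    have hmem : a⁻¹ • x - 1 ∈ riemannRochSpace D :=
      sub_mem (Submodule.smul_mem _ _ hx) (one_mem_rr hD)
    have := key _ hmem h1 hvan
    rw [h2] at this
    exact not_vanishesTo_one (by simpa using this.neg)

include H in
/-- The cusp at infinity reduces to the cusp at infinity. -/
theorem map_cusp : R.toFun M.cuspF = M.cuspK := by
  classical
  have hZQ : M.ZdivK (R.toFun M.cuspF) = 0 := by
    have hspec := R.spec M.uF M.red_uF.1 (by rw [M.red_uF.2]; exact M.uK_ne_zero)
    rw [M.red_uF.2] at hspec
    -- the positive part of `div u` reduces into the zeros of `ū`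
    have h1 := mapDomain_mono R.toFun M.dvs_u_add_Z_nonneg
    rw [Finsupp.mapDomain_zero] at h1
    have h2 : Finsupp.single M.cuspF 1 ≤ dvs (K := L) M.uF + M.Zdiv := by
      refine Finsupp.le_def.mpr fun v => ?_
      rcases eq_or_ne v M.cuspF with rfl | hv
      · simp [dvs_apply, ord_cuspF, M.order_uF, Z_apply_cusp]
      · rw [Finsupp.single_apply, if_neg (Ne.symm hv)]
        exact Finsupp.le_def.mp M.dvs_u_add_Z_nonneg v
    have h3 := Finsupp.le_def.mp (mapDomain_mono R.toFun h2) (R.toFun M.cuspF)
    rw [Finsupp.mapDomain_single, Finsupp.single_eq_same, Finsupp.mapDomain_add, hspec,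
      map_Z R H, Finsupp.add_apply, dvs_apply, polesOf_apply] at h3
    rw [polesOf_apply]
    rcases le_total (-(R.toFun M.cuspF).ord M.uK) 0 with h | h
    · exact max_eq_right h
    · rw [max_eq_left h] at h3; omega
  by_contra hne
  set Q := R.toFun M.cuspF with hQ
  -- a multiple of `Z` of large degree
  set N := c.toNat + 2 with hN
  have hdegZ := one_le_degree_Z (M := M)
  have hcn := Int.self_le_toNat c
  set D : Divisor (ResidueField A) Fk := N • M.ZdivK with hD
  have hmap : Finsupp.mapDomain R.toFun (N • M.Zdiv) = D := by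
    rw [← Finsupp.mapDomain.addMonoidHom_apply, map_nsmul, Finsupp.mapDomain.addMonoidHom_apply,
      map_Z R H]
  have hdegD : Divisor.degree D = N * Divisor.degree M.Zdiv := by
    rw [← hmap, ReductionMap.degree_map, map_nsmul, nsmul_eq_mul]
  have hcD : c ≤ Divisor.degree (N • M.Zdiv) := by
    rw [map_nsmul, nsmul_eq_mul]
    push_cast [hN]
    nlinarith
  -- every function in `L(D - Q)` vanishes at the cusp
  have hsub : riemannRochSpace (D - Finsupp.single Q 1) ≤
      riemannRochSpace (D - Finsupp.single Q 1 - Finsupp.single M.cuspK 1) := by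
    intro s hs
    have hsD : s ∈ riemannRochSpace D := rr_mono (Finsupp.le_def.mpr fun v => by
      rw [Finsupp.sub_apply, Finsupp.single_apply]; split_ifs <;> omega) hs
    obtain ⟨x, hx, hxi, rfl⟩ := R.exists_lift H.low H.up hcD (hmap ▸ hsD)
    obtain ⟨y, hy, hy', hy0⟩ := exists_series_of_mem R H hx hxi
    -- the value of `x` at the cusp
    set a : A := y.coeff 0 with ha
    have hxv : VanishesTo M.cuspF 1 (x - algebraMap L F (a : L)) := by
      rw [VanishesTo, ord_cuspF]
      rcases eq_or_ne (x - algebraMap L F (a : L)) 0 with h0 | h0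
      · exact Or.inl h0
      right
      refine not_lt.mp fun hlt => h0 (Subtype.ext (HahnSeries.coeff_order_eq_zero.mp ?_))
      rw [AddSubgroupClass.coe_sub, HahnSeries.coeff_sub, IntermediateField.coe_algebraMap_apply,
        algebraMap_laurentSeries_eq_single, hy, coeffMap_coeff]
      rcases lt_or_ge ((x - algebraMap L F (a : L) : F) : LaurentSeries L).order 0 with h | h
      · rw [AddSubgroupClass.coe_sub, IntermediateField.coe_algebraMap_apply,
          algebraMap_laurentSeries_eq_single, hy] at h
        rw [hy0 _ h, map_zero, HahnSeries.coeff_single_of_ne h.ne, sub_zero]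
      · rw [AddSubgroupClass.coe_sub, IntermediateField.coe_algebraMap_apply,
          algebraMap_laurentSeries_eq_single, hy] at h hlt
        rw [show HahnSeries.order (ιS A y - (HahnSeries.single 0 (a : L) : LaurentSeries L)) = (0 : ℤ)
          by omega]
        simp [ha]
    obtain ⟨haA, hvan⟩ := exists_residue_eq R H hxi
      (nsmul_nonneg (polesOf_nonneg _) N) hx
      (by rw [hmap, hD, Finsupp.smul_apply, hZQ, smul_zero]) hxv
    have hsQ : VanishesTo Q 1 (M.red x) := by
      have := mem_riemannRochSpace_iff.mp hs Q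
      refine this.imp_right fun h => ?_
      simp [hD, hZQ] at h
      omega
    have h0 : residue A a = 0 := by
      have := hsQ.sub hvan
      rw [sub_sub_cancel] at this
      rcases this with h | h
      · simpa using (map_eq_zero (algebraMap (ResidueField A) Fk)).mp h
      · rw [ord_algebraMap] at h; omega
    rw [mem_riemannRochSpace_iff]
    intro v
    rcases eq_or_ne v M.cuspK with rfl | hv
    · rcases eq_or_ne (M.red x) 0 with hr | hr
      · exact Or.inl hr
      right
      simp only [Finsupp.sub_apply, hD, Finsupp.smul_apply, ZK_apply_cusp, smul_zero,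
        Finsupp.single_apply, if_neg hne, ord_cuspK, sub_zero, zero_sub, neg_neg]
      refine not_lt.mp fun hlt => hr (Subtype.ext (HahnSeries.coeff_order_eq_zero.mp ?_))
      rw [hy'] at hlt ⊢
      rcases lt_or_ge (redS A y).order 0 with h | h
      · rw [coeffMap_coeff, hy0 _ h, map_zero]
      · rw [coeffMap_coeff, show (redS A y).order = 0 by omega, ← ha, h0]
    · simpa [hv, hv.symm] using mem_riemannRochSpace_iff.mp hs v
  -- contradiction with Riemann–Roch
  have h1 : Divisor.degree (N • M.Zdiv - Finsupp.single M.cuspF 1) + 1 - g ≤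
      (Module.finrank (ResidueField A) (riemannRochSpace (D - Finsupp.single Q 1)) : ℤ) := by
    have h := H.low (N • M.Zdiv - Finsupp.single M.cuspF 1)
    have h' := R.finrank_le (N • M.Zdiv - Finsupp.single M.cuspF 1)
    rw [Finsupp.mapDomain_sub, hmap, Finsupp.mapDomain_single, ← hQ] at h'
    omega
  have h2 := H.up (D - Finsupp.single Q 1 - Finsupp.single M.cuspK 1) (by
    rw [map_sub, map_sub, hdegD, Divisor.degree_single, Divisor.degree_single, deg_eq_one,
      deg_eq_one]
    push_cast [hN]
    nlinarith)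
  have h3 := Submodule.finrank_mono hsub
  rw [map_sub, map_sub, hdegD, Divisor.degree_single, Divisor.degree_single, deg_eq_one,
    deg_eq_one] at h2
  rw [map_sub, map_nsmul, nsmul_eq_mul, Divisor.degree_single, deg_eq_one] at h1
  omega

end GoodModel

end Fermat.Agent.Reduction
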