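import Fermat.Agent.Reduction.Lattice

/-!
# The reduced field consists of reductions; lifting linear independence
-/

set_option autoImplicit false
set_option linter.unusedSectionVars false

noncomputable section

namespace Fermat.Agent.Reduction

open IsLocalRing ModularCurve HahnSeries IntermediateField Polynomial
open scoped IntermediateField.algebraAdjoinAdjoin

variable {L : Type*} [Field L] {A : ValuationSubring L}
  {F : IntermediateField L (LaurentSeries L)}
  {Fk : IntermediateField (ResidueField A) (LaurentSeries (ResidueField A))}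

namespace GoodModel

variable (M : GoodModel A F Fk)

include M in
/-- Every element of the reduced field is the reduction of a function in the Gauss ring. -/
theorem exists_isInt_red_eq (s : Fk) : ∃ x : F, M.IsInt x ∧ M.red x = s := by
  obtain ⟨s, hs⟩ := s
  have hs' : s ∈ IntermediateField.adjoin (ResidueField A) (redS A '' M.gens) := M.red_eq ▸ hs
  suffices h : ∃ x : F, M.IsInt x ∧ (M.red x : LaurentSeries (ResidueField A)) = s by
    obtain ⟨x, h1, h2⟩ := h
    exact ⟨x, h1, Subtype.ext h2⟩
  clear hs
  induction hs' using IntermediateField.adjoin_induction with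
  | mem s hs =>
    obtain ⟨y, hy, rfl⟩ := hs
    exact ⟨⟨ιS A y, M.ι_gens_mem hy⟩, M.isInt_series rfl⟩
  | algebraMap a =>
    obtain ⟨b, rfl⟩ := residue_surjective a
    refine ⟨algebraMap L F (b : L), (M.isInt_const b.2).1, ?_⟩
    rw [(M.isInt_const b.2).2, IntermediateField.coe_algebraMap_apply]
  | add s t _ _ hs ht =>
    obtain ⟨x, hx, rfl⟩ := hs
    obtain ⟨y, hy, rfl⟩ := ht
    exact ⟨x + y, (M.isInt_add hx hy).1, by rw [(M.isInt_add hx hy).2]; rfl⟩
  | inv s _ hs =>
    obtain ⟨x, hx, rfl⟩ := hs
    by_cases h0 : M.red x = 0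
    · exact ⟨0, M.isInt_zero, by rw [M.red_zero, h0, ZeroMemClass.coe_zero, inv_zero]⟩
    · exact ⟨x⁻¹, (M.isInt_inv hx h0).1, by rw [(M.isInt_inv hx h0).2, IntermediateField.coe_inv]⟩
  | mul s t _ _ hs ht =>
    obtain ⟨x, hx, rfl⟩ := hs
    obtain ⟨y, hy, rfl⟩ := ht
    exact ⟨x * y, (M.isInt_mul hx hy).1, by rw [(M.isInt_mul hx hy).2]; rfl⟩

/-- Integral polynomials in an element of the Gauss ring reduce to the reduced polynomials. -/
theorem isInt_aeval {x : F} (hx : M.IsInt x) (p : A[X]) :
    M.IsInt (aeval x (p.map A.subtype)) ∧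
      M.red (aeval x (p.map A.subtype)) = aeval (M.red x) (p.map (residue A)) := by
  induction p using Polynomial.induction_on' with
  | add p q hp hq =>
    rw [Polynomial.map_add, Polynomial.map_add, map_add, map_add]
    obtain ⟨h1, h2⟩ := M.isInt_add hp.1 hq.1
    exact ⟨h1, by rw [h2, hp.2, hq.2]⟩
  | monomial n a =>
    rw [Polynomial.map_monomial, Polynomial.map_monomial, aeval_monomial, aeval_monomial]
    obtain ⟨h1, h2⟩ := M.isInt_mul (M.isInt_const a.2).1 (M.isInt_pow hx n).1
    exact ⟨h1, by rw [show (A.subtype a : L) = (a : L) from rfl, h2, (M.isInt_const a.2).2,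
      (M.isInt_pow hx n).2]⟩

/-- Independence over the rational functions in `red x` lifts. -/
theorem linearIndependent_of_red {ι : Type*} [Fintype ι] {x : F} (hx : M.IsInt x)
    (htr : Transcendental (ResidueField A) (M.red x)) {z : ι → F} (hz : ∀ i, M.IsInt (z i))
    (hli : LinearIndependent (ResidueField A)⟮M.red x⟯ fun i => M.red (z i)) :
    LinearIndependent L⟮x⟯ z := by
  classical
  rw [← LinearIndependent.iff_fractionRing (R := Algebra.adjoin L ({x} : Set F)),
    Fintype.linearIndependent_iff]
  intro a ha i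
  by_contra hai
  have hmem : ∀ l, ∃ φ : L[X], aeval x φ = (a l : F) := fun l =>
    (SetLike.ext_iff.mp (Algebra.adjoin_singleton_eq_range_aeval L x) _).mp (a l).2
  choose φ hφ using hmem
  have hrel : ∑ l, aeval x (φ l) * z l = 0 := by
    simpa [hφ, Algebra.smul_def] using ha
  have hφ0 : φ i ≠ 0 := fun h => hai (Subtype.ext (by rw [← hφ i, h, map_zero]; rfl))
  set d := Finset.univ.sup (fun l => (φ l).natDegree) with hd
  obtain ⟨c₀, b, hc₀, hb, ⟨l₀, n₀⟩, hone⟩ := Fermat.Agent.Reduction.exists_scale A
    (fun t : ι × Fin (d + 1) => (φ t.1).coeff t.2)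
    ⟨⟨i, ⟨(φ i).natDegree, Nat.lt_succ_of_le
      (Finset.le_sup (f := fun l => (φ l).natDegree) (Finset.mem_univ i))⟩⟩, by simpa using hφ0⟩
  let q : ι → A[X] := fun l => ∑ n : Fin (d + 1), Polynomial.C (b (l, n)) * X ^ (n : ℕ)
  have hq : ∀ l, φ l = Polynomial.C c₀ * (q l).map A.subtype := fun l => by
    conv_lhs => rw [Polynomial.as_sum_range' (φ l) (d + 1)
      (Nat.lt_succ_of_le (Finset.le_sup (f := fun l => (φ l).natDegree) (Finset.mem_univ l)))]
    rw [← Fin.sum_univ_eq_sum_range (fun k => monomial k ((φ l).coeff k)), Polynomial.map_sum,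
      Finset.mul_sum]
    refine Finset.sum_congr rfl fun n _ => ?_
    rw [Polynomial.map_mul, Polynomial.map_pow, Polynomial.map_C, Polynomial.map_X, ← mul_assoc,
      ← map_mul, ← C_mul_X_pow_eq_monomial]
    exact congrArg (fun w => Polynomial.C w * _) (hb (l, n))
  have hrel' : ∑ l, aeval x ((q l).map A.subtype) * z l = 0 := by
    simp only [hq, map_mul, aeval_C, mul_assoc, ← Finset.mul_sum] at hrel
    exact (mul_eq_zero.mp hrel).resolve_left ((_root_.map_ne_zero (algebraMap L F)).mpr hc₀)
  -- reduce the relation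
  have hsum : ∀ s : Finset ι, M.IsInt (∑ l ∈ s, aeval x ((q l).map A.subtype) * z l) ∧
      M.red (∑ l ∈ s, aeval x ((q l).map A.subtype) * z l) =
        ∑ l ∈ s, aeval (M.red x) ((q l).map (residue A)) * M.red (z l) := by
    intro s
    induction s using Finset.induction_on with
    | empty => simp [M.isInt_zero]
    | insert l s hl ih =>
      rw [Finset.sum_insert hl, Finset.sum_insert hl]
      obtain ⟨h1, h2⟩ := M.isInt_mul (M.isInt_aeval hx (q l)).1 (hz l)
      obtain ⟨h3, h4⟩ := M.isInt_add h1 ih.1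
      exact ⟨h3, by rw [h4, h2, ih.2, (M.isInt_aeval hx (q l)).2]⟩
  have hred := (hsum Finset.univ).2
  rw [hrel', M.red_zero] at hred
  have h0 := Fintype.linearIndependent_iff.mp hli
    (fun l => ⟨aeval (M.red x) ((q l).map (residue A)),
      algebra_adjoin_le_adjoin _ _ (aeval_mem_adjoin_singleton _ _)⟩) hred.symm l₀
  have h1 := transcendental_iff.mp htr _ (congrArg Subtype.val h0)
  have h2 := congrArg (fun w : (ResidueField A)[X] => w.coeff n₀) h1
  simp [q, Polynomial.map_sum, coeff_X_pow, Fin.val_inj, hone] at h2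

end GoodModel

end Fermat.Agent.Reduction
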