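import Fermat.Agent.Reduction.Series

/-!
# Pivot bases of lattices of integral series

Scalar multiples are written `single 0 c * x` to stay clear of the two module structures on
Laurent series.
-/

set_option autoImplicit false

noncomputable section

namespace Fermat.Agent.Reduction

open IsLocalRing ModularCurve HahnSeries

variable {L : Type*} [Field L] (A : ValuationSubring L)
  {F : IntermediateField L (LaurentSeries L)}

theorem coe_smul_intermediateField (c : L) (x : F) :
    ((c • x : F) : LaurentSeries L) = HahnSeries.single 0 c * (x : LaurentSeries L) := by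
  rw [Algebra.smul_def, MulMemClass.coe_mul, IntermediateField.coe_algebraMap_apply,
    algebraMap_laurentSeries_eq_single]

/-- Every nonzero member of `V` has a multiple with integral coefficients and nonzero
reduction. -/
def Scalable (V : Submodule L F) : Prop :=
  ∀ v ∈ V, v ≠ 0 → ∃ (c : L) (y : LaurentSeries A),
    ((c • v : F) : LaurentSeries L) = ιS A y ∧ redS A y ≠ 0

/-- A basis of `V` by integral series, normalised at chosen coefficients. -/
structure PivotBasis (V : Submodule L F) (r : ℕ) where
  /-- the chosen coefficient indices -/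
  idx : Fin r → ℤ
  /-- the basis vectors, as integral series -/
  vec : Fin r → LaurentSeries A
  /-- the basis vectors, in `F` -/
  el : Fin r → F
  el_mem : ∀ i, el i ∈ V
  coe_el : ∀ i, (el i : LaurentSeries L) = ιS A (vec i)
  coeff_vec : ∀ i j, (vec i).coeff (idx j) = if i = j then 1 else 0
  decomp : ∀ x ∈ V, x = ∑ i, (x : LaurentSeries L).coeff (idx i) • el i

variable {A}

theorem exists_pivotBasis (V : Submodule L F) [Module.Finite L V] (hV : Scalable A V) :
    Nonempty (PivotBasis A V (Module.finrank L V)) := by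
  classical
  induction hd : Module.finrank L V generalizing V with
  | zero =>
    have hbot : V = ⊥ := Submodule.finrank_eq_zero.mp hd
    refine ⟨⟨Fin.elim0, Fin.elim0, Fin.elim0, fun i => i.elim0, fun i => i.elim0,
      fun i => i.elim0, fun x hx => ?_⟩⟩
    rw [hbot, Submodule.mem_bot] at hx
    simp [hx]
  | succ r ih =>
    obtain ⟨v, hv, hv0⟩ := V.ne_bot_iff.mp (fun h => by rw [h, finrank_bot] at hd; omega)
    obtain ⟨c, y, hy, hy0⟩ := hV v hv hv0
    obtain ⟨n, hn⟩ : ∃ n, IsUnit (y.coeff n) := by
      by_contra h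
      push Not at h
      exact hy0 (redS_eq_zero_iff.mpr h)
    obtain ⟨u, hu⟩ := hn
    set e₁ : F := ((↑u⁻¹ : A) : L) • (c • v) with he₁
    set y₁ : LaurentSeries A := HahnSeries.single 0 (↑u⁻¹ : A) * y with hy₁
    have he₁y : (e₁ : LaurentSeries L) = ιS A y₁ := by
      rw [he₁, coe_smul_intermediateField, hy, hy₁, map_mul, ιS_single]
    have hy₁n : y₁.coeff n = 1 := by rw [hy₁, coeff_single_zero_mul, ← hu, Units.inv_mul]
    have he₁n : (e₁ : LaurentSeries L).coeff n = 1 := by
      rw [he₁y, coeffMap_coeff, hy₁n, map_one]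
    have he₁V : e₁ ∈ V := V.smul_mem _ (V.smul_mem _ hv)
    -- the kernel of the coefficient at `n`
    let φ : V →ₗ[L] L :=
      { toFun := fun x => ((x : F) : LaurentSeries L).coeff n
        map_add' := fun x z => by simp
        map_smul' := fun a x => by
          rw [SetLike.val_smul, coe_smul_intermediateField, coeff_single_zero_mul]
          rfl }
    set V' : Submodule L F := (LinearMap.ker φ).map V.subtype with hV'
    have hV'le : V' ≤ V := by
      rintro _ ⟨x, -, rfl⟩; exact x.2
    have hV'n : ∀ x, x ∈ V' ↔ x ∈ V ∧ (x : LaurentSeries L).coeff n = 0 := fun x => by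
      constructor
      · rintro ⟨z, hz, rfl⟩; exact ⟨z.2, hz⟩
      · exact fun h => ⟨⟨x, h.1⟩, h.2, rfl⟩
    have hsurj : Function.Surjective φ := fun a => ⟨⟨a • e₁, V.smul_mem a he₁V⟩, by
      show ((a • e₁ : F) : LaurentSeries L).coeff n = a
      rw [coe_smul_intermediateField, coeff_single_zero_mul, he₁n, mul_one]⟩
    have hdim : Module.finrank L V' = r := by
      rw [hV', Submodule.finrank_map_subtype_eq]
      have h1 := LinearMap.finrank_range_add_finrank_ker φ
      rw [LinearMap.range_eq_top.mpr hsurj, finrank_top, Module.finrank_self, hd] at h1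
      omega
    have : Module.Finite L V' := Submodule.finiteDimensional_of_le hV'le
    obtain ⟨B⟩ := ih V' (fun x hx => hV x (hV'le hx)) hdim
    have hBn : ∀ i, (B.vec i).coeff n = 0 := fun i => by
      have h2 := ((hV'n _).mp (B.el_mem i)).2
      rw [B.coe_el, coeffMap_coeff] at h2
      exact A.subtype_injective (by simpa using h2)
    set y₂ : LaurentSeries A :=
      y₁ - ∑ i, HahnSeries.single 0 (y₁.coeff (B.idx i)) * B.vec i with hy₂
    set e₂ : F := e₁ - ∑ i, ((y₁.coeff (B.idx i) : A) : L) • B.el i with he₂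
    have he₂y : (e₂ : LaurentSeries L) = ιS A y₂ := by
      rw [he₂, hy₂, map_sub, map_sum, AddSubgroupClass.coe_sub, he₁y,
        AddSubmonoidClass.coe_finsetSum]
      congr 1
      refine Finset.sum_congr rfl fun i _ => ?_
      rw [coe_smul_intermediateField, B.coe_el, map_mul, ιS_single]
    have hy₂c : ∀ m, y₂.coeff m = y₁.coeff m - ∑ i, y₁.coeff (B.idx i) * (B.vec i).coeff m :=
      fun m => by simp [hy₂, HahnSeries.coeff_sum]
    have hy₂n : y₂.coeff n = 1 := by simp [hy₂c, hBn, hy₁n]
    have hy₂i : ∀ i, y₂.coeff (B.idx i) = 0 := fun i => by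
      simp [hy₂c, B.coeff_vec]
    have he₂V : e₂ ∈ V :=
      V.sub_mem he₁V (V.sum_mem fun i _ => V.smul_mem _ (hV'le (B.el_mem i)))
    refine ⟨⟨Fin.cons n B.idx, Fin.cons y₂ B.vec, Fin.cons e₂ B.el, ?_, ?_, ?_, ?_⟩⟩
    · exact Fin.cases he₂V fun i => hV'le (B.el_mem i)
    · exact Fin.cases he₂y fun i => B.coe_el i
    · intro i j
      refine Fin.cases ?_ (fun i' => ?_) i <;> refine Fin.cases ?_ (fun j' => ?_) j
      · rw [Fin.cons_zero, Fin.cons_zero, hy₂n, if_pos rfl]
      · rw [Fin.cons_zero, Fin.cons_succ, hy₂i, if_neg (Fin.succ_ne_zero j').symm]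
      · rw [Fin.cons_succ, Fin.cons_zero, hBn, if_neg (Fin.succ_ne_zero i')]
      · rw [Fin.cons_succ, Fin.cons_succ, B.coeff_vec]
        simp only [Fin.succ_inj]
    · intro x hx
      set a := (x : LaurentSeries L).coeff n with ha
      have hcoeff : ∀ m, ((x - a • e₂ : F) : LaurentSeries L).coeff m =
          (x : LaurentSeries L).coeff m - a * ((y₂.coeff m : A) : L) := fun m => by
        rw [AddSubgroupClass.coe_sub, HahnSeries.coeff_sub, coe_smul_intermediateField,
          coeff_single_zero_mul, he₂y, coeffMap_coeff]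
        rfl
      have hmem : x - a • e₂ ∈ V' :=
        (hV'n _).mpr ⟨V.sub_mem hx (V.smul_mem _ he₂V), by
          rw [hcoeff, hy₂n, OneMemClass.coe_one, mul_one, sub_self]⟩
      have hdec := B.decomp _ hmem
      have hb : ∀ i, ((x - a • e₂ : F) : LaurentSeries L).coeff (B.idx i) =
          (x : LaurentSeries L).coeff (B.idx i) := fun i => by
        rw [hcoeff, hy₂i, ZeroMemClass.coe_zero, mul_zero, sub_zero]
      simp only [hb] at hdec
      rw [Fin.sum_univ_succ]
      simp only [Fin.cons_zero, Fin.cons_succ]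
      rw [← hdec]
      exact (add_sub_cancel _ _).symm

namespace PivotBasis

variable {V : Submodule L F} {r : ℕ} (B : PivotBasis A V r)

/-- An integral member of `V` is an integral combination of the basis. -/
theorem decomp_int {y : LaurentSeries A} {x : F} (hx : x ∈ V)
    (hxy : (x : LaurentSeries L) = ιS A y) :
    y = ∑ i, HahnSeries.single 0 (y.coeff (B.idx i)) * B.vec i := by
  apply ιS_injective
  rw [map_sum, ← hxy]
  conv_lhs => rw [B.decomp _ hx]
  rw [AddSubmonoidClass.coe_finsetSum]
  refine Finset.sum_congr rfl fun i _ => ?_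
  rw [coe_smul_intermediateField, B.coe_el, map_mul, ιS_single, hxy, coeffMap_coeff]
  rfl

theorem redS_decomp {y : LaurentSeries A} {x : F} (hx : x ∈ V)
    (hxy : (x : LaurentSeries L) = ιS A y) :
    redS A y = ∑ i, HahnSeries.single 0 (residue A (y.coeff (B.idx i))) * redS A (B.vec i) := by
  conv_lhs => rw [B.decomp_int hx hxy]
  rw [map_sum]
  refine Finset.sum_congr rfl fun i _ => ?_
  rw [map_mul, redS_single]

theorem coeff_sum (a : Fin r → ResidueField A) (j : Fin r) :
    (∑ i, HahnSeries.single 0 (a i) * redS A (B.vec i)).coeff (B.idx j) = a j := by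
  simp [HahnSeries.coeff_sum, B.coeff_vec, apply_ite]

theorem eq_zero_of_sum_eq_zero (a : Fin r → ResidueField A)
    (h : ∑ i, HahnSeries.single 0 (a i) * redS A (B.vec i) = 0) : a = 0 := by
  funext j
  rw [← B.coeff_sum a j, h]
  rfl

end PivotBasis

end Fermat.Agent.Reduction
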