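import Fermat.Agent.Reduction.Gauss
import Fermat.Agent.Reduction.Pivot

/-!
# Reduction of functions and of finite-dimensional spaces of functions

`GoodModel.IsInt` is the Gauss valuation ring, `GoodModel.red` the reduction map into the
reduced field, and `GoodModel.redSub V` the reduction of the lattice in a space `V`, which has
the same dimension as `V`.
-/

set_option autoImplicit false

noncomputable section

namespace Fermat.Agent.Reduction

open IsLocalRing ModularCurve HahnSeries IntermediateField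

variable {L : Type*} [Field L] (A : ValuationSubring L)
  (F : IntermediateField L (LaurentSeries L))
  (Fk : IntermediateField (ResidueField A) (LaurentSeries (ResidueField A)))

/-- A series model in which the degree over `j` does not drop under reduction. -/
structure GoodModel extends SeriesModel A F Fk where
  nil : NilModulo A
  fin_bar : FiniteDimensional L⟮toSeriesModel.jF⟯ F
  fin_red : FiniteDimensional (ResidueField A)⟮toSeriesModel.jK⟯ Fk
  degree_le : Module.finrank L⟮toSeriesModel.jF⟯ F ≤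
    Module.finrank (ResidueField A)⟮toSeriesModel.jK⟯ Fk

namespace GoodModel

variable {A F Fk} (M : GoodModel A F Fk)

/-- `x` is a ratio of integral series whose denominator has nonzero reduction. -/
def Rep (x : LaurentSeries L) (v : LaurentSeries (ResidueField A)) : Prop :=
  ∃ P Q : LaurentSeries A, ιS A Q * x = ιS A P ∧ redS A Q ≠ 0 ∧ v = redS A P / redS A Q

include M in
theorem exists_rep' {x : F} (hx : x ≠ 0) :
    ∃ (c : L) (P Q : LaurentSeries A), c ≠ 0 ∧
      ιS A Q * (x : LaurentSeries L) = HahnSeries.single 0 c * ιS A P ∧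
      ιS A P ∈ F ∧ ιS A Q ∈ F ∧ redS A P ∈ Fk ∧ redS A Q ∈ Fk ∧
      redS A P ≠ 0 ∧ redS A Q ≠ 0 :=
  haveI := M.fin_bar
  haveI := M.fin_red
  M.toSeriesModel.exists_rep M.degree_le hx

variable {M}

omit M in
theorem Rep.unique {x : LaurentSeries L} {v w : LaurentSeries (ResidueField A)}
    (h : Rep x v) (h' : Rep x w) : v = w := by
  obtain ⟨P, Q, hx, hQ, rfl⟩ := h
  obtain ⟨P', Q', hx', hQ', rfl⟩ := h'
  have e : Q' * P = Q * P' := ιS_injective (by rw [map_mul, map_mul, ← hx, ← hx']; ring)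
  have e' := congrArg (redS A) e
  rw [map_mul, map_mul] at e'
  rw [div_eq_div_iff hQ hQ']
  linear_combination e'

variable (M)

/-- Membership in the Gauss valuation ring. -/
def IsInt (_M : GoodModel A F Fk) (x : F) : Prop := ∃ v : LaurentSeries (ResidueField A), Rep (x : LaurentSeries L) v

include M in
theorem rep_mem {x : F} {v : LaurentSeries (ResidueField A)}
    (h : Rep (x : LaurentSeries L) v) : v ∈ Fk := by
  rcases eq_or_ne x 0 with rfl | hx
  · obtain ⟨P, Q, hP, -, rfl⟩ := h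
    rw [ZeroMemClass.coe_zero, mul_zero, eq_comm, ← map_zero (ιS A)] at hP
    rw [ιS_injective hP, map_zero, zero_div]
    exact zero_mem _
  obtain ⟨c, P, Q, hc, hPQ, -, -, hPk, hQk, hP0, hQ0⟩ := M.exists_rep' hx
  obtain ⟨P', Q', hx', hQ', hv⟩ := h
  by_cases hcA : c ∈ A
  · have hR : Rep (x : LaurentSeries L) (redS A (HahnSeries.single 0 ⟨c, hcA⟩ * P) / redS A Q) :=
      ⟨_, Q, by rw [hPQ, map_mul, ιS_single], hQ0, rfl⟩
    rw [Rep.unique ⟨P', Q', hx', hQ', hv⟩ hR, map_mul, redS_single,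
      ← algebraMap_laurentSeries_eq_single]
    exact div_mem (mul_mem (Fk.algebraMap_mem _) hPk) hQk
  · exfalso
    have hc' : c⁻¹ ∈ A := (A.mem_or_inv_mem c).resolve_left hcA
    have e : P * Q' = HahnSeries.single 0 ⟨c⁻¹, hc'⟩ * (P' * Q) := ιS_injective (by
      have h1 : (HahnSeries.single 0 c⁻¹ * HahnSeries.single 0 c : LaurentSeries L) = 1 := by
        rw [HahnSeries.single_mul_single, zero_add, inv_mul_cancel₀ hc]
        rfl
      rw [map_mul, map_mul, map_mul, ιS_single]
      calc ιS A P * ιS A Q'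
          = HahnSeries.single 0 c⁻¹ * (HahnSeries.single 0 c * ιS A P) * ιS A Q' := by
            rw [← mul_assoc (HahnSeries.single 0 c⁻¹), h1, one_mul]
        _ = HahnSeries.single 0 c⁻¹ * ((ιS A Q' * (x : LaurentSeries L)) * ιS A Q) := by rw [← hPQ]; ring
        _ = _ := by rw [hx'])
    have e' := congrArg (redS A) e
    rw [map_mul, map_mul, redS_single] at e'
    have hm : residue A ⟨c⁻¹, hc'⟩ = 0 := by
      rw [residue_eq_zero_iff]
      intro hu
      obtain ⟨u, hu⟩ := hu
      have h2 : c⁻¹ * ((↑u⁻¹ : A) : L) = 1 := by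
        have h1 : ((u : A) : L) * ((↑u⁻¹ : A) : L) = 1 := by
          rw [← MulMemClass.coe_mul, Units.mul_inv]; rfl
        rwa [hu] at h1
      exact hcA (((inv_mul_eq_one₀ hc).mp h2).symm ▸ (↑u⁻¹ : A).2)
    rw [hm, map_zero, zero_mul] at e'
    exact (mul_ne_zero hP0 hQ') e'

open Classical in
/-- The reduction of a function (zero outside the Gauss valuation ring). -/
def red (x : F) : Fk := if h : M.IsInt x then ⟨h.choose, M.rep_mem h.choose_spec⟩ else 0

theorem coe_red {x : F} {P Q : LaurentSeries A}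
    (h : ιS A Q * (x : LaurentSeries L) = ιS A P) (hQ : redS A Q ≠ 0) :
    M.IsInt x ∧ (M.red x : LaurentSeries (ResidueField A)) = redS A P / redS A Q := by
  have hR : Rep (x : LaurentSeries L) (redS A P / redS A Q) := ⟨P, Q, h, hQ, rfl⟩
  refine ⟨⟨_, hR⟩, ?_⟩
  rw [red, dif_pos ⟨_, hR⟩]
  exact Rep.unique (Exists.choose_spec (⟨_, hR⟩ : M.IsInt x)) hR

theorem exists_witness {x : F} (h : M.IsInt x) :
    ∃ P Q : LaurentSeries A, ιS A Q * (x : LaurentSeries L) = ιS A P ∧ redS A Q ≠ 0 ∧
      (M.red x : LaurentSeries (ResidueField A)) = redS A P / redS A Q := by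
  obtain ⟨v, P, Q, hx, hQ, -⟩ := h
  exact ⟨P, Q, hx, hQ, (M.coe_red hx hQ).2⟩

theorem isInt_series {x : F} {y : LaurentSeries A} (h : (x : LaurentSeries L) = ιS A y) :
    M.IsInt x ∧ (M.red x : LaurentSeries (ResidueField A)) = redS A y := by
  have := M.coe_red (x := x) (P := y) (Q := 1) (by rw [map_one, one_mul, h])
    (by rw [map_one]; exact one_ne_zero)
  simpa using this

include M in
theorem redS_mem {y : LaurentSeries A} (h : ιS A y ∈ F) : redS A y ∈ Fk :=
  (M.isInt_series (x := ⟨_, h⟩) rfl).2 ▸ SetLike.coe_mem _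

@[simp] theorem red_zero : M.red 0 = 0 :=
  Subtype.ext (by simpa using (M.isInt_series (x := (0 : F)) (y := 0) (by simp)).2)

theorem isInt_zero : M.IsInt 0 := (M.isInt_series (y := 0) (by simp)).1

theorem isInt_one : M.IsInt 1 := (M.isInt_series (y := 1) (by simp)).1

@[simp] theorem red_one : M.red 1 = 1 :=
  Subtype.ext (by simpa using (M.isInt_series (x := (1 : F)) (y := 1) (by simp)).2)

theorem isInt_mul {x y : F} (hx : M.IsInt x) (hy : M.IsInt y) :
    M.IsInt (x * y) ∧ M.red (x * y) = M.red x * M.red y := by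
  obtain ⟨P, Q, hP, hQ, hr⟩ := M.exists_witness hx
  obtain ⟨P', Q', hP', hQ', hr'⟩ := M.exists_witness hy
  have h := M.coe_red (x := x * y) (P := P * P') (Q := Q * Q')
    (by rw [map_mul, map_mul, MulMemClass.coe_mul, ← hP, ← hP']; ring)
    (by rw [map_mul]; exact mul_ne_zero hQ hQ')
  refine ⟨h.1, Subtype.ext ?_⟩
  rw [h.2, MulMemClass.coe_mul, hr, hr', div_mul_div_comm, map_mul, map_mul]

theorem isInt_add {x y : F} (hx : M.IsInt x) (hy : M.IsInt y) :
    M.IsInt (x + y) ∧ M.red (x + y) = M.red x + M.red y := by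
  obtain ⟨P, Q, hP, hQ, hr⟩ := M.exists_witness hx
  obtain ⟨P', Q', hP', hQ', hr'⟩ := M.exists_witness hy
  have h := M.coe_red (x := x + y) (P := P * Q' + Q * P') (Q := Q * Q')
    (by rw [map_mul, map_add, map_mul, map_mul, AddMemClass.coe_add, ← hP, ← hP']; ring)
    (by rw [map_mul]; exact mul_ne_zero hQ hQ')
  refine ⟨h.1, Subtype.ext ?_⟩
  rw [h.2, AddMemClass.coe_add, hr, hr', div_add_div _ _ hQ hQ', map_add, map_mul, map_mul,
    map_mul]

theorem isInt_const {c : L} (hc : c ∈ A) :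
    M.IsInt (algebraMap L F c) ∧
      M.red (algebraMap L F c) = algebraMap (ResidueField A) Fk (residue A ⟨c, hc⟩) := by
  have hcoe : ((algebraMap L F c : F) : LaurentSeries L) =
      ιS A (HahnSeries.single 0 (⟨c, hc⟩ : A)) := by
    rw [IntermediateField.coe_algebraMap_apply, algebraMap_laurentSeries_eq_single, ιS_single]
  refine ⟨(M.isInt_series hcoe).1, Subtype.ext ?_⟩
  rw [(M.isInt_series hcoe).2, redS_single, IntermediateField.coe_algebraMap_apply,
    algebraMap_laurentSeries_eq_single]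

theorem isInt_smul {c : L} (hc : c ∈ A) {x : F} (hx : M.IsInt x) :
    M.IsInt (c • x) ∧ M.red (c • x) = residue A ⟨c, hc⟩ • M.red x := by
  rw [Algebra.smul_def, Algebra.smul_def]
  obtain ⟨h1, h2⟩ := M.isInt_mul (M.isInt_const hc).1 hx
  exact ⟨h1, by rw [h2, (M.isInt_const hc).2]⟩

theorem isInt_neg {x : F} (hx : M.IsInt x) : M.IsInt (-x) ∧ M.red (-x) = -M.red x := by
  obtain ⟨P, Q, hP, hQ, hr⟩ := M.exists_witness hx
  have h := M.coe_red (x := -x) (P := -P) (Q := Q)
    (by rw [map_neg, NegMemClass.coe_neg, ← hP, mul_neg]) hQ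
  exact ⟨h.1, Subtype.ext (by rw [h.2, NegMemClass.coe_neg, hr, map_neg, neg_div])⟩

theorem isInt_sub {x y : F} (hx : M.IsInt x) (hy : M.IsInt y) :
    M.IsInt (x - y) ∧ M.red (x - y) = M.red x - M.red y := by
  rw [sub_eq_add_neg, sub_eq_add_neg]
  obtain ⟨h1, h2⟩ := M.isInt_add hx (M.isInt_neg hy).1
  exact ⟨h1, by rw [h2, (M.isInt_neg hy).2]⟩

theorem isInt_pow {x : F} (hx : M.IsInt x) (n : ℕ) :
    M.IsInt (x ^ n) ∧ M.red (x ^ n) = M.red x ^ n := by
  induction n with
  | zero => simp [isInt_one]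
  | succ n ih =>
    rw [pow_succ, pow_succ]
    obtain ⟨h1, h2⟩ := M.isInt_mul ih.1 hx
    exact ⟨h1, by rw [h2, ih.2]⟩

theorem isInt_inv {x : F} (hx : M.IsInt x) (h0 : M.red x ≠ 0) :
    M.IsInt x⁻¹ ∧ M.red x⁻¹ = (M.red x)⁻¹ := by
  obtain ⟨P, Q, hP, hQ, hr⟩ := M.exists_witness hx
  have hP0 : redS A P ≠ 0 := fun h => h0 (Subtype.ext (by rw [hr, h, zero_div]; rfl))
  have hx0 : (x : LaurentSeries L) ≠ 0 := fun h => h0 (by
    rw [show x = 0 from Subtype.ext h, red_zero])
  have h := M.coe_red (x := x⁻¹) (P := Q) (Q := P)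
    (by rw [← hP, IntermediateField.coe_inv, mul_assoc, mul_inv_cancel₀ hx0, mul_one]) hP0
  exact ⟨h.1, Subtype.ext (by rw [h.2, IntermediateField.coe_inv, hr, inv_div])⟩

include M in
/-- Every nonzero function has a multiple in the Gauss ring with nonzero reduction. -/
theorem exists_scale {x : F} (hx : x ≠ 0) :
    ∃ c : L, c ≠ 0 ∧ M.IsInt (c • x) ∧ M.red (c • x) ≠ 0 := by
  obtain ⟨c, P, Q, hc, hPQ, -, -, -, -, hP0, hQ0⟩ := M.exists_rep' hx
  have h := M.coe_red (x := c⁻¹ • x) (P := P) (Q := Q) (by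
    rw [coe_smul_intermediateField, mul_left_comm, hPQ, ← mul_assoc,
      HahnSeries.single_mul_single, zero_add, inv_mul_cancel₀ hc]
    simp) hQ0
  exact ⟨c⁻¹, inv_ne_zero hc, h.1, fun e => div_ne_zero hP0 hQ0 (by rw [← h.2, e]; rfl)⟩

/-- A function of the Gauss ring with bounded coefficients has integral coefficients. -/
theorem exists_series {x : F} (hx : M.IsInt x) (hb : Bdd A (x : LaurentSeries L)) :
    ∃ y : LaurentSeries A, (x : LaurentSeries L) = ιS A y ∧
      (M.red x : LaurentSeries (ResidueField A)) = redS A y := by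
  obtain ⟨P, Q, hP, hQ, -⟩ := M.exists_witness hx
  obtain ⟨w, hw, -⟩ := exists_div M.nil hQ hb hP
  exact ⟨w, hw.symm, (M.isInt_series hw.symm).2⟩

end GoodModel

end Fermat.Agent.Reduction
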