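import Fermat.Agent.Reduction.Spec
import Fermat.Agent.Reduction.QPlace

/-!
# The cusp at infinity of a series model

The local parameter `u = 1/j`, the places at `q = 0`, and the divisors of `u` and of its
reduction.
-/

set_option autoImplicit false
set_option linter.unusedSectionVars false

noncomputable section

namespace Fermat.Agent.Reduction

open IsLocalRing ModularCurve HahnSeries AlgebraicCurve IntermediateField
  Fermat.Agent.FunctionFieldRR

variable {L : Type*} [Field L] {A : ValuationSubring L}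
  {F : IntermediateField L (LaurentSeries L)}
  {Fk : IntermediateField (ResidueField A) (LaurentSeries (ResidueField A))}

theorem order_eq_of_coeff {R : Type*} [Zero R] {x : LaurentSeries R} {n : ℤ}
    (h1 : x.coeff n ≠ 0) (h2 : ∀ m < n, x.coeff m = 0) : x.order = n :=
  le_antisymm (HahnSeries.order_le_of_coeff_ne_zero h1) (not_lt.mp fun hlt =>
    h1 (by rw [HahnSeries.coeff_order_eq_zero.mp (h2 _ hlt)]; rfl))

namespace SeriesModel

variable (M : SeriesModel A F Fk)

/-- The power series `q • j`. -/
def jUnit : PowerSeries A := PowerSeries.mk fun k => M.j.coeff ((k : ℤ) - 1)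

theorem constantCoeff_jUnit : PowerSeries.constantCoeff M.jUnit = 1 := by
  rw [← PowerSeries.coeff_zero_eq_constantCoeff_apply, jUnit, PowerSeries.coeff_mk]
  simpa using M.coeff_j

theorem single_mul_jUnit :
    HahnSeries.single (-1 : ℤ) (1 : A) * HahnSeries.ofPowerSeries ℤ A M.jUnit = M.j := by
  ext n
  rw [HahnSeries.coeff_single_mul, one_mul, sub_neg_eq_add]
  rcases lt_or_ge (n + 1) 0 with h | h
  · rw [M.coeff_j_of_lt n (by omega), HahnSeries.ofPowerSeries_apply]
    refine congrArg Subtype.val (HahnSeries.embDomain_of_notMem_range ?_)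
    rintro ⟨m, hm⟩
    simp at hm
    omega
  · obtain ⟨k, hk⟩ := Int.eq_ofNat_of_zero_le h
    rw [hk, HahnSeries.ofPowerSeries_apply_coeff, jUnit, PowerSeries.coeff_mk,
      show (k : ℤ) - 1 = n by omega]

/-- The series of `u = 1/j`. -/
def uA : LaurentSeries A :=
  HahnSeries.single (1 : ℤ) (1 : A) *
    HahnSeries.ofPowerSeries ℤ A (M.jUnit.invOfUnit 1)

theorem uA_mul_j : M.uA * M.j = 1 := by
  conv_lhs => rw [← M.single_mul_jUnit]
  rw [uA, mul_mul_mul_comm, HahnSeries.single_mul_single, ← map_mul, mul_comm (M.jUnit.invOfUnit 1),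
    PowerSeries.mul_invOfUnit _ _ (by rw [constantCoeff_jUnit]; rfl), map_one, mul_one]
  simp

theorem coeff_uA : M.uA.coeff 1 = 1 := by
  rw [uA, HahnSeries.coeff_single_mul, one_mul, sub_self, show (0 : ℤ) = ((0 : ℕ) : ℤ) from rfl,
    HahnSeries.ofPowerSeries_apply_coeff, PowerSeries.coeff_zero_eq_constantCoeff_apply,
    PowerSeries.constantCoeff_invOfUnit]
  simp

theorem coeff_uA_of_lt {n : ℤ} (hn : n < 1) : M.uA.coeff n = 0 := by
  rw [uA, HahnSeries.coeff_single_mul, one_mul, HahnSeries.ofPowerSeries_apply]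
  refine HahnSeries.embDomain_of_notMem_range ?_
  rintro ⟨m, hm⟩
  simp at hm
  omega

/-- `u = 1/j` in `F`. -/
def uF : F := M.jF⁻¹

/-- `u = 1/j` in `Fk`. -/
def uK : Fk := M.jK⁻¹

theorem coe_uF : (M.uF : LaurentSeries L) = ιS A M.uA := by
  rw [uF, IntermediateField.coe_inv, coe_jF]
  exact inv_eq_of_mul_eq_one_left (by rw [← map_mul, uA_mul_j, map_one])

theorem coe_uK : (M.uK : LaurentSeries (ResidueField A)) = redS A M.uA := by
  rw [uK, IntermediateField.coe_inv, coe_jK]
  exact inv_eq_of_mul_eq_one_left (by rw [← map_mul, uA_mul_j, map_one])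

theorem order_uF : (M.uF : LaurentSeries L).order = 1 := by
  refine order_eq_of_coeff ?_ fun m hm => ?_
  · rw [coe_uF, coeffMap_coeff, coeff_uA, map_one]; exact one_ne_zero
  · rw [coe_uF, coeffMap_coeff, M.coeff_uA_of_lt hm, map_zero]

theorem order_uK : (M.uK : LaurentSeries (ResidueField A)).order = 1 := by
  refine order_eq_of_coeff ?_ fun m hm => ?_
  · rw [coe_uK, coeffMap_coeff, coeff_uA, map_one]; exact one_ne_zero
  · rw [coe_uK, coeffMap_coeff, M.coeff_uA_of_lt hm, map_zero]

theorem adjoin_uF : L⟮M.uF⟯ = L⟮M.jF⟯ := by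
  refine le_antisymm (adjoin_simple_le_iff.mpr (inv_mem (mem_adjoin_simple_self L _)))
    (adjoin_simple_le_iff.mpr ?_)
  simpa [uF] using inv_mem (mem_adjoin_simple_self L M.jF⁻¹)

theorem adjoin_uK : (ResidueField A)⟮M.uK⟯ = (ResidueField A)⟮M.jK⟯ := by
  refine le_antisymm (adjoin_simple_le_iff.mpr (inv_mem (mem_adjoin_simple_self _ _)))
    (adjoin_simple_le_iff.mpr ?_)
  simpa [uK] using inv_mem (mem_adjoin_simple_self (ResidueField A) M.jK⁻¹)

end SeriesModel

namespace GoodModel

variable (M : GoodModel A F Fk)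

theorem red_uF : M.IsInt M.uF ∧ M.red M.uF = M.uK := by
  have h := M.isInt_series M.coe_uF
  exact ⟨h.1, Subtype.ext (by rw [h.2, M.coe_uK])⟩

theorem uF_ne_zero : M.uF ≠ 0 := fun e => by simpa [e] using M.order_uF

theorem uK_ne_zero : M.uK ≠ 0 := fun e => by simpa [e] using M.order_uK

variable [IsAlgClosed L] [IsFunctionField L F] [IsAlgClosed (ResidueField A)]
  [IsFunctionField (ResidueField A) Fk]

/-- The cusp at infinity in characteristic zero. -/
def cuspF : Place L F := qPlace F M.uF M.order_uF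

/-- The cusp at infinity on the special fibre. -/
def cuspK : Place (ResidueField A) Fk := qPlace Fk M.uK M.order_uK

theorem ord_cuspF (x : F) : M.cuspF.ord x = (x : LaurentSeries L).order :=
  ord_qPlace F M.order_uF x

theorem ord_cuspK (x : Fk) : M.cuspK.ord x = (x : LaurentSeries (ResidueField A)).order :=
  ord_qPlace Fk M.order_uK x

variable [HasPrincipalDivisors L F] [HasPrincipalDivisors (ResidueField A) Fk]

/-- The poles of `u`, i.e. the zeros of `j`. -/
abbrev Zdiv : Divisor L F := polesOf M.uF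

/-- The poles of `ū`. -/
abbrev ZdivK : Divisor (ResidueField A) Fk := polesOf M.uK

theorem dvs_u_add_Z_nonneg : 0 ≤ dvs (K := L) M.uF + M.Zdiv :=
  Finsupp.le_def.mpr fun v => by
    simp only [Finsupp.add_apply, dvs_apply, polesOf_apply, Finsupp.zero_apply]
    have := le_max_left (-v.ord M.uF) 0
    linarith

/-- The numerical hypotheses: Riemann inequality in characteristic zero, and its converse in
large degree on the special fibre. -/
structure RRData (g c : ℤ) : Prop where
  low : ∀ D : Divisor L F,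
    Divisor.degree D + 1 - g ≤ (Module.finrank L (riemannRochSpace D) : ℤ)
  up : ∀ D : Divisor (ResidueField A) Fk, c ≤ Divisor.degree D →
    (Module.finrank (ResidueField A) (riemannRochSpace D) : ℤ) ≤ Divisor.degree D + 1 - g

variable {M} (R : M.ReductionMap) {g c : ℤ} (H : RRData (A := A) (F := F) (Fk := Fk) g c)

include H in
theorem RRData.finrank_eq {D : Divisor L F} (hD : c ≤ Divisor.degree D)
    (R : M.ReductionMap) :
    (Module.finrank L (riemannRochSpace D) : ℤ) = Divisor.degree D + 1 - g := by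
  have h1 := H.low D
  have h2 := R.finrank_le D
  have h3 := H.up (Finsupp.mapDomain R.toFun D) (by rwa [ReductionMap.degree_map])
  rw [ReductionMap.degree_map] at h3
  omega

include R H in
theorem degree_Z_le : Divisor.degree M.Zdiv ≤ Divisor.degree M.ZdivK := by
  have hF := degree_polesOf_le_finrank H.low
    ⟨c, fun D hD => (H.finrank_eq hD R).le⟩
    (transcendental_of_ord_ne_zero M.cuspF (f := M.uF) (by rw [ord_cuspF, M.order_uF]; omega))
  have hK := finrank_le_degree_polesOf
    (transcendental_of_ord_ne_zero M.cuspK (f := M.uK) (by rw [ord_cuspK, M.order_uK]; omega))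
  have h := M.degree_le
  show Divisor.degree (polesOf M.uF) ≤ Divisor.degree (polesOf M.uK)
  have e1 : Module.finrank L⟮M.uF⟯ F = Module.finrank L⟮M.jF⟯ F := by rw [M.adjoin_uF]
  have e2 : Module.finrank (ResidueField A)⟮M.uK⟯ Fk =
      Module.finrank (ResidueField A)⟮M.jK⟯ Fk := by rw [M.adjoin_uK]
  omega

include H in
/-- The poles of `u` reduce onto the poles of `ū`. -/
theorem map_Z : Finsupp.mapDomain R.toFun M.Zdiv = M.ZdivK := by
  have hspec := R.spec M.uF M.red_uF.1 (by rw [M.red_uF.2]; exact M.uK_ne_zero)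
  rw [M.red_uF.2] at hspec
  have hle : M.ZdivK ≤ Finsupp.mapDomain R.toFun M.Zdiv := by
    have h0 := mapDomain_mono R.toFun M.dvs_u_add_Z_nonneg
    rw [Finsupp.mapDomain_add, hspec, Finsupp.mapDomain_zero] at h0
    have h1 : 0 ≤ Finsupp.mapDomain R.toFun M.Zdiv := by
      have := mapDomain_mono R.toFun (polesOf_nonneg (K := L) M.uF)
      rwa [Finsupp.mapDomain_zero] at this
    refine Finsupp.le_def.mpr fun v => ?_
    have a := Finsupp.le_def.mp h0 v
    have b := Finsupp.le_def.mp h1 v
    simp only [Finsupp.add_apply, dvs_apply, Finsupp.zero_apply] at a b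
    rw [polesOf_apply]
    exact max_le (by linarith) b
  refine (sub_eq_zero.mp (eq_zero_of_degree_eq_zero (sub_nonneg.mpr hle) ?_))
  rw [map_sub, ReductionMap.degree_map]
  have h1 := degree_mono hle
  have h2 := degree_Z_le R H
  rw [ReductionMap.degree_map] at h1
  omega

theorem Z_apply_cusp : M.Zdiv M.cuspF = 0 := by
  rw [polesOf_apply, ord_cuspF, M.order_uF]; rfl

theorem ZK_apply_cusp : M.ZdivK M.cuspK = 0 := by
  rw [polesOf_apply, ord_cuspK, M.order_uK]; rfl

include H in
/-- `r(P)` is off the poles of `ū` exactly when `P` is off the poles of `u`, over `ū = 0`. -/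
theorem Z_apply_eq_zero {P : Place L F} (h : M.ZdivK (R.toFun P) = 0) : M.Zdiv P = 0 :=
  apply_eq_zero_of_mapDomain_apply R.toFun (polesOf_nonneg _) (by rw [map_Z R H, h])

theorem one_le_degree_Z : 1 ≤ Divisor.degree M.Zdiv := by
  obtain ⟨P, hP⟩ := exists_ord_neg
    (transcendental_of_ord_ne_zero M.cuspF (f := M.uF) (by rw [ord_cuspF, M.order_uF]; omega))
  have h := apply_le_degree (polesOf_nonneg (K := L) M.uF) P
  rw [polesOf_apply, max_eq_left (by omega)] at h
  show 1 ≤ Divisor.degree (polesOf M.uF)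
  omega

end GoodModel

end Fermat.Agent.Reduction
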