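import Fermat.Agent.Reduction.Instances
import Fermat.Agent.Igusa.Degree
import Fermat.Agent.FunctionFieldRR.Basic

/-!
# The generators `j(qᵈ)` are regular where `j` is finite
-/

set_option autoImplicit false

noncomputable section

namespace Fermat.Agent.Reduction

open ModularCurve AlgebraicCurve Polynomial

variable {K : Type*} [Field K] {E : IntermediateField K (LaurentSeries K)}

/-- `j(q^{dp})` is a root of `Φ_p(j(qᵈ), Y)`. -/
theorem eval_modAt_jd (p d : ℕ) [Fact p.Prime] [NeZero d] (hpK : (p : K) ≠ 0) :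
    (Igusa.modAt p (Igusa.jd K d)).eval (Igusa.jd K (d * p)) = 0 := by
  obtain ⟨ζ, -, hζ⟩ :=
    Igusa.exists_zeta p (AlgebraicClosure K) (Igusa.cast_ne_zero_algClosure K hpK)
  have hva : Igusa.emb K p (Igusa.jd K d) =
      Igusa.Jat ((1 : (AlgebraicClosure K)ˣ) ^ p) (d * p) := by
    rw [Igusa.emb_jd]
    exact Igusa.Jat_congr (one_pow p).symm (mul_comm p d)
  apply Igusa.emb_injective K p
  rw [map_zero, ← Polynomial.eval₂_at_apply, ← Polynomial.eval_map, Igusa.modAt_map, hva,
    Igusa.modAt_node_root_iff p ζ 1 d hζ]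
  refine ⟨none, ?_⟩
  rw [Igusa.emb_jd]
  exact Igusa.Jat_congr (one_pow _).symm (by ring)

/-- A place where `j` is finite is one where every `j(qᵈ)` is finite. -/
theorem jd_mem_valuationSubring (v : Place K E) {x : E} (hx : (x : LaurentSeries K) = jqModC K)
    (hxv : x ∈ v.toValuationSubring) :
    ∀ d : ℕ, ∀ _ : NeZero d, (d : K) ≠ 0 → ∀ y : E, (y : LaurentSeries K) = Igusa.jd K d →
      (∀ d' : ℕ, ∀ _ : NeZero d', d' ∣ d → Igusa.jd K d' ∈ E) → y ∈ v.toValuationSubring := by
  intro d
  induction d using Nat.strong_induction_on with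
  | _ d ih =>
  intro _ hd y hy hmem
  by_cases h1 : d = 1
  · subst h1
    rwa [show y = x from Subtype.ext (by rw [hy, hx, Igusa.jd_one])]
  obtain ⟨p, hp, hpd⟩ := Nat.exists_prime_and_dvd h1
  obtain ⟨d', rfl⟩ := dvd_iff_exists_eq_mul_left.mp hpd
  have : Fact p.Prime := ⟨hp⟩
  have : NeZero d' := ⟨left_ne_zero_of_mul (NeZero.ne (d' * p))⟩
  have hd' : (d' : K) ≠ 0 := Igusa.cast_ne_zero_of_dvd K (dvd_mul_right d' p) hd
  have hpK : (p : K) ≠ 0 := Igusa.cast_ne_zero_of_dvd K (dvd_mul_left p d') hd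
  have hlt : d' < d' * p :=
    (lt_mul_iff_one_lt_right (Nat.pos_of_ne_zero (NeZero.ne d'))).mpr hp.one_lt
  set z : E := ⟨_, hmem d' inferInstance (dvd_mul_right d' p)⟩ with hz
  have hzv : z ∈ v.toValuationSubring := ih d' hlt inferInstance hd' z rfl
    fun e he hed => hmem e he (hed.trans (dvd_mul_right d' p))
  set z' : v.toValuationSubring := ⟨z, hzv⟩ with hz'
  have hint : IsIntegral v.toValuationSubring y := by
    refine ⟨Igusa.modAt p z', Igusa.modAt_monic p z', ?_⟩
    rw [← Polynomial.eval_map, Igusa.modAt_map,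
      show algebraMap v.toValuationSubring E z' = z from rfl]
    apply E.val.injective
    rw [map_zero]
    refine ((Polynomial.eval₂_at_apply (p := Igusa.modAt p z) E.val.toRingHom y).symm).trans ?_
    rw [← Polynomial.eval_map, Igusa.modAt_map,
      show E.val.toRingHom z = Igusa.jd K d' from rfl, show E.val.toRingHom y = _ from hy]
    exact eval_modAt_jd p d' hpK
  obtain ⟨w, hw⟩ := IsIntegrallyClosed.isIntegral_iff.mp hint
  exact hw ▸ w.2

end Fermat.Agent.Reduction
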