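import Fermat.Agent.Reduction.CurveBasics
import Fermat.Agent.FunctionFieldRR.RationalBase
import Fermat.Agent.FunctionFieldRR.PlaceExists

/-!
# An order with a uniformiser at every point is the full ring of regular functions
-/

set_option autoImplicit false
set_option linter.unusedSectionVars false

noncomputable section

namespace Fermat.Agent.Reduction

open AlgebraicCurve IntermediateField Fermat.Agent.FunctionFieldRR

variable {K F : Type*} [Field K] [Field F] [Algebra K F] [IsAlgClosed K] [IsFunctionField K F]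
  [HasPrincipalDivisors K F] {x : F}

/-- Functions regular wherever `x` is finite. -/
def regularRing (x : F) : Subalgebra K F where
  carrier := {f | ∀ v : Place K F, 0 ≤ v.ord x → f ∈ v.toValuationSubring}
  mul_mem' ha hb v hv := mul_mem (ha v hv) (hb v hv)
  add_mem' ha hb v hv := add_mem (ha v hv) (hb v hv)
  algebraMap_mem' c v _ := v.algebraMap_mem' c

theorem self_mem_regularRing : x ∈ regularRing (K := K) x := fun v hv => (ord_nonneg_iff v x).1 hv

theorem ord_sub_algebraMap_of_pole (v : Place K F) (hv : v.ord x < 0) (c : K) :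
    v.ord (x - algebraMap K F c) < 0 := by
  by_contra! h
  have h' : x - algebraMap K F c ∈ v.toValuationSubring := (ord_nonneg_iff v _).1 h
  have h2 : x ∈ v.toValuationSubring := by simpa using add_mem h' (v.algebraMap_mem' c)
  have := (ord_nonneg_iff v x).2 h2
  omega

/-- The space of regular functions with poles bounded by `m·(x)_∞`. -/
theorem mem_rr_iff_regular {f : F} :
    f ∈ regularRing (K := K) x ↔ ∃ m : ℕ, f ∈ riemannRochSpace (m • polesOf (K := K) x) := by
  constructor
  · intro hf
    refine ⟨(Divisor.degree (polesOf (K := K) f)).toNat,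
      mem_riemannRochSpace_iff.mpr fun v => ?_⟩
    refine or_iff_not_imp_left.mpr fun _ => ?_
    rw [Finsupp.smul_apply, polesOf_apply, nsmul_eq_mul]
    rcases le_or_gt 0 (v.ord x) with h | h
    · rw [max_eq_right (by omega), mul_zero, neg_zero]
      exact (ord_nonneg_iff v f).2 (hf v h)
    · rw [max_eq_left (by omega)]
      have := apply_le_degree (polesOf_nonneg (K := K) f) v
      rw [polesOf_apply] at this
      have := Int.self_le_toNat (Divisor.degree (polesOf (K := K) f))
      have := le_max_left (-v.ord f) 0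
      nlinarith
  · rintro ⟨m, hm⟩ v hv
    rcases mem_riemannRochSpace_iff.mp hm v with h | h
    · rw [h]; exact zero_mem _
    · rw [Finsupp.smul_apply, polesOf_apply, max_eq_right (by omega), nsmul_zero, neg_zero] at h
      exact (ord_nonneg_iff v f).1 h

variable (R : Subalgebra K F) (hR : R ≤ regularRing x) (hxR : x ∈ R)

include hR in
/-- With uniformisers in `R`, every regular function is congruent to one of `R` modulo `x - c`. -/
theorem exists_sub_eq_mul (hx : Transcendental K x) (c : K)
    (ht : ∀ v : Place K F, 0 < v.ord (x - algebraMap K F c) →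
      ∃ t ∈ R, v.ord t = 1 ∧
        ∀ w : Place K F, 0 < w.ord (x - algebraMap K F c) → w ≠ v → w.ord t = 0)
    {s : F} (hs : s ∈ regularRing (K := K) x) :
    ∃ r ∈ R, ∃ o ∈ regularRing (K := K) x, s - r = (x - algebraMap K F c) * o := by
  classical
  set u := x - algebraMap K F c with hu
  have hu0 : u ≠ 0 := fun h => hx (by
    rw [show x = algebraMap K F c from sub_eq_zero.mp h]; exact isAlgebraic_algebraMap c)
  have hfin : {w : Place K F | 0 < w.ord u}.Finite :=
    (finite_ord_ne_zero (K := K) u).subset fun w (hw : 0 < w.ord u) => (ne_of_lt hw).symm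
  set S := hfin.toFinset with hS
  have hmemS : ∀ w, w ∈ S ↔ 0 < w.ord u := fun w => by simp [hS]
  have hreg : ∀ w ∈ S, 0 ≤ w.ord x := fun w hw => by
    by_contra hlt
    have h1 := ord_sub_algebraMap_of_pole w (not_le.mp hlt) c
    have h2 := (hmemS w).mp hw
    rw [hu] at h2
    omega
  choose t htR htv htw using fun v (hv : v ∈ S) => ht v ((hmemS v).mp hv)
  have htne : ∀ v (hv : v ∈ S), t v hv ≠ 0 := fun v hv h => by
    have := htv v hv
    rw [h, Place.ord_zero] at this
    omega
  -- raise the orders of vanishing one by one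
  have key : ∀ n, ∀ f : Place K F → ℕ, ∑ w ∈ S, f w = n →
      ∃ r ∈ R, ∀ w ∈ S, VanishesTo w (f w) (s - r) := by
    intro n
    induction n with
    | zero =>
      intro f hf
      refine ⟨0, R.zero_mem, fun w hw => ?_⟩
      rw [Finset.sum_eq_zero_iff.mp hf w hw, sub_zero, Nat.cast_zero]
      exact (vanishesTo_zero_iff w).2 (hs w (hreg w hw))
    | succ n ih =>
      intro f hf
      obtain ⟨v, hv, hfv⟩ : ∃ v ∈ S, f v ≠ 0 := by
        by_contra! h
        rw [Finset.sum_eq_zero h] at hf
        omega
      set f' := Function.update f v (f v - 1) with hf'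
      obtain ⟨r, hr, hrv⟩ := ih f' (by
        have h1 := Finset.sum_update_of_mem hv f (f v - 1)
        have h2 := Finset.add_sum_erase S f hv
        rw [hf', h1, Finset.sdiff_singleton_eq_erase]
        omega)
      -- an element of `R` of exact orders `f'`
      set z := ∏ w ∈ S.attach, t w.1 w.2 ^ f' w.1 with hz
      have hzR : z ∈ R := Subalgebra.prod_mem _ fun w _ => Subalgebra.pow_mem _ (htR w.1 w.2) _
      have hord : ∀ w₀ ∈ S, z ≠ 0 ∧ w₀.ord z = f' w₀ := by
        intro w₀ hw₀
        have : ∀ T : Finset {w // w ∈ S}, (∏ w ∈ T, t w.1 w.2 ^ f' w.1) ≠ 0 ∧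
            w₀.ord (∏ w ∈ T, t w.1 w.2 ^ f' w.1) =
              ∑ w ∈ T, if w.1 = w₀ then (f' w.1 : ℤ) else 0 := by
          intro T
          induction T using Finset.induction_on with
          | empty => simp [Place.ord_one]
          | insert a T ha ih =>
            rw [Finset.prod_insert ha, Finset.sum_insert ha]
            refine ⟨mul_ne_zero (pow_ne_zero _ (htne _ _)) ih.1, ?_⟩
            rw [w₀.ord_mul (pow_ne_zero _ (htne _ _)) ih.1, ih.2, ord_pow]
            congr 1
            split_ifs with h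
            · subst h; rw [htv]; ring
            · rw [htw _ a.2 w₀ ((hmemS w₀).mp hw₀) (Ne.symm h)]; ring
        obtain ⟨h1, h2⟩ := this S.attach
        refine ⟨h1, ?_⟩
        rw [h2, Finset.sum_attach S (fun w => if w = w₀ then (f' w : ℤ) else 0),
          Finset.sum_ite_eq' S w₀ fun w => (f' w : ℤ), if_pos hw₀]
      obtain ⟨hz0, hzv⟩ := hord v hv
      have hmem : (s - r) / z ∈ v.toValuationSubring := by
        rcases eq_or_ne (s - r) 0 with h | h
        · rw [h, zero_div]; exact zero_mem _
        · refine (ord_nonneg_iff v _).1 ?_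
          rw [ord_div v h hz0, hzv]
          have := (hrv v hv).resolve_left h
          omega
      obtain ⟨a, ha⟩ := exists_residue v hmem
      refine ⟨r + a • z, R.add_mem hr (R.smul_mem hzR a), fun w hw => ?_⟩
      obtain ⟨-, hzw⟩ := hord w hw
      rcases eq_or_ne w v with rfl | hne
      · have hm := ha.mul (Or.inr hzv.ge : VanishesTo w (f' w : ℤ) z)
        have e : ((s - r) / z - algebraMap K F a) * z = s - (r + a • z) := by
          rw [sub_mul, div_mul_cancel₀ _ hz0, Algebra.smul_def]; ring
        rw [e] at hm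
        refine hm.mono (le_of_eq ?_)
        rw [hf', Function.update_self]
        omega
      · have h1 : VanishesTo w (f w : ℤ) (s - r) := by
          have := hrv w hw
          rwa [hf', Function.update_of_ne hne] at this
        have h2 : VanishesTo w (f w : ℤ) (a • z) := by
          refine VanishesTo.smul a (Or.inr (le_of_eq ?_))
          rw [hzw, hf', Function.update_of_ne hne]
        have e : s - (r + a • z) = (s - r) - a • z := by ring
        rw [e]
        exact h1.sub h2
  obtain ⟨r, hr, hrv⟩ := key _ (fun w => (w.ord u).toNat) rfl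
  refine ⟨r, hr, (s - r) / u, fun w hw => ?_, by rw [mul_div_cancel₀ _ hu0]⟩
  rcases eq_or_ne (s - r) 0 with h | h
  · rw [h, zero_div]; exact zero_mem _
  refine (ord_nonneg_iff w _).1 ?_
  rw [ord_div w h hu0]
  rcases le_or_gt (w.ord u) 0 with hle | hgt
  · have := (ord_nonneg_iff w _).2 (sub_mem (hs w hw) (hR hr w hw))
    omega
  · have := (hrv w ((hmemS w).mpr hgt)).resolve_left h
    omega

include hR hxR in
/-- A subring of regular functions of full rank with uniformisers is everything. -/
theorem regularRing_le (hx : Transcendental K x) [FiniteDimensional K⟮x⟯ F]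
    {n : ℕ} (e : Fin n → F) (heR : ∀ i, e i ∈ R)
    (heli : LinearIndependent K⟮x⟯ e) (hn : Module.finrank K⟮x⟯ F ≤ n)
    (ht : ∀ (c : K) (v : Place K F), 0 < v.ord (x - algebraMap K F c) →
      ∃ t ∈ R, v.ord t = 1 ∧
        ∀ w : Place K F, 0 < w.ord (x - algebraMap K F c) → w ≠ v → w.ord t = 0) :
    regularRing x ≤ R := by
  classical
  have hnd : n = Module.finrank K⟮x⟯ F := by
    have := heli.fintype_card_le_finrank
    rw [Fintype.card_fin] at this
    omega
  have hn0 : 0 < n := hnd ▸ Module.finrank_pos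
  have : Nonempty (Fin n) := ⟨⟨0, hn0⟩⟩
  set u := basisOfLinearIndependentOfCardEqFinrank heli (by rw [Fintype.card_fin, hnd]) with hu
  have hue : ∀ i, u i = e i := fun i => by rw [hu, coe_basisOfLinearIndependentOfCardEqFinrank]
  set O : Submodule K F := Subalgebra.toSubmodule (regularRing x) with hO
  set RS : Submodule K F := Subalgebra.toSubmodule R with hRS
  set P : ℕ → Submodule K F := fun m => riemannRochSpace (m • polesOf (K := K) x) with hP
  have hfinP : ∀ m, Module.Finite K (P m) := fun m => finite_rr _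
  choose b hb using fun i => mem_rr_iff_regular.mp (hR (heR i))
  set B := Finset.univ.sup b with hB
  have hPmono : ∀ {a b : ℕ}, a ≤ b → P a ≤ P b := fun h =>
    rr_mono (nsmul_le_nsmul_left (polesOf_nonneg _) h)
  -- the codimension of `R` in each `L(m·P)` is bounded
  have hbound : ∀ m, (Module.finrank K (P m) : ℤ) ≤
      (Module.finrank K ↥(P m ⊓ RS) : ℤ) + (B * n + 1 : ℕ) := by
    intro m
    have hup : (Module.finrank K (P m) : ℤ) ≤ (m : ℤ) * n + 1 := by
      refine (finrank_rr_le (nsmul_nonneg (polesOf_nonneg _) m)).trans (le_of_eq ?_)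
      rw [map_nsmul, show polesOf (K := K) x = polarDivisor x from
        Finsupp.ext fun v => by rw [polesOf_apply, polarDivisor_apply],
        degree_polarDivisor hx, nsmul_eq_mul, hnd]
    rcases lt_or_ge m B with hm | hm
    · push_cast; nlinarith
    obtain ⟨l, rfl⟩ := Nat.exists_eq_add_of_le hm
    have hmem : ∀ p : Fin (l + 1) × Fin n, x ^ (p.1 : ℕ) * u p.2 ∈ P (B + l) ⊓ RS := by
      intro p
      rw [hue]
      refine Submodule.mem_inf.mpr ⟨?_, R.mul_mem (R.pow_mem hxR _) (heR p.2)⟩
      have h1 : x ^ (p.1 : ℕ) ∈ riemannRochSpace ((p.1 : ℕ) • polesOf (K := K) x) :=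
        rr_pow (mem_rr_polesOf x) _
      have h2 := rr_mul h1 (hb p.2)
      rw [← add_nsmul] at h2
      exact hPmono (by
        have := Nat.lt_succ_iff.1 p.1.2
        have := Finset.le_sup (f := b) (Finset.mem_univ p.2)
        omega) h2
    have hind : LinearIndependent K fun p : Fin (l + 1) × Fin n =>
        (⟨_, hmem p⟩ : ↥(P (B + l) ⊓ RS)) :=
      LinearIndependent.of_comp (P (B + l) ⊓ RS).subtype (linearIndependent_pow_mul hx l u)
    have : Module.Finite K ↥(P (B + l) ⊓ RS) := Submodule.finiteDimensional_of_le inf_le_left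
    have hlow := hind.fintype_card_le_finrank
    rw [Fintype.card_prod, Fintype.card_fin, Fintype.card_fin] at hlow
    have hlow' : ((l : ℤ) + 1) * n ≤ Module.finrank K ↥(P (B + l) ⊓ RS) := by exact_mod_cast hlow
    push_cast at hup ⊢
    nlinarith
  -- a finite-dimensional space supplementing `R`
  obtain ⟨m₀, hm₀⟩ : ∃ m₀, ∀ m, Module.finrank K (P m) - Module.finrank K ↥(P m ⊓ RS) ≤
      Module.finrank K (P m₀) - Module.finrank K ↥(P m₀ ⊓ RS) := by
    have hS : (Set.range fun m => Module.finrank K (P m) - Module.finrank K ↥(P m ⊓ RS)).Finite :=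
      (Set.finite_Iic (B * n + 1)).subset (by
        rintro _ ⟨m, rfl⟩
        have := hbound m
        simp only [Set.mem_Iic]
        omega)
    obtain ⟨_, ⟨m₀, rfl⟩, hmax⟩ := Set.exists_max_image _ id hS (Set.range_nonempty _)
    exact ⟨m₀, fun m => hmax _ ⟨m, rfl⟩⟩
  have hsup : O ≤ RS ⊔ P m₀ := by
    intro s hs
    obtain ⟨m, hm⟩ := mem_rr_iff_regular.mp hs
    set M := max m m₀ with hM
    have := hfinP M
    have : Module.Finite K ↥(P M ⊓ RS) := Submodule.finiteDimensional_of_le inf_le_left
    have := hfinP m₀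
    have h1 := Submodule.finrank_sup_add_finrank_inf_eq (P M ⊓ RS) (P m₀)
    have h2 : (P M ⊓ RS) ⊓ P m₀ = P m₀ ⊓ RS := by
      rw [inf_right_comm, inf_eq_right.mpr (hPmono (le_max_right m m₀))]
    rw [h2] at h1
    have h3 : (P M ⊓ RS) ⊔ P m₀ ≤ P M := sup_le inf_le_left (hPmono (le_max_right m m₀))
    have : Module.Finite K ↥(P m₀ ⊓ RS) := Submodule.finiteDimensional_of_le inf_le_left
    have h4 := hm₀ M
    have h5 := Submodule.finrank_mono (inf_le_left : P m₀ ⊓ RS ≤ P m₀)
    have h6 : (P M ⊓ RS) ⊔ P m₀ = P M := by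
      refine Submodule.eq_of_le_of_finrank_le h3 ?_
      omega
    have hsM : s ∈ (P M ⊓ RS) ⊔ P m₀ := h6.symm ▸ hPmono (le_max_left m m₀) hm
    exact (sup_le_sup (inf_le_right : P M ⊓ RS ≤ RS) le_rfl : (P M ⊓ RS) ⊔ P m₀ ≤ RS ⊔ P m₀) hsM
  -- multiplication by `x` on the finite-dimensional quotient
  set Q : Submodule K (F ⧸ RS) := O.map RS.mkQ with hQ
  have hQfin : Module.Finite K Q := by
    have := hfinP m₀
    refine Submodule.finiteDimensional_of_le (S₂ := (P m₀).map RS.mkQ) ?_
    rintro _ ⟨s, hs, rfl⟩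
    obtain ⟨r, hr, p, hp, rfl⟩ := Submodule.mem_sup.mp (hsup hs)
    have hr0 : RS.mkQ r = 0 := (Submodule.Quotient.mk_eq_zero RS).mpr hr
    exact ⟨p, hp, by rw [map_add, hr0, zero_add]⟩
  let J : (F ⧸ RS) →ₗ[K] (F ⧸ RS) := RS.mapQ RS (LinearMap.mulLeft K x)
    (fun r hr => show x * r ∈ RS from R.mul_mem hxR hr)
  have hJ : ∀ q ∈ Q, J q ∈ Q := by
    rintro _ ⟨s, hs, rfl⟩
    exact ⟨x * s, (regularRing x).mul_mem self_mem_regularRing hs, rfl⟩
  suffices hbot : Subsingleton Q by
    intro s hs
    have : (⟨RS.mkQ s, s, hs, rfl⟩ : Q) = 0 := Subsingleton.elim _ _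
    exact (Submodule.Quotient.mk_eq_zero RS).mp (congrArg Subtype.val this)
  by_contra hns
  have : Nontrivial Q := not_subsingleton_iff_nontrivial.mp hns
  obtain ⟨c, hc⟩ := Module.End.exists_eigenvalue (J.restrict hJ)
  obtain ⟨q₀, hq₀⟩ := hc.exists_hasEigenvector
  have hsurj : Function.Surjective (J.restrict hJ - c • (LinearMap.id : Q →ₗ[K] Q)) := by
    rintro ⟨_, s, hs, rfl⟩
    obtain ⟨r, hr, o, ho, he⟩ := exists_sub_eq_mul R hR hx c (ht c) hs
    refine ⟨⟨RS.mkQ o, o, ho, rfl⟩, Subtype.ext ?_⟩
    show RS.mkQ (x * o) - c • RS.mkQ o = RS.mkQ s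
    rw [← map_smul, ← map_sub, Submodule.mkQ_apply, Submodule.mkQ_apply, Submodule.Quotient.eq]
    have hrw : x * o - c • o - s = -r := by
      rw [Algebra.smul_def, ← sub_mul, ← he]; ring
    rw [hrw]
    exact neg_mem hr
  have hinj : Function.Injective (J.restrict hJ - c • (LinearMap.id : Q →ₗ[K] Q)) :=
    LinearMap.injective_iff_surjective.mpr hsurj
  refine hq₀.2 (hinj ?_)
  rw [map_zero, LinearMap.sub_apply, LinearMap.smul_apply, LinearMap.id_apply, hq₀.apply_eq_smul,
    sub_self]

end Fermat.Agent.Reduction
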