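import Fermat.Agent.Reduction.ChartCriterion
import Fermat.Agent.Reduction.UniformiserSpan
import Fermat.Agent.Reduction.GenRegular
import Fermat.Agent.Reduction.Cusp

/-!
# Uniformisers in the reduced charts give genus equality
-/

set_option autoImplicit false
set_option linter.unusedSectionVars false

noncomputable section

namespace Fermat.Agent.Reduction

open IsLocalRing ModularCurve AlgebraicCurve IntermediateField Fermat.Agent.FunctionFieldRR

variable {N ℓ : ℕ} [NeZero N] [Fact ℓ.Prime] {A : ValuationSubring (AlgebraicClosure ℚ)}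

/-- If at every place downstairs some combination of reductions of chart functions is a
uniformiser not vanishing at the other places of the same fibre, the genus does not drop. -/
theorem genus0_le_genusC_of_uniformisers (hA : A.LiesOverPrime ℓ) [IsAlgClosed (ResidueField A)]
    (hN : (N : ResidueField A) ≠ 0)
    (hfinite : ∀ (c : ResidueField A)
      (v : Place (ResidueField A) (modularFunctionFieldFullC (ResidueField A) N)),
      0 < v.ord (jC (ResidueField A) N - algebraMap _ _ c) →
      ∃ t ∈ Submodule.span (ResidueField A) (finiteChartRed A N), v.ord t = 1 ∧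
        ∀ w : Place (ResidueField A) (modularFunctionFieldFullC (ResidueField A) N),
          0 < w.ord (jC (ResidueField A) N - algebraMap _ _ c) → w ≠ v → w.ord t = 0)
    (hcusp : ∀ v : Place (ResidueField A) (modularFunctionFieldFullC (ResidueField A) N),
      v.ord (jC (ResidueField A) N) < 0 →
      ∃ t ∈ Submodule.span (ResidueField A) (inftyChartRed A N), v.ord t = 1 ∧
        ∀ w : Place (ResidueField A) (modularFunctionFieldFullC (ResidueField A) N),
          w.ord (jC (ResidueField A) N) < 0 → w ≠ v → w.ord t = 0) :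
    genus0 N ≤ genusC (ResidueField A) N hN := by
  classical
  have hbar := finiteDimensional_jBar N
  have hC := finiteDimensional_jC (ResidueField A) N hN
  have := isSeparable_jBar N
  have := isSeparable_jC (ResidueField A) N hN
  have : IsFunctionField (AlgebraicClosure ℚ) (modularFunctionFieldBar N) :=
    IsFunctionField.of_finiteDimensional _ (transcendental_jBar N)
  have : IsFunctionField (ResidueField A) (modularFunctionFieldFullC (ResidueField A) N) :=
    IsFunctionField.of_finiteDimensional _ (transcendental_jC _ N)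
  have := (hasPrincipalDivisors :
    HasPrincipalDivisors (AlgebraicClosure ℚ) (modularFunctionFieldBar N))
  have := (hasPrincipalDivisors :
    HasPrincipalDivisors (ResidueField A) (modularFunctionFieldFullC (ResidueField A) N))
  set M := modularGoodModelOf A N hA hbar hC (by rw [finrank_jBar, finrank_jC _ N hN]) with hM
  have hjF : M.jF = jBar N := modularSeriesModel_jF A N
  have hjK : M.jK = jC (ResidueField A) N := modularSeriesModel_jK A N
  have := M.fin_red
  obtain ⟨b, hb, e, he, heli⟩ := M.toSeriesModel.exists_lift_basis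
  -- lifted generators are regular at finite `j`, upstairs
  have hreg : ∀ y ∈ Subring.closure M.gens, ∀ P : Place (AlgebraicClosure ℚ)
      (modularFunctionFieldBar N), 0 ≤ P.ord (jBar N) →
      ∀ h : ιS A y ∈ modularFunctionFieldBar N,
        (⟨ιS A y, h⟩ : modularFunctionFieldBar N) ∈ P.toValuationSubring := by
    intro y hy P hP
    induction hy using Subring.closure_induction with
    | mem y hy =>
      intro h
      obtain ⟨d, hne, hd, rfl⟩ := hy
      refine jd_mem_valuationSubring P (x := jBar N) rfl ((ord_nonneg_iff P _).1 hP) d hne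
        (Nat.cast_ne_zero.mpr hne.out) _ (coeffMap_qExpand_jq A.subtype d) fun d' hd' hdd => ?_
      rw [bar_eq_fullC]
      exact Igusa.jd_mem _ (hdd.trans hd)
    | zero =>
      intro h
      rw [show (⟨ιS A 0, h⟩ : modularFunctionFieldBar N) = 0 from Subtype.ext (map_zero _)]
      exact zero_mem _
    | one =>
      intro h
      rw [show (⟨ιS A 1, h⟩ : modularFunctionFieldBar N) = 1 from Subtype.ext (map_one _)]
      exact one_mem _
    | add y z hy' hz' ihy ihz =>
      intro h
      have e1 := (M.toSeriesModel.mem_of_mem_closure hy').1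
      have e2 := (M.toSeriesModel.mem_of_mem_closure hz').1
      rw [show (⟨ιS A (y + z), h⟩ : modularFunctionFieldBar N) = ⟨_, e1⟩ + ⟨_, e2⟩ from
        Subtype.ext (map_add _ _ _)]
      exact add_mem (ihy e1) (ihz e2)
    | neg y hy' ih =>
      intro h
      have e1 := (M.toSeriesModel.mem_of_mem_closure hy').1
      rw [show (⟨ιS A (-y), h⟩ : modularFunctionFieldBar N) = -⟨_, e1⟩ from
        Subtype.ext (map_neg _ _)]
      exact neg_mem (ih e1)
    | mul y z hy' hz' ihy ihz =>
      intro h
      have e1 := (M.toSeriesModel.mem_of_mem_closure hy').1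
      have e2 := (M.toSeriesModel.mem_of_mem_closure hz').1
      rw [show (⟨ιS A (y * z), h⟩ : modularFunctionFieldBar N) = ⟨_, e1⟩ * ⟨_, e2⟩ from
        Subtype.ext (map_mul _ _ _)]
      exact mul_mem (ihy e1) (ihz e2)
  -- the two chart sets are multiplicative
  have hmul₀ : ∀ a ∈ finiteChartRed A N, ∀ a' ∈ finiteChartRed A N, a * a' ∈ finiteChartRed A N := by
    rintro a ⟨y, f, hf, hy, hp⟩ a' ⟨y', f', hf', hy', hp'⟩
    exact ⟨y * y', f * f', by rw [MulMemClass.coe_mul, hf, hf', map_mul],
      by rw [MulMemClass.coe_mul, map_mul, hy, hy'], fun P hP => (ord_nonneg_iff P _).2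
        (mul_mem ((ord_nonneg_iff P _).1 (hp P hP)) ((ord_nonneg_iff P _).1 (hp' P hP)))⟩
  have hmul₁ : ∀ a ∈ inftyChartRed A N, ∀ a' ∈ inftyChartRed A N, a * a' ∈ inftyChartRed A N := by
    rintro a ⟨y, f, hf, hy, hp⟩ a' ⟨y', f', hf', hy', hp'⟩
    exact ⟨y * y', f * f', by rw [MulMemClass.coe_mul, hf, hf', map_mul],
      by rw [MulMemClass.coe_mul, map_mul, hy, hy'], fun P hP => (ord_nonneg_iff P _).2
        (mul_mem ((ord_nonneg_iff P _).1 (hp P hP)) ((ord_nonneg_iff P _).1 (hp' P hP)))⟩
  have hone₀ : (1 : modularFunctionFieldFullC (ResidueField A) N) ∈ finiteChartRed A N :=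
    ⟨1, 1, by rw [map_one]; rfl, by rw [map_one]; rfl, fun P _ => by rw [Place.ord_one]⟩
  have hone₁ : (1 : modularFunctionFieldFullC (ResidueField A) N) ∈ inftyChartRed A N :=
    ⟨1, 1, by rw [map_one]; rfl, by rw [map_one]; rfl, fun P _ => by rw [Place.ord_one]⟩
  let mkAlg : ∀ S : Set (modularFunctionFieldFullC (ResidueField A) N), (1 : _) ∈ S →
      (∀ a ∈ S, ∀ a' ∈ S, a * a' ∈ S) →
      Subalgebra (ResidueField A) (modularFunctionFieldFullC (ResidueField A) N) := fun S h1 hm =>
    (Submodule.span (ResidueField A) S).toSubalgebra (Submodule.subset_span h1)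
      (fun x x' hx hx' => by
        have := Submodule.mul_mem_mul hx hx'
        rw [Submodule.span_mul_span] at this
        exact Submodule.span_mono (Set.mul_subset_iff.mpr hm) this)
  set R₀ := mkAlg _ hone₀ hmul₀ with hR₀
  set R₁ := mkAlg _ hone₁ hmul₁ with hR₁
  -- reductions of chart functions are regular downstairs
  have hdownReg : ∀ (n : ℕ), M.redSub (M.upSpace n) ≤ M.downSpace n := by
    intro n
    have hB : (0 : Divisor (AlgebraicClosure ℚ) (modularFunctionFieldBar N)) ≤
        n • polesOf (K := AlgebraicClosure ℚ) M.jF := nsmul_nonneg (polesOf_nonneg _) n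
    have h1 := M.degree_poleSup_le (riemann_inequality (transcendental_jC (ResidueField A) N))
      (c := 2 * (genusC (ResidueField A) N hN : ℤ) - 1)
      (fun D hD => le_of_eq (finrank_eq_of_degree_gt (transcendental_jC _ N)
        (show 2 * (genusC (ResidueField A) N hN : ℤ) - 2 < _ by omega))) hB
    have hdeq : Divisor.degree (n • polesOf (K := AlgebraicClosure ℚ) M.jF) =
        Divisor.degree (n • polesOf (K := ResidueField A) M.jK) := by
      rw [map_nsmul, map_nsmul, hjF, hjK,
        show polesOf (jBar N) = polarDivisor (jBar N) from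
          Finsupp.ext fun v => by rw [polesOf_apply, polarDivisor_apply],
        show polesOf (jC (ResidueField A) N) = polarDivisor (jC (ResidueField A) N) from
          Finsupp.ext fun v => by rw [polesOf_apply, polarDivisor_apply],
        degree_polarDivisor (transcendental_jBar N), degree_polarDivisor (transcendental_jC _ N),
        finrank_jBar, finrank_jC _ N hN]
    have hjn : M.jK ^ n ∈ M.redSub (M.upSpace n) := by
      refine ⟨M.jF ^ n, rr_pow (mem_rr_polesOf _) n, (M.isInt_pow M.isInt_jF.1 n).1, ?_⟩
      rw [(M.isInt_pow M.isInt_jF.1 n).2, M.isInt_jF.2]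
    have hle : n • polesOf (K := ResidueField A) M.jK ≤
        M.poleSup (n • polesOf (K := AlgebraicClosure ℚ) M.jF) := by
      refine Finsupp.le_def.mpr fun v => ?_
      have h := (mem_rr (pow_ne_zero n M.jK_ne_zero)).mp (M.redSub_le_poleSup _ hjn) v
      have h0 : 0 ≤ M.poleSup (n • polesOf (K := AlgebraicClosure ℚ) M.jF) v :=
        Finsupp.le_def.mp (M.poleSup_nonneg _) v
      rw [ord_pow] at h
      rw [Finsupp.smul_apply, polesOf_apply, nsmul_eq_mul]
      rcases le_total (-v.ord M.jK) 0 with h' | h'
      · rw [max_eq_right h', mul_zero]; exact h0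
      · rw [max_eq_left h']; linarith
    have heq : M.poleSup (n • polesOf (K := AlgebraicClosure ℚ) M.jF) =
        n • polesOf (K := ResidueField A) M.jK := by
      refine sub_eq_zero.mp (eq_zero_of_degree_eq_zero (sub_nonneg.mpr hle) ?_)
      have h2 := degree_mono hle
      rw [map_sub]
      omega
    intro s hs
    have := M.redSub_le_poleSup _ hs
    rwa [heq] at this
  have hupMem₀ : ∀ z ∈ finiteChartRed A N, z ∈ regularRing (K := ResidueField A) (jC (ResidueField A) N) := by
    rintro z ⟨y, f, hf, hy, hp⟩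
    obtain ⟨n, hn⟩ := (mem_rr_iff_regular (K := AlgebraicClosure ℚ) (x := jBar N)).mp
      (fun P hP => (ord_nonneg_iff P f).1 (hp P hP))
    obtain ⟨h1, h2⟩ := M.isInt_series hf
    refine mem_rr_iff_regular.mpr ⟨n, ?_⟩
    rw [← hjK]
    refine hdownReg n ⟨f, ?_, h1, Subtype.ext (h2.trans hy)⟩
    rw [GoodModel.upSpace, hjF]
    exact hn
  have hR₀le : R₀ ≤ regularRing (K := ResidueField A) (jC (ResidueField A) N) := fun z hz =>
    (Submodule.span_le (p := Subalgebra.toSubmodule (regularRing (K := ResidueField A) (jC (ResidueField A) N)))).mpr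
      hupMem₀ hz
  have hj₀ : jC (ResidueField A) N ∈ finiteChartRed A N :=
    ⟨M.j, jBar N, (congrArg Subtype.val hjF).symm, (congrArg Subtype.val hjK),
      fun P hP => hP⟩
  have he₀ : ∀ i, e i ∈ finiteChartRed A N := fun i =>
    ⟨b i, ⟨_, (M.toSeriesModel.mem_of_mem_closure (hb i)).1⟩, rfl, (he i).symm,
      fun P hP => (ord_nonneg_iff P _).2 (hreg _ (hb i) P hP _)⟩
  have hfinrank : Module.finrank (ResidueField A)⟮M.jK⟯
      (modularFunctionFieldFullC (ResidueField A) N) = dedekindPsi N := by
    rw [hjK]; exact finrank_jC _ N hN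
  -- the finite chart
  have hzero : regularRing (K := ResidueField A) (jC (ResidueField A) N) ≤ R₀ := by
    refine regularRing_le R₀ hR₀le (Submodule.subset_span hj₀) (transcendental_jC _ N) e
      (fun i => Submodule.subset_span (he₀ i)) (hjK ▸ heli) ?_ hfinite
    rw [finrank_jC _ N hN, hfinrank]
  -- the chart at infinity
  have hinvtr : Transcendental (ResidueField A) (jC (ResidueField A) N)⁻¹ := fun h =>
    transcendental_jC (ResidueField A) N (by simpa using h.inv)
  have hadj : (ResidueField A)⟮(jC (ResidueField A) N)⁻¹⟯ = (ResidueField A)⟮M.jK⟯ := by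
    rw [← hjK]; exact M.toSeriesModel.adjoin_uK
  have := finiteDimensional_adjoin hinvtr
  have hinvord : ∀ v : Place (ResidueField A) (modularFunctionFieldFullC (ResidueField A) N),
      0 ≤ v.ord (jC (ResidueField A) N)⁻¹ ↔ v.ord (jC (ResidueField A) N) ≤ 0 := fun v => by
    rw [v.ord_inv]; omega
  have hjF0 : jBar N ≠ 0 := hjF ▸ M.jF_ne_zero
  have hjC0 : jC (ResidueField A) N ≠ 0 := hjK ▸ M.jK_ne_zero
  have hu₁ : (jC (ResidueField A) N)⁻¹ ∈ inftyChartRed A N := by
    refine ⟨M.uA, (jBar N)⁻¹, ?_, ?_, fun P hP => by rw [P.ord_inv]; omega⟩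
    · rw [← hjF]; exact M.toSeriesModel.coe_uF
    · rw [← hjK]; exact M.toSeriesModel.coe_uK.symm
  -- a chart function times a power of `1/j` lies in the chart at infinity
  have htransfer : ∀ z ∈ finiteChartRed A N, ∃ n₀ : ℕ, ∀ n, n₀ ≤ n →
      z * ((jC (ResidueField A) N)⁻¹) ^ n ∈ inftyChartRed A N := by
    rintro z ⟨y, f, hf, hy, hp⟩
    refine ⟨(Divisor.degree (polesOf (K := AlgebraicClosure ℚ) f)).toNat, fun n hn =>
      ⟨y * M.uA ^ n, f * ((jBar N)⁻¹) ^ n, ?_, ?_, fun P hP => ?_⟩⟩
    · rw [MulMemClass.coe_mul, SubmonoidClass.coe_pow, hf, map_mul, map_pow, ← hjF]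
      exact congrArg (fun w => ιS A y * w ^ n) M.toSeriesModel.coe_uF
    · rw [MulMemClass.coe_mul, SubmonoidClass.coe_pow, map_mul, map_pow, hy, ← hjK]
      exact congrArg (fun w => (z : LaurentSeries (ResidueField A)) * w ^ n)
        M.toSeriesModel.coe_uK.symm
    · rcases eq_or_ne f 0 with rfl | hf0
      · rw [zero_mul, Place.ord_zero]
      rw [P.ord_mul hf0 (pow_ne_zero _ (inv_ne_zero hjF0)), ord_pow, P.ord_inv]
      rcases eq_or_lt_of_le hP with h | h
      · have := hp P h.ge
        rw [h]; linarith
      · have h1 := apply_le_degree (polesOf_nonneg (K := AlgebraicClosure ℚ) f) P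
        rw [polesOf_apply] at h1
        have h2 := Int.self_le_toNat (Divisor.degree (polesOf (K := AlgebraicClosure ℚ) f))
        have h3 := le_max_left (-P.ord f) 0
        nlinarith
  have hR₁le : R₁ ≤ regularRing (K := ResidueField A) (jC (ResidueField A) N)⁻¹ := by
    intro z hz
    refine (Submodule.span_le (p := Subalgebra.toSubmodule
      (regularRing (K := ResidueField A) (jC (ResidueField A) N)⁻¹))).mpr ?_ hz
    rintro w ⟨y, f, hf, hy, hp⟩ v hv
    -- `j̄ⁿ w` is bounded by `n·(j̄)_∞`
    set n := (Divisor.degree (polesOf (K := AlgebraicClosure ℚ) f)).toNat with hn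
    obtain ⟨h1, h2⟩ := M.isInt_series hf
    obtain ⟨h5, h6⟩ := M.isInt_mul (M.isInt_pow M.isInt_jF.1 n).1 h1
    have hup : M.jF ^ n * f ∈ M.upSpace n := by
      rw [GoodModel.upSpace, mem_riemannRochSpace_iff, hjF]
      intro P
      refine or_iff_not_imp_left.mpr fun h0 => ?_
      have hf0 : f ≠ 0 := right_ne_zero_of_mul h0
      rw [Finsupp.smul_apply, polesOf_apply, nsmul_eq_mul,
        P.ord_mul (pow_ne_zero _ hjF0) hf0, ord_pow]
      rcases le_or_gt (P.ord (jBar N)) 0 with h | h
      · rw [max_eq_left (by omega)]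
        have := hp P h
        nlinarith
      · rw [max_eq_right (by omega), mul_zero, neg_zero]
        have := apply_le_degree (polesOf_nonneg (K := AlgebraicClosure ℚ) f) P
        rw [polesOf_apply] at this
        have := Int.self_le_toNat (Divisor.degree (polesOf (K := AlgebraicClosure ℚ) f))
        have := le_max_left (-P.ord f) 0
        nlinarith
    have hmem : jC (ResidueField A) N ^ n * w ∈ M.downSpace n := by
      refine hdownReg n ⟨_, hup, h5, ?_⟩
      rw [h6, (M.isInt_pow M.isInt_jF.1 n).2, M.isInt_jF.2, hjK,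
        show M.red f = w from Subtype.ext (h2.trans hy)]
    rw [GoodModel.downSpace, hjK, mem_riemannRochSpace_iff] at hmem
    rcases eq_or_ne w 0 with rfl | hw0
    · exact zero_mem _
    refine (ord_nonneg_iff v _).1 ?_
    have h7 := (hmem v).resolve_left (mul_ne_zero (pow_ne_zero _ hjC0) hw0)
    rw [Finsupp.smul_apply, polesOf_apply, nsmul_eq_mul,
      v.ord_mul (pow_ne_zero _ hjC0) hw0, ord_pow,
      max_eq_left (by have := (hinvord v).mp hv; omega)] at h7
    linarith
  choose n₀ hn₀ using fun i => htransfer _ (he₀ i)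
  set n₁ := Finset.univ.sup n₀ with hn₁
  set e' := fun i => e i * ((jC (ResidueField A) N)⁻¹) ^ n₁ with he'
  have he'li : LinearIndependent (ResidueField A)⟮(jC (ResidueField A) N)⁻¹⟯ e' := by
    rw [hadj]
    exact heli.map' (LinearMap.mulRight (ResidueField A)⟮M.jK⟯
      (((jC (ResidueField A) N)⁻¹) ^ n₁))
      (LinearMap.ker_eq_bot.mpr fun a a' h =>
        mul_right_cancel₀ (pow_ne_zero _ (inv_ne_zero hjC0)) h)
  have hinfty : regularRing (K := ResidueField A) (jC (ResidueField A) N)⁻¹ ≤ R₁ := by
    refine regularRing_le R₁ hR₁le (Submodule.subset_span hu₁) hinvtr e'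
      (fun i => Submodule.subset_span (hn₀ i n₁ (Finset.le_sup (Finset.mem_univ i)))) he'li ?_
      fun c v hv => ?_
    · rw [finrank_adjoin_inv, finrank_jC _ N hN, hfinrank]
    rcases eq_or_ne c 0 with rfl | hc
    · rw [map_zero, sub_zero, v.ord_inv] at hv
      obtain ⟨t, ht, htv, htw⟩ := hcusp v (by omega)
      refine ⟨t, ht, htv, fun w hw hne => htw w ?_ hne⟩
      rw [map_zero, sub_zero, w.ord_inv] at hw
      omega
    -- away from the cusps, transfer from the finite chart
    have hiff : ∀ w : Place (ResidueField A) (modularFunctionFieldFullC (ResidueField A) N),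
        0 < w.ord ((jC (ResidueField A) N)⁻¹ - algebraMap _ _ c) →
        0 < w.ord (jC (ResidueField A) N - algebraMap _ _ c⁻¹) ∧
          w.ord (jC (ResidueField A) N) = 0 := by
      intro w hw
      have hu0 : w.ord (jC (ResidueField A) N)⁻¹ = 0 := by
        by_contra hne
        have hne0 : (jC (ResidueField A) N)⁻¹ - algebraMap _ _ c ≠ 0 := fun h => by
          rw [h, Place.ord_zero] at hw; omega
        have hc0 : algebraMap (ResidueField A)
            (modularFunctionFieldFullC (ResidueField A) N) c ≠ 0 := by simpa using hc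
        rcases lt_or_gt_of_ne hne with h | h
        · have := ord_sub_algebraMap_of_pole w h c
          omega
        · have h1 : w.ord (-algebraMap (ResidueField A)
              (modularFunctionFieldFullC (ResidueField A) N) c + (jC (ResidueField A) N)⁻¹) = 0 := by
            rw [ord_add_eq_of_lt (f := -algebraMap (ResidueField A)
              (modularFunctionFieldFullC (ResidueField A) N) c) (P := w) (neg_ne_zero.mpr hc0)
              (by rw [ord_neg, ord_algebraMap]; exact h), ord_neg, ord_algebraMap]
          rw [neg_add_eq_sub] at h1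
          omega
      rw [w.ord_inv, neg_eq_zero] at hu0
      refine ⟨?_, hu0⟩
      have hc0 : algebraMap (ResidueField A)
          (modularFunctionFieldFullC (ResidueField A) N) c⁻¹ ≠ 0 := by simpa using hc
      have e1 : jC (ResidueField A) N - algebraMap _ _ c⁻¹ =
          -(jC (ResidueField A) N * algebraMap _ _ c⁻¹ *
            ((jC (ResidueField A) N)⁻¹ - algebraMap _ _ c)) := by
        rw [map_inv₀]
        have hc' : algebraMap (ResidueField A)
            (modularFunctionFieldFullC (ResidueField A) N) c ≠ 0 := by simpa using hc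
        field_simp
        ring
      rw [e1, ord_neg, w.ord_mul (mul_ne_zero hjC0 hc0) (fun h => by
        rw [h, Place.ord_zero] at hw; omega), w.ord_mul hjC0 hc0, ord_algebraMap, hu0]
      simpa using hw
    obtain ⟨t, ht, htv, htw⟩ := hfinite c⁻¹ v (hiff v hv).1
    -- transfer a combination
    obtain ⟨m, hm⟩ : ∃ m₀ : ℕ, ∀ n, m₀ ≤ n → t * ((jC (ResidueField A) N)⁻¹) ^ n ∈ R₁ := by
      refine Submodule.span_induction ?_ ⟨0, fun n _ => by rw [zero_mul]; exact R₁.zero_mem⟩
        ?_ ?_ ht
      · intro z hz
        obtain ⟨m, hm⟩ := htransfer z hz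
        exact ⟨m, fun n hn => Submodule.subset_span (hm n hn)⟩
      · rintro a a' - - ⟨m, hm⟩ ⟨m', hm'⟩
        exact ⟨max m m', fun n hn => by
          rw [add_mul]
          exact R₁.add_mem (hm n (le_trans (le_max_left m m') hn))
            (hm' n (le_trans (le_max_right m m') hn))⟩
      · rintro a z - ⟨m, hm⟩
        exact ⟨m, fun n hn => by rw [smul_mul_assoc]; exact R₁.smul_mem (hm n hn) a⟩
    have ht0 : t ≠ 0 := fun h => by rw [h, Place.ord_zero] at htv; omega
    refine ⟨_, hm m le_rfl, ?_, fun w hw hne => ?_⟩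
    · rw [v.ord_mul ht0 (pow_ne_zero _ (inv_ne_zero hjC0)), ord_pow, v.ord_inv, (hiff v hv).2,
        htv]
      ring
    · rw [w.ord_mul ht0 (pow_ne_zero _ (inv_ne_zero hjC0)), ord_pow, w.ord_inv, (hiff w hw).2,
        htw w (hiff w hw).1 hne]
      ring
  refine genus0_le_genusC_of_charts hA hN (fun s hs => hzero fun v hv => ?_)
    (fun s hs => hinfty fun v hv => ?_)
  · exact (ord_nonneg_iff v s).1 (hs v hv)
  · exact (ord_nonneg_iff v s).1 (hs v ((hinvord v).mp hv))

end Fermat.Agent.Reduction
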