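import Fermat.Agent.Reduction.RedRing

/-!
# Reduction of the lattice in a finite-dimensional space of functions

`GoodModel.redSub V` consists of the reductions of the elements of `V` in the Gauss ring; it
has the dimension of `V`.
-/

set_option autoImplicit false

noncomputable section

namespace Fermat.Agent.Reduction

open IsLocalRing ModularCurve HahnSeries IntermediateField

variable {L : Type*} [Field L] {A : ValuationSubring L}
  {F : IntermediateField L (LaurentSeries L)}
  {Fk : IntermediateField (ResidueField A) (LaurentSeries (ResidueField A))}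

theorem Bdd.single_mul {x : LaurentSeries L} (h : Bdd A x) (a : L) :
    Bdd A (HahnSeries.single 0 a * x) := by
  obtain ⟨c, hc, y, hy⟩ := h
  rcases eq_or_ne a 0 with rfl | ha
  · exact Bdd.of_range ⟨0, by simp⟩
  by_cases haA : a ∈ A
  · exact ⟨c, hc, HahnSeries.single 0 ⟨a, haA⟩ * y, by rw [map_mul, ιS_single, hy]; ring⟩
  · have ha' : a⁻¹ ∈ A := (A.mem_or_inv_mem a).resolve_left haA
    refine ⟨c * ⟨a⁻¹, ha'⟩, mul_ne_zero hc fun e =>
      inv_ne_zero ha (congrArg Subtype.val e), y, ?_⟩
    rw [hy, MulMemClass.coe_mul, ← mul_assoc, HahnSeries.single_mul_single, zero_add,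
      mul_assoc, inv_mul_cancel₀ ha, mul_one]

theorem Bdd.add {x y : LaurentSeries L} (hx : Bdd A x) (hy : Bdd A y) : Bdd A (x + y) := by
  obtain ⟨c, hc, u, hu⟩ := hx
  obtain ⟨d, hd, v, hv⟩ := hy
  refine ⟨c * d, mul_ne_zero hc hd,
    HahnSeries.single 0 d * u + HahnSeries.single 0 c * v, ?_⟩
  rw [map_add, map_mul, map_mul, ιS_single, ιS_single, hu, hv, MulMemClass.coe_mul, mul_add,
    ← mul_assoc, ← mul_assoc, HahnSeries.single_mul_single, HahnSeries.single_mul_single,
    zero_add, mul_comm (d : L) (c : L)]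

theorem Bdd.range_mul {x : LaurentSeries L} (h : Bdd A x) (z : LaurentSeries A) :
    Bdd A (ιS A z * x) := by
  obtain ⟨c, hc, y, hy⟩ := h
  exact ⟨c, hc, z * y, by rw [map_mul, hy]; ring⟩

theorem Bdd.sum {ι : Type*} (s : Finset ι) (f : ι → LaurentSeries L)
    (h : ∀ i ∈ s, Bdd A (f i)) : Bdd A (∑ i ∈ s, f i) :=
  Finset.sum_induction _ _ (fun _ _ => Bdd.add) (Bdd.of_range (zero_mem _)) h

namespace GoodModel

variable (M : GoodModel A F Fk)

include M in
/-- Finitely many functions have a common denominator with nonzero reduction. -/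
theorem exists_common_denom {ι : Type*} [Fintype ι] (x : ι → F) :
    ∃ Q : LaurentSeries A, redS A Q ≠ 0 ∧ ιS A Q ∈ F ∧
      ∀ i, Bdd A (ιS A Q * (x i : LaurentSeries L)) := by
  classical
  have hrep : ∀ i, ∃ Q : LaurentSeries A, redS A Q ≠ 0 ∧ ιS A Q ∈ F ∧
      Bdd A (ιS A Q * (x i : LaurentSeries L)) := by
    intro i
    rcases eq_or_ne (x i) 0 with h | h
    · exact ⟨1, by rw [map_one]; exact one_ne_zero, by rw [map_one]; exact one_mem _,
        Bdd.of_range ⟨0, by simp [h]⟩⟩
    · obtain ⟨c, P, Q, -, hPQ, -, hQF, -, -, -, hQ⟩ := M.exists_rep' h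
      exact ⟨Q, hQ, hQF, by rw [hPQ]; exact (Bdd.of_range ⟨P, rfl⟩).single_mul c⟩
  choose Q hQ hQF hb using hrep
  refine ⟨∏ i, Q i, ?_, ?_, fun i => ?_⟩
  · rw [map_prod]; exact Finset.prod_ne_zero_iff.mpr fun i _ => hQ i
  · rw [map_prod]; exact prod_mem fun i _ => hQF i
  · rw [← Finset.mul_prod_erase Finset.univ Q (Finset.mem_univ i), map_mul,
      mul_comm (ιS A (Q i)), mul_assoc]
    exact (hb i).range_mul _

/-- The reduction of the lattice of `V`. -/
def redSub (V : Submodule L F) : Submodule (ResidueField A) Fk where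
  carrier := {s | ∃ x ∈ V, M.IsInt x ∧ M.red x = s}
  zero_mem' := ⟨0, V.zero_mem, M.isInt_zero, M.red_zero⟩
  add_mem' := by
    rintro _ _ ⟨x, hx, hxi, rfl⟩ ⟨y, hy, hyi, rfl⟩
    exact ⟨x + y, V.add_mem hx hy, (M.isInt_add hxi hyi).1, (M.isInt_add hxi hyi).2⟩
  smul_mem' := by
    rintro a _ ⟨x, hx, hxi, rfl⟩
    obtain ⟨⟨c, hc⟩, rfl⟩ := residue_surjective a
    exact ⟨c • x, V.smul_mem c hx, (M.isInt_smul hc hxi).1, (M.isInt_smul hc hxi).2⟩

theorem mem_redSub {V : Submodule L F} {s : Fk} :
    s ∈ M.redSub V ↔ ∃ x ∈ V, M.IsInt x ∧ M.red x = s := Iff.rfl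

/-- The reduced lattice of `V` is finite-dimensional, of the dimension of `V`. -/
theorem finite_and_finrank_redSub (V : Submodule L F) [Module.Finite L V] :
    Module.Finite (ResidueField A) (M.redSub V) ∧
      Module.finrank (ResidueField A) (M.redSub V) = Module.finrank L V := by
  classical
  have : Module.Free L V := Module.Free.of_divisionRing L V
  let b := Module.finBasis L V
  obtain ⟨Q, hQ, hQF, hQb⟩ := M.exists_common_denom fun i => (b i : F)
  set q : F := ⟨ιS A Q, hQF⟩ with hq
  have hqQ : (q : LaurentSeries L) = ιS A Q := rfl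
  have hq0 : q ≠ 0 := fun e => hQ (by
    rw [show Q = 0 from ιS_injective (by rw [map_zero, ← hqQ, e]; rfl), map_zero])
  have hqred : (M.red q : LaurentSeries (ResidueField A)) = redS A Q := (M.isInt_series hqQ).2
  have hqred0 : M.red q ≠ 0 := fun e => hQ (by rw [← hqred, e]; rfl)
  -- the space `q • V` consists of bounded series
  have hbdd : ∀ v ∈ V, Bdd A (((q * v : F)) : LaurentSeries L) := by
    intro v hv
    have hdec := congrArg V.subtype (b.sum_repr ⟨v, hv⟩)
    rw [map_sum] at hdec
    rw [← show _ = v from hdec, Finset.mul_sum, AddSubmonoidClass.coe_finsetSum]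
    refine Bdd.sum _ _ fun i _ => ?_
    rw [map_smul, mul_smul_comm, coe_smul_intermediateField, MulMemClass.coe_mul]
    exact (hQb i).single_mul _
  set W : Submodule L F := V.map (LinearMap.mulLeft L q) with hW
  have hWmem : ∀ w ∈ W, ∃ v ∈ V, w = q * v := by
    rintro _ ⟨v, hv, rfl⟩; exact ⟨v, hv, rfl⟩
  have hinj : Function.Injective (LinearMap.mulLeft L q) := fun a c h =>
    mul_left_cancel₀ hq0 h
  have hWdim : Module.finrank L W = Module.finrank L V :=
    (Submodule.equivMapOfInjective _ hinj V).finrank_eq.symm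
  have : Module.Finite L W :=
    Module.Finite.equiv (Submodule.equivMapOfInjective _ hinj V)
  have hscal : Scalable A W := by
    intro w hw hw0
    obtain ⟨c, hc, hi, hr⟩ := M.exists_scale hw0
    obtain ⟨v, hv, rfl⟩ := hWmem w hw
    have hb : Bdd A (((c • (q * v) : F)) : LaurentSeries L) := by
      rw [coe_smul_intermediateField]; exact (hbdd v hv).single_mul c
    obtain ⟨y, hy, hy'⟩ := M.exists_series hi hb
    exact ⟨c, y, hy, fun e => hr (Subtype.ext (by rw [hy', e]; rfl))⟩
  obtain ⟨B⟩ := exists_pivotBasis W hscal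
  rw [hWdim] at B
  choose v hv hvq using fun i => hWmem _ (B.el_mem i)
  -- the reductions of `el i / q`
  have helred : ∀ i, M.IsInt (v i) ∧ M.red q * M.red (v i) = M.red (B.el i) := by
    intro i
    have hi := M.isInt_series (B.coe_el i)
    have hvi : v i = B.el i * q⁻¹ := by rw [hvq i, mul_comm q, mul_assoc, mul_inv_cancel₀ hq0,
      mul_one]
    have hqi := M.isInt_inv (M.isInt_series hqQ).1 hqred0
    rw [hvi]
    obtain ⟨h1, h2⟩ := M.isInt_mul hi.1 hqi.1
    refine ⟨h1, ?_⟩
    rw [h2, hqi.2]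
    field_simp
  set r : Fin (Module.finrank L V) → Fk := fun i => M.red (v i) with hr
  have hcoe : ∀ a : Fin (Module.finrank L V) → ResidueField A,
      ((M.red q * ∑ i, a i • r i : Fk) : LaurentSeries (ResidueField A)) =
        ∑ i, HahnSeries.single 0 (a i) * redS A (B.vec i) := by
    intro a
    rw [Finset.mul_sum, AddSubmonoidClass.coe_finsetSum]
    refine Finset.sum_congr rfl fun i _ => ?_
    rw [mul_smul_comm, (helred i).2, Algebra.smul_def, MulMemClass.coe_mul,
      IntermediateField.coe_algebraMap_apply, algebraMap_laurentSeries_eq_single,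
      (M.isInt_series (B.coe_el i)).2]
  have hli : LinearIndependent (ResidueField A) r := by
    rw [Fintype.linearIndependent_iff]
    intro a ha i
    refine congrFun (B.eq_zero_of_sum_eq_zero a ?_) i
    rw [← hcoe a, ha, mul_zero]
    rfl
  have hspan : M.redSub V = Submodule.span (ResidueField A) (Set.range r) := by
    refine le_antisymm ?_ ?_
    · rintro _ ⟨x, hx, hxi, rfl⟩
      obtain ⟨hqxi, hqx⟩ := M.isInt_mul (M.isInt_series hqQ).1 hxi
      obtain ⟨y, hy, hy'⟩ := M.exists_series hqxi (hbdd x hx)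
      have hW' : q * x ∈ W := ⟨x, hx, rfl⟩
      refine (Submodule.mem_span_range_iff_exists_fun _).mpr
        ⟨fun i => residue A (y.coeff (B.idx i)), mul_left_cancel₀ hqred0 (Subtype.ext ?_)⟩
      rw [hcoe, ← hqx, hy', B.redS_decomp hW' hy]
    · rw [Submodule.span_le]
      rintro _ ⟨i, rfl⟩
      exact ⟨v i, hv i, (helred i).1, rfl⟩
  rw [hspan]
  exact ⟨Module.Finite.span_of_finite _ (Set.finite_range r), by
    rw [finrank_span_eq_card hli, Fintype.card_fin]⟩

/-- The reduced lattice of `V` has the dimension of `V`. -/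
theorem finrank_redSub (V : Submodule L F) [Module.Finite L V] :
    Module.finrank (ResidueField A) (M.redSub V) = Module.finrank L V :=
  (M.finite_and_finrank_redSub V).2

end GoodModel

end Fermat.Agent.Reduction
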