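import Fermat.Agent.Reduction.GenusLe

/-!
# Normal reduced charts: the genus does not drop

If every function downstairs without poles at finite `j̄` (resp. at `j̄ ≠ 0`) is the reduction of
such a function upstairs, then `ℓ(m·(j̄)_∞) = ℓ(m·(j)_∞)` for large `m`.
-/

set_option autoImplicit false
set_option linter.unusedSectionVars false

noncomputable section

namespace Fermat.Agent.Reduction

open IsLocalRing AlgebraicCurve IntermediateField Fermat.Agent.FunctionFieldRR

variable {L : Type*} [Field L] {A : ValuationSubring L}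
  {F : IntermediateField L (LaurentSeries L)}
  {Fk : IntermediateField (ResidueField A) (LaurentSeries (ResidueField A))}
  [IsAlgClosed L] [IsFunctionField L F] [IsAlgClosed (ResidueField A)]
  [IsFunctionField (ResidueField A) Fk]
  [HasPrincipalDivisors L F] [HasPrincipalDivisors (ResidueField A) Fk]

namespace GoodModel

variable (M : GoodModel A F Fk)

theorem isInt_jF : M.IsInt M.jF ∧ M.red M.jF = M.jK :=
  have h := M.isInt_series (x := M.jF) (y := M.j) rfl
  ⟨h.1, Subtype.ext h.2⟩

/-- `L(n·(j)_∞)`. -/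
def upSpace (n : ℕ) : Submodule L F := riemannRochSpace (n • polesOf (K := L) M.jF)

/-- `L(n·(j̄)_∞)`. -/
def downSpace (n : ℕ) : Submodule (ResidueField A) Fk :=
  riemannRochSpace (n • polesOf (K := ResidueField A) M.jK)

theorem mem_upSpace_succ_of_mem {n : ℕ} {f : F} (hf : f ∈ M.upSpace n) :
    f ∈ M.upSpace (n + 1) :=
  rr_mono (nsmul_le_nsmul_left (polesOf_nonneg _) n.le_succ) hf

theorem mul_mem_upSpace {n : ℕ} {f : F} (hf : f ∈ M.upSpace n) :
    M.jF * f ∈ M.upSpace (n + 1) := by
  have h := rr_mul (mem_rr_polesOf (K := L) M.jF) hf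
  rwa [upSpace, succ_nsmul, add_comm]

theorem mem_redSub_succ_of_mem {n : ℕ} {s : Fk} (hs : s ∈ M.redSub (M.upSpace n)) :
    s ∈ M.redSub (M.upSpace (n + 1)) := by
  obtain ⟨x, hx, h1, h2⟩ := hs
  exact ⟨x, M.mem_upSpace_succ_of_mem hx, h1, h2⟩

theorem mem_redSub_of_le {n m : ℕ} (h : n ≤ m) {s : Fk} (hs : s ∈ M.redSub (M.upSpace n)) :
    s ∈ M.redSub (M.upSpace m) := by
  induction h with
  | refl => exact hs
  | step _ ih => exact M.mem_redSub_succ_of_mem ih

theorem pow_mul_mem_redSub {n : ℕ} {s : Fk} (hs : s ∈ M.redSub (M.upSpace n)) (a : ℕ) :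
    M.jK ^ a * s ∈ M.redSub (M.upSpace (n + a)) := by
  induction a with
  | zero => simpa using hs
  | succ a ih =>
    obtain ⟨x, hx, h1, h2⟩ := ih
    obtain ⟨h3, h4⟩ := M.isInt_mul M.isInt_jF.1 h1
    exact ⟨M.jF * x, M.mul_mem_upSpace hx, h3, by
      rw [h4, h2, M.isInt_jF.2, pow_succ, mul_comm (M.jK ^ a) M.jK, mul_assoc]⟩

theorem mem_downSpace_iff {n : ℕ} {s : Fk} (hs : s ≠ 0) :
    s ∈ M.downSpace n ↔
      ∀ v : Place (ResidueField A) Fk, -((n : ℤ) * max (-v.ord M.jK) 0) ≤ v.ord s := by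
  rw [downSpace, mem_rr hs]
  refine forall_congr' fun v => ?_
  rw [Finsupp.smul_apply, polesOf_apply, nsmul_eq_mul]

theorem jK_ne_zero : M.jK ≠ 0 := fun h => M.toSeriesModel.transcendental_jK (h ▸ isAlgebraic_zero)

theorem jF_ne_zero : M.jF ≠ 0 := fun h => M.toSeriesModel.transcendental_jF (h ▸ isAlgebraic_zero)

variable {g' : ℤ} {c : ℕ}

/-- Downstairs `L((n+2)Z̄) = L((n+1)Z̄) + j̄ L((n+1)Z̄)` in large degree. -/
theorem downSpace_le_sup
    (hdown : ∀ n : ℕ, c ≤ n → (Module.finrank (ResidueField A) (M.downSpace n) : ℤ) =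
      (n : ℤ) * Divisor.degree (polesOf (K := ResidueField A) M.jK) + 1 - g')
    (hfin : ∀ n : ℕ, Module.Finite (ResidueField A) (M.downSpace n)) {n : ℕ} (hn : c ≤ n) :
    M.downSpace (n + 2) ≤
      M.downSpace (n + 1) ⊔ (M.downSpace (n + 1)).map (LinearMap.mulLeft (ResidueField A) M.jK) := by
  set W := M.downSpace
  set μ := LinearMap.mulLeft (ResidueField A) M.jK with hμ
  have hinj : Function.Injective μ := fun a b h => mul_left_cancel₀ M.jK_ne_zero h
  have hW : ∀ n, W n ≤ W (n + 1) := fun n =>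
    rr_mono (nsmul_le_nsmul_left (polesOf_nonneg _) n.le_succ)
  have hmap : ∀ n, (W n).map μ ≤ W (n + 1) := by
    rintro n _ ⟨s, hs, rfl⟩
    have h := rr_mul (mem_rr_polesOf (K := ResidueField A) M.jK) hs
    simp only [W, downSpace, succ_nsmul, hμ, LinearMap.mulLeft_apply] at hs ⊢
    rwa [add_comm]
  have hle : W (n + 1) ⊔ (W (n + 1)).map μ ≤ W (n + 2) := sup_le (hW _) (hmap _)
  have hinf : W (n + 1) ⊓ (W (n + 1)).map μ ≤ (W n).map μ := by
    rintro _ ⟨h1, s, hs, rfl⟩
    refine ⟨s, ?_, rfl⟩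
    rcases eq_or_ne s 0 with rfl | hs0
    · exact (W n).zero_mem
    have hj := M.jK_ne_zero
    have h1' := (M.mem_downSpace_iff (mul_ne_zero hj hs0)).mp h1
    have h2' := (M.mem_downSpace_iff hs0).mp hs
    refine (M.mem_downSpace_iff hs0).mpr fun v => ?_
    have e1 := h1' v
    rw [v.ord_mul hj hs0] at e1
    have e2 := h2' v
    push_cast at e1 e2 ⊢
    rcases le_total (-v.ord M.jK) 0 with h | h
    · rw [max_eq_right h] at e2 ⊢; linarith
    · rw [max_eq_left h] at e1 ⊢; linarith
  have := hfin n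
  have := hfin (n + 1)
  have := hfin (n + 2)
  have hmn : ∀ m, Module.finrank (ResidueField A) ((W m).map μ) =
      Module.finrank (ResidueField A) (W m) := fun m =>
    (Submodule.equivMapOfInjective μ hinj (W m)).finrank_eq.symm
  have hsum := Submodule.finrank_sup_add_finrank_inf_eq (W (n + 1)) ((W (n + 1)).map μ)
  have : Module.Finite (ResidueField A) ((W n).map μ) := Module.Finite.map (W n) μ
  have h1 := Submodule.finrank_mono hinf
  rw [hmn] at h1 hsum
  refine le_of_eq (Submodule.eq_of_le_of_finrank_le hle ?_).symm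
  have e0 := hdown n hn
  have e1 := hdown (n + 1) (by omega)
  have e2 := hdown (n + 2) (by omega)
  push_cast at e1 e2
  rw [add_mul] at e1 e2
  simp only [W] at e0 e1 e2 hsum h1 ⊢
  omega

include M in
/-- If both reduced charts contain all regular functions, the genus does not drop. -/
theorem genus_le_of_charts {g : ℤ}
    (hup : ∀ n : ℕ, c ≤ n → (Module.finrank L (M.upSpace n) : ℤ) =
      (n : ℤ) * Divisor.degree (polesOf (K := L) M.jF) + 1 - g)
    (hdown : ∀ n : ℕ, c ≤ n → (Module.finrank (ResidueField A) (M.downSpace n) : ℤ) =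
      (n : ℤ) * Divisor.degree (polesOf (K := ResidueField A) M.jK) + 1 - g')
    (hdeg : Divisor.degree (polesOf (K := ResidueField A) M.jK) =
      Divisor.degree (polesOf (K := L) M.jF))
    (hfinUp : ∀ n : ℕ, Module.Finite L (M.upSpace n))
    (hfin : ∀ n : ℕ, Module.Finite (ResidueField A) (M.downSpace n))
    (hzero : ∀ s : Fk, (∀ v : Place (ResidueField A) Fk, 0 ≤ v.ord M.jK → 0 ≤ v.ord s) →
      ∃ n, s ∈ M.redSub (M.upSpace n))
    (hinfty : ∀ s : Fk, (∀ v : Place (ResidueField A) Fk, v.ord M.jK ≤ 0 → 0 ≤ v.ord s) →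
      ∃ n, M.jK ^ n * s ∈ M.redSub (M.upSpace n)) :
    g ≤ g' := by
  classical
  set W := M.downSpace
  set n₀ := c + 1 with hn₀
  have := hfin n₀
  have : Module.Free (ResidueField A) (W n₀) := Module.Free.of_divisionRing _ _
  let b := Module.finBasis (ResidueField A) (W n₀)
  -- both ways of pushing the basis into the reduced lattices
  have hb : ∀ i, ∃ k, (b i : Fk) ∈ M.redSub (M.upSpace (n₀ + k)) ∧
      M.jK ^ k * (b i : Fk) ∈ M.redSub (M.upSpace (n₀ + k)) := by
    intro i
    have hw := (b i).2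
    have hs0 : (b i : Fk) ≠ 0 := fun h => b.ne_zero i (Subtype.ext h)
    have hw' := (M.mem_downSpace_iff hs0).mp hw
    obtain ⟨n₁, h₁⟩ := hzero (b i : Fk) fun v hv => by
      have := hw' v
      rw [max_eq_right (by omega), mul_zero, neg_zero] at this
      exact this
    have hj := M.jK_ne_zero
    obtain ⟨n₂, h₂⟩ := hinfty ((b i : Fk) / M.jK ^ n₀) fun v hv => by
      have := hw' v
      rw [max_eq_left (by omega)] at this
      rw [ord_div v hs0 (pow_ne_zero _ hj), ord_pow]
      nlinarith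
    refine ⟨n₁ + n₂, M.mem_redSub_of_le (by omega) h₁, ?_⟩
    have h₃ := M.pow_mul_mem_redSub h₂ (n₀ + n₁)
    have e : M.jK ^ (n₀ + n₁) * (M.jK ^ n₂ * ((b i : Fk) / M.jK ^ n₀)) =
        M.jK ^ (n₁ + n₂) * (b i : Fk) := by
      field_simp
      ring
    rw [e] at h₃
    exact M.mem_redSub_of_le (by omega) h₃
  choose k hk hk' using hb
  set K₀ := Finset.univ.sup k with hK₀
  have hkK : ∀ i, k i ≤ K₀ := fun i => Finset.le_sup (Finset.mem_univ i)
  -- `W (n₀ + t)` is spanned by `j̄^a • W n₀`, `a ≤ t`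
  have hgen : ∀ t, W (n₀ + t) ≤ Submodule.span (ResidueField A)
      {s | ∃ a ≤ t, ∃ i, s = M.jK ^ a * (b i : Fk)} := by
    intro t
    induction t with
    | zero =>
      intro s hs
      have hdec := congrArg (W n₀).subtype (b.sum_repr ⟨s, hs⟩)
      rw [map_sum] at hdec
      rw [← show _ = s from hdec]
      refine Submodule.sum_mem _ fun i _ => ?_
      rw [map_smul]
      exact Submodule.smul_mem _ _ (Submodule.subset_span ⟨0, le_rfl, i, by simp⟩)
    | succ t ih =>
      have h := M.downSpace_le_sup hdown hfin (n := c + t) (by omega)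
      rw [show c + t + 2 = n₀ + (t + 1) by omega, show c + t + 1 = n₀ + t by omega] at h
      refine h.trans (sup_le (ih.trans (Submodule.span_mono ?_)) ?_)
      · rintro _ ⟨a, ha, i, rfl⟩
        exact ⟨a, by omega, i, rfl⟩
      · refine (Submodule.map_mono ih).trans ?_
        rw [Submodule.map_span, Submodule.span_le]
        rintro _ ⟨_, ⟨a, ha, i, rfl⟩, rfl⟩
        exact Submodule.subset_span
          ⟨a + 1, by omega, i, by rw [LinearMap.mulLeft_apply, pow_succ]; ring⟩
  set n := n₀ + (K₀ + K₀) with hn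
  have hle : W n ≤ M.redSub (M.upSpace n) := by
    refine (hgen (K₀ + K₀)).trans (Submodule.span_le.mpr ?_)
    rintro _ ⟨a, ha, i, rfl⟩
    rcases le_total a (k i) with h | h
    · exact M.mem_redSub_of_le (by have := hkK i; omega) (M.pow_mul_mem_redSub (hk i) a)
    · have h' := M.pow_mul_mem_redSub (hk' i) (a - k i)
      rw [← mul_assoc, ← pow_add, Nat.sub_add_cancel h] at h'
      exact M.mem_redSub_of_le (by omega) h'
  have := hfinUp n
  have := (M.finite_and_finrank_redSub (M.upSpace n)).1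
  have h1 := Submodule.finrank_mono hle
  rw [M.finrank_redSub] at h1
  have e1 := hup n (by omega)
  have e2 := hdown n (by omega)
  rw [hdeg] at e2
  have h1' : Module.finrank (ResidueField A) (M.downSpace n) ≤
      Module.finrank L (M.upSpace n) := h1
  omega

end GoodModel

end Fermat.Agent.Reduction
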