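import Fermat.Agent.Reduction.GenusCriterion
import Fermat.Agent.Reduction.ChartNormal

/-!
# Normality of the reduced charts of `X₀(N)` gives the reduction facts
-/

set_option autoImplicit false

noncomputable section

namespace Fermat.Agent.Reduction

open IsLocalRing ModularCurve AlgebraicCurve IntermediateField Fermat.Agent.FunctionFieldRR

variable {N ℓ : ℕ} [NeZero N] [Fact ℓ.Prime] (A : ValuationSubring (AlgebraicClosure ℚ))

/-- Reductions of integral series of functions without poles where `j` is finite. -/
def finiteChartRed (N : ℕ) : Set (modularFunctionFieldFullC (ResidueField A) N) :=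
  {z | ∃ (y : LaurentSeries A) (f : modularFunctionFieldBar N),
    (f : LaurentSeries (AlgebraicClosure ℚ)) = ιS A y ∧
    redS A y = (z : LaurentSeries (ResidueField A)) ∧
    ∀ P : Place (AlgebraicClosure ℚ) (modularFunctionFieldBar N),
      0 ≤ P.ord (jBar N) → 0 ≤ P.ord f}

/-- Reductions of integral series of functions without poles where `1/j` is finite. -/
def inftyChartRed (N : ℕ) : Set (modularFunctionFieldFullC (ResidueField A) N) :=
  {z | ∃ (y : LaurentSeries A) (f : modularFunctionFieldBar N),
    (f : LaurentSeries (AlgebraicClosure ℚ)) = ιS A y ∧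
    redS A y = (z : LaurentSeries (ResidueField A)) ∧
    ∀ P : Place (AlgebraicClosure ℚ) (modularFunctionFieldBar N),
      P.ord (jBar N) ≤ 0 → 0 ≤ P.ord f}

variable {A}

/-- If the reduced charts are spanned by reductions of chart functions, the genus does not drop. -/
theorem genus0_le_genusC_of_charts (hA : A.LiesOverPrime ℓ) [IsAlgClosed (ResidueField A)]
    (hN : (N : ResidueField A) ≠ 0)
    (hzero : ∀ s : modularFunctionFieldFullC (ResidueField A) N,
      (∀ v : Place (ResidueField A) (modularFunctionFieldFullC (ResidueField A) N),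
        0 ≤ v.ord (jC (ResidueField A) N) → 0 ≤ v.ord s) →
      s ∈ Submodule.span (ResidueField A) (finiteChartRed A N))
    (hinfty : ∀ s : modularFunctionFieldFullC (ResidueField A) N,
      (∀ v : Place (ResidueField A) (modularFunctionFieldFullC (ResidueField A) N),
        v.ord (jC (ResidueField A) N) ≤ 0 → 0 ≤ v.ord s) →
      s ∈ Submodule.span (ResidueField A) (inftyChartRed A N)) :
    genus0 N ≤ genusC (ResidueField A) N hN := by
  classical
  have hbar := finiteDimensional_jBar N
  have hC := finiteDimensional_jC (ResidueField A) N hN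
  have := isSeparable_jBar N
  have := isSeparable_jC (ResidueField A) N hN
  have : IsFunctionField (AlgebraicClosure ℚ) (modularFunctionFieldBar N) :=
    IsFunctionField.of_finiteDimensional _ (transcendental_jBar N)
  have : IsFunctionField (ResidueField A) (modularFunctionFieldFullC (ResidueField A) N) :=
    IsFunctionField.of_finiteDimensional _ (transcendental_jC _ N)
  have := (hasPrincipalDivisors :
    HasPrincipalDivisors (AlgebraicClosure ℚ) (modularFunctionFieldBar N))
  have := (hasPrincipalDivisors :
    HasPrincipalDivisors (ResidueField A) (modularFunctionFieldFullC (ResidueField A) N))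
  set M := modularGoodModelOf A N hA hbar hC (by rw [finrank_jBar, finrank_jC _ N hN]) with hM
  have hjF : M.jF = jBar N := modularSeriesModel_jF A N
  have hjK : M.jK = jC (ResidueField A) N := modularSeriesModel_jK A N
  have hdeg0 : Divisor.degree (polesOf (K := AlgebraicClosure ℚ) M.jF) = dedekindPsi N := by
    rw [hjF, show polesOf (jBar N) = polarDivisor (jBar N) from
      Finsupp.ext fun v => by rw [polesOf_apply, polarDivisor_apply],
      degree_polarDivisor (transcendental_jBar N), finrank_jBar]
  have hdegK : Divisor.degree (polesOf (K := ResidueField A) M.jK) = dedekindPsi N := by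
    rw [hjK, show polesOf (jC (ResidueField A) N) = polarDivisor (jC (ResidueField A) N) from
      Finsupp.ext fun v => by rw [polesOf_apply, polarDivisor_apply],
      degree_polarDivisor (transcendental_jC _ N), finrank_jC _ N hN]
  have hpsi : (1 : ℤ) ≤ dedekindPsi N := by exact_mod_cast dedekindPsi_pos N
  set gK := genusC (ResidueField A) N hN with hgK
  set c : ℕ := 2 * genus0 N + 2 * gK with hc
  have key := M.genus_le_of_charts (g := genus0 N) (g' := gK) (c := c)
    (fun n hn => ?_) (fun n hn => ?_) (by rw [hdeg0, hdegK])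
    (fun n => ?_) (fun n => ?_) (fun s hs => ?_) (fun s hs => ?_)
  · exact_mod_cast key
  · refine (finrank_eq_of_degree_gt (transcendental_jBar N) ?_).trans ?_
    · rw [map_nsmul, hdeg0, nsmul_eq_mul]
      show 2 * (genus0 N : ℤ) - 2 < _
      nlinarith
    · rw [map_nsmul, nsmul_eq_mul]
      rfl
  · refine (finrank_eq_of_degree_gt (transcendental_jC _ N) ?_).trans ?_
    · rw [map_nsmul, hdegK, nsmul_eq_mul]
      show 2 * (gK : ℤ) - 2 < _
      nlinarith
    · rw [map_nsmul, nsmul_eq_mul]
      rfl
  · exact finite_rr _
  · exact finite_rr _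
  · rw [hjK] at hs
    refine Submodule.span_induction ?_ ⟨0, Submodule.zero_mem _⟩ ?_ ?_ (hzero s hs)
    · rintro z ⟨y, f, hf, hz, hpol⟩
      obtain ⟨h1, h2⟩ := M.isInt_series hf
      refine ⟨(Divisor.degree (polesOf (K := AlgebraicClosure ℚ) f)).toNat,
        f, ?_, h1, Subtype.ext (h2.trans hz)⟩
      rw [GoodModel.upSpace, mem_riemannRochSpace_iff]
      intro P
      refine or_iff_not_imp_left.mpr fun _ => ?_
      rw [Finsupp.smul_apply, polesOf_apply, hjF, nsmul_eq_mul]
      rcases le_or_gt 0 (P.ord (jBar N)) with h | h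
      · rw [max_eq_right (by omega), mul_zero, neg_zero]; exact hpol P h
      · rw [max_eq_left (by omega)]
        have := apply_le_degree (polesOf_nonneg (K := AlgebraicClosure ℚ) f) P
        rw [polesOf_apply] at this
        have := Int.self_le_toNat (Divisor.degree (polesOf (K := AlgebraicClosure ℚ) f))
        have := le_max_left (-P.ord f) 0
        nlinarith
    · rintro x y - - ⟨n, hx⟩ ⟨m, hy⟩
      exact ⟨max n m, Submodule.add_mem _ (M.mem_redSub_of_le (le_max_left n m) hx)
        (M.mem_redSub_of_le (le_max_right n m) hy)⟩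
    · rintro a x - ⟨n, hx⟩
      exact ⟨n, Submodule.smul_mem _ a hx⟩
  · rw [hjK] at hs ⊢
    have hjF0 : jBar N ≠ 0 := hjF ▸ M.jF_ne_zero
    suffices h : ∃ n, ∀ m, n ≤ m →
        jC (ResidueField A) N ^ m * s ∈ M.redSub (M.upSpace m) from
      let ⟨n, hn⟩ := h; ⟨n, hn n le_rfl⟩
    refine Submodule.span_induction ?_ ⟨0, fun m _ => by rw [mul_zero]; exact Submodule.zero_mem _⟩
      ?_ ?_ (hinfty s hs)
    · rintro z ⟨y, f, hf, hz, hpol⟩
      obtain ⟨h1, h2⟩ := M.isInt_series hf
      obtain ⟨h3, h4⟩ := M.isInt_jF
      refine ⟨(Divisor.degree (polesOf (K := AlgebraicClosure ℚ) f)).toNat, fun m hm => ?_⟩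
      obtain ⟨h5, h6⟩ := M.isInt_mul (M.isInt_pow h3 m).1 h1
      refine ⟨M.jF ^ m * f, ?_, h5, ?_⟩
      · rw [GoodModel.upSpace, mem_riemannRochSpace_iff]
        intro P
        refine or_iff_not_imp_left.mpr fun h0 => ?_
        rw [hjF] at h0 ⊢
        have hf0 : f ≠ 0 := right_ne_zero_of_mul h0
        rw [Finsupp.smul_apply, polesOf_apply, nsmul_eq_mul,
          P.ord_mul (pow_ne_zero _ hjF0) hf0, ord_pow]
        rcases le_or_gt (P.ord (jBar N)) 0 with h | h
        · rw [max_eq_left (by omega)]
          have := hpol P h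
          nlinarith
        · rw [max_eq_right (by omega), mul_zero, neg_zero]
          have := apply_le_degree (polesOf_nonneg (K := AlgebraicClosure ℚ) f) P
          rw [polesOf_apply] at this
          have := Int.self_le_toNat (Divisor.degree (polesOf (K := AlgebraicClosure ℚ) f))
          have := le_max_left (-P.ord f) 0
          nlinarith
      · rw [h6, (M.isInt_pow h3 m).2, h4, hjK, show M.red f = z from Subtype.ext (h2.trans hz)]
    · rintro x y - - ⟨n, hx⟩ ⟨m, hy⟩
      refine ⟨max n m, fun k hk => ?_⟩
      rw [mul_add]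
      exact Submodule.add_mem _ (hx k (le_trans (le_max_left n m) hk))
        (hy k (le_trans (le_max_right n m) hk))
    · rintro a x - ⟨n, hx⟩
      exact ⟨n, fun m hm => by rw [mul_smul_comm]; exact Submodule.smul_mem _ a (hx m hm)⟩

end Fermat.Agent.Reduction
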