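import Fermat.Agent.Reduction.Interface
import Fermat.Agent.FunctionFieldRR.PlaceExists

/-!
# Riemann–Roch spaces: elementary facts

Divisors of functions, dimensions of Riemann–Roch spaces, and the degree of a function as
the degree of its pole divisor.
-/

set_option autoImplicit false

noncomputable section

namespace Fermat.Agent.Reduction

open AlgebraicCurve Fermat.Agent.FunctionFieldRR IntermediateField Polynomial

variable {K F : Type*} [Field K] [Field F] [Algebra K F]

/-- A complement of `W` in `V`, as a family of vectors. -/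
theorem exists_family_compl {M : Type*} [AddCommGroup M] [Module K M] (W V : Submodule K M)
    [Module.Finite K V] (h : W ≤ V) :
    ∃ (k : ℕ) (s : Fin k → M), (∀ i, s i ∈ V) ∧
      Module.finrank K W + k = Module.finrank K V ∧
      ∀ c : Fin k → K, ∑ i, c i • s i ∈ W → c = 0 := by
  obtain ⟨U, hU⟩ := (W.comap V.subtype).exists_isCompl
  let u := Module.finBasis K U
  refine ⟨Module.finrank K U, fun i => ((u i : V) : M), fun i => (u i : V).2, ?_, fun c hc => ?_⟩
  · rw [← (Submodule.comapSubtypeEquivOfLe h).finrank_eq]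
    exact Submodule.finrank_add_eq_of_isCompl hU
  · have hmem : (∑ i, c i • (u i : V)) ∈ W.comap V.subtype ⊓ U :=
      ⟨by simpa using hc, Submodule.sum_mem _ fun j _ => Submodule.smul_mem _ _ (u j).2⟩
    rw [hU.inf_eq_bot, Submodule.mem_bot] at hmem
    refine funext (Fintype.linearIndependent_iff.mp u.linearIndependent c ?_)
    exact Subtype.ext (by simpa using hmem)

theorem mem_rr {D : Divisor K F} {f : F} (hf : f ≠ 0) :
    f ∈ riemannRochSpace D ↔ ∀ v : Place K F, -D v ≤ v.ord f := by
  simp [mem_riemannRochSpace_iff, hf]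

theorem rr_mono {D E : Divisor K F} (h : D ≤ E) : riemannRochSpace D ≤ riemannRochSpace E := by
  intro f hf
  rcases eq_or_ne f 0 with rfl | h0
  · exact zero_mem _
  rw [mem_rr h0] at hf ⊢
  exact fun v => le_trans (neg_le_neg (Finsupp.le_def.mp h v)) (hf v)

theorem rr_mul {D E : Divisor K F} {f g : F} (hf : f ∈ riemannRochSpace D)
    (hg : g ∈ riemannRochSpace E) : f * g ∈ riemannRochSpace (D + E) := by
  rcases eq_or_ne f 0 with rfl | hf0
  · simp
  rcases eq_or_ne g 0 with rfl | hg0
  · simp
  rw [mem_rr hf0] at hf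
  rw [mem_rr hg0] at hg
  rw [mem_rr (mul_ne_zero hf0 hg0)]
  intro v
  rw [v.ord_mul hf0 hg0, Finsupp.add_apply]
  linarith [hf v, hg v]

theorem one_mem_rr {D : Divisor K F} (hD : 0 ≤ D) : (1 : F) ∈ riemannRochSpace D := by
  rw [mem_rr one_ne_zero]
  intro v
  simpa using Finsupp.le_def.mp hD v

theorem rr_pow {D : Divisor K F} {f : F} (hf : f ∈ riemannRochSpace D) (n : ℕ) :
    f ^ n ∈ riemannRochSpace (n • D) := by
  induction n with
  | zero => simpa using one_mem_rr (D := (0 : Divisor K F)) le_rfl
  | succ n ih => rw [pow_succ, succ_nsmul]; exact rr_mul ih hf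

theorem algebraMap_mem_rr {D : Divisor K F} (hD : 0 ≤ D) (c : K) :
    algebraMap K F c ∈ riemannRochSpace D := by
  rw [Algebra.algebraMap_eq_smul_one]
  exact Submodule.smul_mem _ c (one_mem_rr hD)

section Divs

variable [HasPrincipalDivisors K F]

open Classical in
/-- The divisor of a function (zero for the zero function). -/
def dvs (f : F) : Divisor K F :=
  if h : f ≠ 0 then (HasPrincipalDivisors.exists_divisor f h).choose else 0

theorem dvs_apply (f : F) (v : Place K F) : dvs (K := K) f v = v.ord f := by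
  rcases eq_or_ne f 0 with rfl | h
  · simp [dvs]
  · rw [dvs, dif_pos h]
    exact (HasPrincipalDivisors.exists_divisor f h).choose_spec.1 v

theorem degree_dvs (f : F) : Divisor.degree (dvs (K := K) f) = 0 := by
  rcases eq_or_ne f 0 with rfl | h
  · simp [dvs]
  · rw [dvs, dif_pos h]
    exact (HasPrincipalDivisors.exists_divisor f h).choose_spec.2

theorem eq_dvs {f : F} {D : Divisor K F} (h : ∀ v, D v = v.ord f) : D = dvs f :=
  Finsupp.ext fun v => by rw [h, dvs_apply]

theorem dvs_mul {f g : F} (hf : f ≠ 0) (hg : g ≠ 0) :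
    dvs (K := K) (f * g) = dvs f + dvs g :=
  Finsupp.ext fun v => by simp [dvs_apply, v.ord_mul hf hg]

theorem dvs_pow (f : F) (n : ℕ) : dvs (K := K) (f ^ n) = n • dvs f :=
  Finsupp.ext fun v => by simp [dvs_apply, ord_pow]

theorem dvs_div {f g : F} (hf : f ≠ 0) (hg : g ≠ 0) :
    dvs (K := K) (f / g) = dvs f - dvs g :=
  Finsupp.ext fun v => by simp [dvs_apply, ord_div v hf hg]

theorem dvs_algebraMap (c : K) : dvs (algebraMap K F c) = (0 : Divisor K F) :=
  Finsupp.ext fun v => by simp [dvs_apply, ord_algebraMap]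

theorem dvs_smul {c : K} (hc : c ≠ 0) {f : F} (hf : f ≠ 0) :
    dvs (K := K) (c • f) = dvs f := by
  rw [Algebra.smul_def, dvs_mul (by simpa using hc) hf, dvs_algebraMap, zero_add]

theorem mem_rr_iff_dvs {D : Divisor K F} {f : F} (hf : f ≠ 0) :
    f ∈ riemannRochSpace D ↔ 0 ≤ D + dvs f := by
  rw [mem_rr hf, Finsupp.le_def]
  refine forall_congr' fun v => ?_
  rw [Finsupp.zero_apply, Finsupp.add_apply, dvs_apply]
  constructor <;> intro h <;> linarith

/-- The divisor of poles. -/
def polesOf (f : F) : Divisor K F :=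
  Finsupp.mapRange (fun n => max (-n) 0) (by simp) (dvs f)

theorem polesOf_apply (f : F) (v : Place K F) : polesOf (K := K) f v = max (-v.ord f) 0 := by
  simp [polesOf, dvs_apply]

theorem polesOf_nonneg (f : F) : 0 ≤ polesOf (K := K) f :=
  Finsupp.le_def.mpr fun v => by simp [polesOf_apply]

theorem mem_rr_polesOf (f : F) : f ∈ riemannRochSpace (polesOf (K := K) f) := by
  rw [mem_riemannRochSpace_iff]
  intro v
  right
  rw [polesOf_apply]
  have := le_max_left (-v.ord f) 0
  linarith

end Divs

theorem degree_nonneg_of_nonneg {D : Divisor K F} (hD : 0 ≤ D) : 0 ≤ Divisor.degree D := by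
  rw [show Divisor.degree D = D.sum fun v n => n * (v.deg : ℤ) from
    Finsupp.liftAddHom_apply _ _]
  exact Finset.sum_nonneg fun v _ => mul_nonneg (Finsupp.le_def.mp hD v) (Int.natCast_nonneg _)

theorem degree_mono {D E : Divisor K F} (h : D ≤ E) : Divisor.degree D ≤ Divisor.degree E := by
  have := degree_nonneg_of_nonneg (sub_nonneg.mpr h)
  rw [map_sub] at this
  linarith

variable [IsAlgClosed K] [IsFunctionField K F]

theorem apply_le_degree {D : Divisor K F} (hD : 0 ≤ D) (v : Place K F) :
    D v ≤ Divisor.degree D := by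
  classical
  rw [degree_eq_sum]
  by_cases hv : v ∈ D.support
  · exact Finset.single_le_sum (f := fun w => D w) (fun w _ => Finsupp.le_def.mp hD w) hv
  · rw [Finsupp.notMem_support_iff.mp hv]
    exact Finset.sum_nonneg fun w _ => Finsupp.le_def.mp hD w

theorem eq_zero_of_degree_eq_zero {D : Divisor K F} (hD : 0 ≤ D)
    (h : Divisor.degree D = 0) : D = 0 :=
  Finsupp.ext fun v => le_antisymm ((apply_le_degree hD v).trans h.le) (Finsupp.le_def.mp hD v)

theorem eq_single_of_degree_eq_one {D : Divisor K F} (hD : 0 ≤ D)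
    (h : Divisor.degree D = 1) : ∃ Q, D = Finsupp.single Q 1 := by
  classical
  obtain ⟨Q, hQ⟩ : ∃ Q, D Q ≠ 0 := by
    by_contra hall
    push Not at hall
    rw [show D = 0 from Finsupp.ext hall, map_zero] at h
    omega
  have h1 : (1 : ℤ) ≤ D Q := by
    have : (0 : ℤ) ≤ D Q := Finsupp.le_def.mp hD Q
    omega
  refine ⟨Q, (sub_eq_zero.mp (eq_zero_of_degree_eq_zero ?_ ?_))⟩
  · refine Finsupp.le_def.mpr fun v => ?_
    have h0 : (0 : ℤ) ≤ D v := Finsupp.le_def.mp hD v
    rcases eq_or_ne Q v with rfl | hv <;> simp [*]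
  · rw [map_sub, h, Divisor.degree_single, deg_eq_one]; simp

/-- `L(D + P)` is at most one dimension bigger than `L(D)`. -/
theorem exists_le_sup_span (D : Divisor K F) (P : Place K F) :
    ∃ z : F, riemannRochSpace (D + Finsupp.single P 1) ≤
      riemannRochSpace D ⊔ Submodule.span K {z} := by
  classical
  by_cases h : riemannRochSpace (D + Finsupp.single P 1) ≤ riemannRochSpace D
  · exact ⟨0, h.trans le_sup_left⟩
  obtain ⟨z, hz, hzD⟩ := SetLike.not_le_iff_exists.mp h
  refine ⟨z, fun f hf => ?_⟩
  have hz0 : z ≠ 0 := fun e => hzD (e ▸ zero_mem _)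
  have hz' := (mem_rr hz0).mp hz
  have hzP : P.ord z = -D P - 1 := by
    by_contra hne
    refine hzD ((mem_rr hz0).mpr fun v => ?_)
    have := hz' v
    rcases eq_or_ne P v with rfl | hv
    · simp only [Finsupp.add_apply, Finsupp.single_eq_same] at this
      omega
    · simpa [hv, hv.symm] using this
  rcases eq_or_ne f 0 with rfl | hf0
  · exact zero_mem _
  have hf' := (mem_rr hf0).mp hf
  have hfP := hf' P
  simp only [Finsupp.add_apply, Finsupp.single_eq_same] at hfP
  have hmem : f / z ∈ P.toValuationSubring := by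
    rw [mem_iff P (div_ne_zero hf0 hz0), ord_div P hf0 hz0]
    omega
  obtain ⟨c, hc⟩ := exists_residue P hmem
  refine Submodule.mem_sup.mpr ⟨f - c • z, ?_, c • z,
    Submodule.smul_mem _ c (Submodule.mem_span_singleton_self z), sub_add_cancel _ _⟩
  rw [mem_riemannRochSpace_iff]
  intro v
  rcases eq_or_ne P v with rfl | hv
  · have h1 := hc.mul (g := z) (m' := P.ord z) (Or.inr le_rfl)
    have e : (f / z - algebraMap K F c) * z = f - c • z := by
      rw [sub_mul, div_mul_cancel₀ _ hz0, Algebra.smul_def]
    rw [e] at h1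
    exact h1.imp_right fun h => by omega
  · have := (mem_riemannRochSpace_iff.mp
      (sub_mem hf (Submodule.smul_mem _ c hz))) v
    simpa [hv, hv.symm] using this

theorem rr_zero : riemannRochSpace (0 : Divisor K F) = Submodule.span K {1} := by
  refine le_antisymm (fun f hf => ?_) (Submodule.span_le.mpr (Set.singleton_subset_iff.mpr
    (one_mem_rr le_rfl)))
  have : ∀ P : Place K F, 0 ≤ P.ord f := fun P => by
    rcases mem_riemannRochSpace_iff.mp hf P with h | h
    · simp [h]
    · simpa using h
  obtain ⟨c, rfl⟩ := exists_algebraMap_eq_of_forall_ord_nonneg this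
  rw [Algebra.algebraMap_eq_smul_one]
  exact Submodule.smul_mem _ c (Submodule.mem_span_singleton_self 1)

theorem finite_and_finrank_rr_le_of_nonneg (n : ℕ) :
    ∀ D : Divisor K F, 0 ≤ D → Divisor.degree D = n →
      Module.Finite K (riemannRochSpace D) ∧
        (Module.finrank K (riemannRochSpace D) : ℤ) ≤ n + 1 := by
  induction n with
  | zero =>
    intro D hD h
    rw [eq_zero_of_degree_eq_zero hD (by simpa using h), rr_zero]
    refine ⟨inferInstance, ?_⟩
    rw [finrank_span_singleton (one_ne_zero : (1 : F) ≠ 0)]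
    simp
  | succ n ih =>
    intro D hD h
    obtain ⟨P, hP⟩ : ∃ P, D P ≠ 0 := by
      by_contra hall
      push Not at hall
      rw [show D = 0 from Finsupp.ext hall, map_zero] at h
      omega
    have hD' : 0 ≤ D - Finsupp.single P 1 := Finsupp.le_def.mpr fun v => by
      have h0 : (0 : ℤ) ≤ D v := Finsupp.le_def.mp hD v
      rcases eq_or_ne P v with rfl | hv
      · simp; omega
      · simp [hv.symm, h0]
    obtain ⟨hfin, hle⟩ := ih _ hD' (by
      rw [map_sub, h, Divisor.degree_single, deg_eq_one]; push_cast; ring)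
    obtain ⟨z, hz⟩ := exists_le_sup_span (D - Finsupp.single P 1) P
    rw [sub_add_cancel] at hz
    have hsup : Module.Finite K
        ↥(riemannRochSpace (D - Finsupp.single P 1) ⊔ Submodule.span K {z}) := inferInstance
    refine ⟨Submodule.finiteDimensional_of_le hz, ?_⟩
    have h1 := Submodule.finrank_mono hz
    have h2 := Submodule.finrank_add_le_finrank_add_finrank
      (riemannRochSpace (D - Finsupp.single P 1)) (Submodule.span K {z})
    have h3 : Module.finrank K (Submodule.span K ({z} : Set F)) ≤ 1 :=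
      finrank_span_le_card ({z} : Set F) |>.trans (by simp)
    push_cast at hle ⊢
    linarith [(Int.ofNat_le.mpr h1), (Int.ofNat_le.mpr h2), (Int.ofNat_le.mpr h3)]

instance finite_rr (D : Divisor K F) : Module.Finite K (riemannRochSpace D) := by
  have h0 : (0 : Divisor K F) ≤ D ⊔ 0 := le_sup_right
  have := (finite_and_finrank_rr_le_of_nonneg _ (D ⊔ 0) h0
    (Int.toNat_of_nonneg (degree_nonneg_of_nonneg h0)).symm).1
  exact Submodule.finiteDimensional_of_le (rr_mono (le_sup_left : D ≤ D ⊔ 0))

theorem finrank_rr_le {D : Divisor K F} (hD : 0 ≤ D) :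
    (Module.finrank K (riemannRochSpace D) : ℤ) ≤ Divisor.degree D + 1 := by
  obtain ⟨n, hn⟩ := Int.eq_ofNat_of_zero_le (degree_nonneg_of_nonneg hD)
  rw [hn]
  exact (finite_and_finrank_rr_le_of_nonneg n D hD hn).2

section Degree

variable [HasPrincipalDivisors K F]

theorem exists_eq_algebraMap_of_dvs_eq_zero {f : F} (h : dvs (K := K) f = 0) :
    ∃ c : K, f = algebraMap K F c := by
  refine exists_algebraMap_eq_of_forall_ord_nonneg fun P => ?_
  rw [← dvs_apply, h]
  simp

theorem eq_zero_of_mem_rr_of_degree_neg {D : Divisor K F} (hD : Divisor.degree D < 0) {f : F}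
    (hf : f ∈ riemannRochSpace D) : f = 0 := by
  by_contra h0
  have := degree_nonneg_of_nonneg ((mem_rr_iff_dvs h0).mp hf)
  rw [map_add, degree_dvs, add_zero] at this
  omega

/-- `[F : K(y)]` is at most the degree of the divisor of poles of `y`. -/
theorem finrank_le_degree_polesOf {y : F} (hy : Transcendental K y) :
    (Module.finrank K⟮y⟯ F : ℤ) ≤ Divisor.degree (polesOf (K := K) y) := by
  classical
  have := finiteDimensional_adjoin hy
  set d := Module.finrank K⟮y⟯ F with hd
  set B := polesOf (K := K) y with hB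
  let z := Module.finBasis K⟮y⟯ F
  set C : Divisor K F := ∑ i, polesOf (z i) with hC
  have hC0 : 0 ≤ C := Finset.sum_nonneg fun i _ => polesOf_nonneg _
  have hzC : ∀ i, z i ∈ riemannRochSpace C := fun i => rr_mono
    (Finset.single_le_sum (f := fun i => polesOf (K := K) (z i))
      (fun i _ => polesOf_nonneg _) (Finset.mem_univ i)) (mem_rr_polesOf _)
  have key : ∀ n : ℕ, ((n + 1) * d : ℤ) ≤ n * Divisor.degree B + Divisor.degree C + 1 := by
    intro n
    have hli : LinearIndependent K fun p : Fin (n + 1) × Fin d => y ^ (p.1 : ℕ) * z p.2 := by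
      rw [Fintype.linearIndependent_iff]
      intro c hc p
      have hc' : ∑ i : Fin d, (∑ a : Fin (n + 1),
          c (a, i) • (AdjoinSimple.gen K y) ^ (a : ℕ) : K⟮y⟯) • z i = 0 := by
        rw [← hc, Fintype.sum_prod_type, Finset.sum_comm]
        refine Finset.sum_congr rfl fun i _ => ?_
        rw [Finset.sum_smul]
        refine Finset.sum_congr rfl fun a _ => ?_
        simp [IntermediateField.smul_def, Algebra.smul_def, mul_assoc]
      have h0 := Fintype.linearIndependent_iff.mp z.linearIndependent _ hc' p.2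
      have h1 : Polynomial.aeval y (∑ a : Fin (n + 1), Polynomial.C (c (a, p.2)) * X ^ (a : ℕ)) = 0 := by
        have := congrArg Subtype.val h0
        simpa [Algebra.smul_def, map_sum] using this
      have h2 := (transcendental_iff.mp hy) _ h1
      have h3 := congrArg (fun q : K[X] => q.coeff p.1) h2
      simpa [coeff_X_pow, Fin.val_inj] using h3
    have hmem : ∀ p : Fin (n + 1) × Fin d,
        y ^ (p.1 : ℕ) * z p.2 ∈ riemannRochSpace (n • B + C) := by
      intro p
      refine rr_mul (rr_mono ?_ (rr_pow (mem_rr_polesOf y) p.1)) (hzC p.2)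
      exact nsmul_le_nsmul_left (polesOf_nonneg y) (by omega)
    have hli' : LinearIndependent K fun p : Fin (n + 1) × Fin d =>
        (⟨_, hmem p⟩ : riemannRochSpace (n • B + C)) :=
      LinearIndependent.of_comp (riemannRochSpace (n • B + C)).subtype hli
    have h1 := hli'.fintype_card_le_finrank
    rw [Fintype.card_prod, Fintype.card_fin, Fintype.card_fin] at h1
    have h2 := finrank_rr_le (D := n • B + C) (add_nonneg (nsmul_nonneg (polesOf_nonneg y) n) hC0)
    rw [map_add, map_nsmul, nsmul_eq_mul] at h2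
    have h1' : (((n + 1) * d : ℕ) : ℤ) ≤ _ := Int.ofNat_le.mpr h1
    push_cast at h1'
    linarith
  by_contra hlt
  push Not at hlt
  have := key (Divisor.degree C + 1).toNat
  have hge := Int.self_le_toNat (Divisor.degree C + 1)
  have hN : (0 : ℤ) ≤ ((Divisor.degree C + 1).toNat : ℤ) := Int.natCast_nonneg _
  have h1 : Divisor.degree B + 1 ≤ (d : ℤ) := by omega
  nlinarith [mul_le_mul_of_nonneg_left h1 hN, degree_nonneg_of_nonneg hC0,
    degree_nonneg_of_nonneg (polesOf_nonneg (K := K) y)]

variable {g : ℤ}

/-- The degree of the divisor of poles of `y` is at most `[F : K(y)]`, given Riemann–Roch in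
large degree. -/
theorem degree_polesOf_le_finrank
    (hlow : ∀ D : Divisor K F,
      Divisor.degree D + 1 - g ≤ (Module.finrank K (riemannRochSpace D) : ℤ))
    (hup : GenusAtLeast K F g) {y : F} (hy : Transcendental K y) :
    Divisor.degree (polesOf (K := K) y) ≤ (Module.finrank K⟮y⟯ F : ℤ) := by
  classical
  have := finiteDimensional_adjoin hy
  obtain ⟨c, hc⟩ := hup
  set B := polesOf (K := K) y with hB
  have hb : 0 ≤ Divisor.degree B := degree_nonneg_of_nonneg (polesOf_nonneg y)
  rcases hb.eq_or_lt with hb0 | hb1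
  · rw [← hb0]; positivity
  set n := c.toNat with hn
  set V := riemannRochSpace ((n + 1) • B) with hV
  set W := riemannRochSpace (n • B) with hW
  have hWV : W ≤ V := rr_mono (nsmul_le_nsmul_left (polesOf_nonneg y) (Nat.le_succ n))
  obtain ⟨k, s, hsV, hdim, hsW⟩ := exists_family_compl W V hWV
  have hk : Divisor.degree B ≤ (k : ℤ) := by
    have hge := Int.self_le_toNat c
    have h3 := hc (n • B) (by rw [map_nsmul, nsmul_eq_mul]; nlinarith)
    have h4 := hlow ((n + 1) • B)
    rw [map_nsmul, nsmul_eq_mul] at h3 h4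
    have h1 : (Module.finrank K W : ℤ) + k = Module.finrank K V := by exact_mod_cast hdim
    push_cast at h4
    linarith
  have hy0 : y⁻¹ ≠ 0 := inv_ne_zero fun h => hy (h ▸ isAlgebraic_zero)
  have hli : LinearIndependent K⟮y⁻¹⟯ s := by
    refine linearIndependent_adjoin_simple hy0 s fun φ hrel i => ?_
    -- the combination with constant coefficients has smaller poles
    set w : F := ∑ j, (φ j).coeff 0 • s j with hw
    have hwrel : w = - ∑ j, (y⁻¹ * aeval y⁻¹ (φ j).divX) * s j := by
      rw [eq_neg_iff_add_eq_zero, ← hrel, hw, ← Finset.sum_add_distrib]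
      refine Finset.sum_congr rfl fun j _ => ?_
      conv_rhs => rw [← X_mul_divX_add (φ j)]
      rw [map_add, map_mul, aeval_C, aeval_X, Algebra.smul_def]
      ring
    have hwV : w ∈ V := Submodule.sum_mem _ fun j _ => Submodule.smul_mem _ _ (hsV j)
    have hwW : w ∈ W := by
      refine mem_riemannRochSpace_iff.mpr fun v => ?_
      rcases le_or_gt 0 (v.ord y) with hv | hv
      · have hBv : B v = 0 := by rw [hB, polesOf_apply, max_eq_right (by omega)]
        simpa [hBv] using mem_riemannRochSpace_iff.mp hwV v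
      · have hBv : B v = -v.ord y := by rw [hB, polesOf_apply, max_eq_left (by omega)]
        rw [hwrel]
        refine ((VanishesTo.sum _ _ fun j _ => ?_).neg : VanishesTo v (-((n • B) v)) _)
        have h1 : VanishesTo v (-v.ord y) y⁻¹ := Or.inr (by rw [v.ord_inv])
        have h2 : VanishesTo v 0 (aeval y⁻¹ (φ j).divX) :=
          (vanishesTo_zero_iff v).2 (aeval_mem v.toValuationSubring v.algebraMap_mem'
            ((ord_nonneg_iff _ _).1 (by rw [v.ord_inv]; omega)) _)
        have h3 : VanishesTo v (-(((n + 1) • B) v)) (s j) :=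
          mem_riemannRochSpace_iff.mp (hsV j) v
        refine ((h1.mul h2).mul h3).mono (le_of_eq ?_)
        rw [Finsupp.smul_apply, Finsupp.smul_apply, hBv, nsmul_eq_mul, nsmul_eq_mul]
        push_cast
        ring
    exact congrFun (hsW _ hwW) i
  have hinv : K⟮y⁻¹⟯ = K⟮y⟯ := by
    refine le_antisymm (adjoin_simple_le_iff.mpr (inv_mem (mem_adjoin_simple_self K y)))
      (adjoin_simple_le_iff.mpr ?_)
    simpa using inv_mem (mem_adjoin_simple_self K y⁻¹)
  rw [hinv] at hli
  have h1 := hli.fintype_card_le_finrank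
  rw [Fintype.card_fin] at h1
  linarith [Int.ofNat_le.mpr h1]

end Degree

end Fermat.Agent.Reduction
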