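import Fermat.Agent.Reduction.Model

/-!
# The Gauss valuation ring of a series model

Every function is a constant times a ratio of two integral series with nonzero reductions in
the reduced field. This gives the reduction ring `SeriesModel.integral` and the reduction map.
-/

set_option autoImplicit false

noncomputable section

namespace Fermat.Agent.Reduction

open IsLocalRing ModularCurve HahnSeries IntermediateField Polynomial

variable {L : Type*} [Field L] {A : ValuationSubring L}
  {F : IntermediateField L (LaurentSeries L)}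
  {Fk : IntermediateField (ResidueField A) (LaurentSeries (ResidueField A))}

/-- A series of order `-1` is transcendental over the constants. -/
theorem transcendental_of_coeff_neg_one {K : Type*} [Field K]
    {E : IntermediateField K (LaurentSeries K)} (x : E)
    (h1 : (x : LaurentSeries K).coeff (-1) = 1)
    (h2 : ∀ n < -1, (x : LaurentSeries K).coeff n = 0) : Transcendental K x := by
  set y : LaurentSeries K := (x : LaurentSeries K) with hy
  have hy0 : y ≠ 0 := fun e => one_ne_zero (α := K) (by rw [← h1, e]; rfl)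
  have hord : y.order = -1 := le_antisymm
    (HahnSeries.order_le_of_coeff_ne_zero (by rw [h1]; exact one_ne_zero))
    (not_lt.mp fun hlt => hy0 (HahnSeries.coeff_order_eq_zero.mp (h2 _ hlt)))
  have hpow : ∀ (n : ℕ), (y ^ n).order = -n := fun n => by
    rw [HahnSeries.order_pow, hord]; simp
  refine transcendental_iff.mpr fun p hp => ?_
  by_contra hp0
  have hcoe : (Polynomial.aeval x p : E) = (0 : E) := hp
  have hval : p.eval₂ (algebraMap K (LaurentSeries K)) y = 0 := by
    have := congrArg E.val hcoe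
    rw [← Polynomial.aeval_algHom_apply, map_zero] at this
    exact this
  have hc := congrArg (fun z : LaurentSeries K => z.coeff (-(p.natDegree : ℤ))) hval
  simp only [Polynomial.eval₂_eq_sum_range, HahnSeries.coeff_sum, HahnSeries.coeff_zero,
    algebraMap_laurentSeries_eq_single, coeff_single_zero_mul] at hc
  rw [Finset.sum_eq_single p.natDegree] at hc
  · have hlead : (y ^ p.natDegree).coeff (-(p.natDegree : ℤ)) ≠ 0 := by
      rw [← hpow]
      exact fun e => pow_ne_zero _ hy0 (HahnSeries.coeff_order_eq_zero.mp e)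
    rcases mul_eq_zero.mp hc with h | h
    · exact hp0 (Polynomial.leadingCoeff_eq_zero.mp h)
    · exact hlead h
  · intro i hi hne
    have : i < p.natDegree := lt_of_le_of_ne (Nat.lt_succ_iff.mp (Finset.mem_range.mp hi)) hne
    rw [HahnSeries.coeff_eq_zero_of_lt_order (x := y ^ i) (by rw [hpow]; omega), mul_zero]
  · simp

namespace SeriesModel

variable (M : SeriesModel A F Fk)

theorem transcendental_jF : Transcendental L M.jF := by
  refine transcendental_of_coeff_neg_one _ ?_ fun n hn => ?_
  · rw [coe_jF, coeffMap_coeff, M.coeff_j, map_one]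
  · rw [coe_jF, coeffMap_coeff, M.coeff_j_of_lt n hn, map_zero]

theorem transcendental_jK : Transcendental (ResidueField A) M.jK := by
  refine transcendental_of_coeff_neg_one _ ?_ fun n hn => ?_
  · rw [coe_jK, coeffMap_coeff, M.coeff_j, map_one]
  · rw [coe_jK, coeffMap_coeff, M.coeff_j_of_lt n hn, map_zero]

/-- A polynomial with integral coefficients evaluated at `j`. -/
def evalJ : A[X] →+* LaurentSeries A := Polynomial.eval₂RingHom HahnSeries.C M.j

theorem ι_evalJ (p : A[X]) :
    ιS A (M.evalJ p) = ((aeval M.jF (p.map A.subtype) : F) : LaurentSeries L) := by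
  induction p using Polynomial.induction_on' with
  | add p q hp hq => rw [map_add, map_add, Polynomial.map_add, map_add, hp, hq]; rfl
  | monomial n a =>
    rw [evalJ, coe_eval₂RingHom, eval₂_monomial, map_mul, map_pow, Polynomial.map_monomial,
      aeval_monomial, MulMemClass.coe_mul, SubmonoidClass.coe_pow, coe_jF,
      IntermediateField.coe_algebraMap_apply, algebraMap_laurentSeries_eq_single,
      HahnSeries.C_apply, ιS_single]
    rfl

theorem red_evalJ (p : A[X]) :
    redS A (M.evalJ p) =
      ((aeval M.jK (p.map (residue A)) : Fk) : LaurentSeries (ResidueField A)) := by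
  induction p using Polynomial.induction_on' with
  | add p q hp hq => rw [map_add, map_add, Polynomial.map_add, map_add, hp, hq]; rfl
  | monomial n a =>
    rw [evalJ, coe_eval₂RingHom, eval₂_monomial, map_mul, map_pow, Polynomial.map_monomial,
      aeval_monomial, MulMemClass.coe_mul, SubmonoidClass.coe_pow, coe_jK,
      IntermediateField.coe_algebraMap_apply, algebraMap_laurentSeries_eq_single,
      HahnSeries.C_apply, redS_single]

variable [FiniteDimensional (ResidueField A)⟮M.jK⟯ Fk]

/-- A basis of `Fk` over `k(j̄)` consists of reductions of polynomials in the generators. -/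
theorem exists_lift_basis :
    ∃ b : Fin (Module.finrank (ResidueField A)⟮M.jK⟯ Fk) → LaurentSeries A,
      (∀ i, b i ∈ Subring.closure M.gens) ∧
      ∃ e : Fin (Module.finrank (ResidueField A)⟮M.jK⟯ Fk) → Fk,
        (∀ i, (e i : LaurentSeries (ResidueField A)) = redS A (b i)) ∧
        LinearIndependent (ResidueField A)⟮M.jK⟯ e := by
  classical
  set S : Set Fk :=
    {x | ∃ y ∈ Subring.closure M.gens, (x : LaurentSeries (ResidueField A)) = redS A y} with hS
  have hSmul : ∀ x ∈ S, ∀ x' ∈ S, x * x' ∈ S := by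
    rintro x ⟨y, hy, hxy⟩ x' ⟨y', hy', hxy'⟩
    exact ⟨y * y', mul_mem hy hy', by rw [MulMemClass.coe_mul, hxy, hxy', map_mul]⟩
  have hS1 : (1 : Fk) ∈ S := ⟨1, one_mem _, by rw [map_one]; rfl⟩
  set T : Subalgebra (ResidueField A)⟮M.jK⟯ Fk :=
    (Submodule.span (ResidueField A)⟮M.jK⟯ S).toSubalgebra (Submodule.subset_span hS1)
      (fun x x' hx hx' => by
        have := Submodule.mul_mem_mul hx hx'
        rw [Submodule.span_mul_span] at this
        exact Submodule.span_mono (Set.mul_subset_iff.mpr hSmul) this) with hT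
  have hTtop : ∀ x : Fk, x ∈ T := by
    let G : IntermediateField (ResidueField A) Fk :=
      { (T.restrictScalars (ResidueField A)) with
        inv_mem' := fun x hx =>
          Subalgebra.inv_mem_of_algebraic T (x := ⟨x, hx⟩)
            ((IsIntegral.of_finite _ _).isAlgebraic) }
    have hgen : Fk ≤ IntermediateField.lift G := by
      refine (le_of_eq M.red_eq).trans ?_
      rw [IntermediateField.adjoin_le_iff]
      rintro _ ⟨y, hy, rfl⟩
      rw [SetLike.mem_coe]
      exact ⟨⟨_, M.red_gens_mem hy⟩,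
        Submodule.subset_span ⟨y, Subring.subset_closure hy, rfl⟩, rfl⟩
    intro x
    exact (IntermediateField.mem_lift x).mp (hgen x.2)
  obtain ⟨t, htS, htspan, htli⟩ :=
    exists_linearIndependent (ResidueField A)⟮M.jK⟯ S
  have htop : ⊤ ≤ Submodule.span (ResidueField A)⟮M.jK⟯ (Set.range ((↑) : t → Fk)) := by
    rw [Subtype.range_coe, htspan]
    exact fun x _ => hTtop x
  let Bt := Module.Basis.mk htli htop
  let ev := Bt.indexEquiv (Module.finBasis (ResidueField A)⟮M.jK⟯ Fk)
  choose y hy hye using fun i => htS (ev.symm i).2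
  exact ⟨y, hy, fun i => (ev.symm i : t), hye, htli.comp _ ev.symm.injective⟩

/-- The chosen lifted basis. -/
def basisLift : Fin (Module.finrank (ResidueField A)⟮M.jK⟯ Fk) → LaurentSeries A :=
  M.exists_lift_basis.choose

theorem basisLift_mem (i) : ιS A (M.basisLift i) ∈ F ∧ redS A (M.basisLift i) ∈ Fk :=
  M.mem_of_mem_closure (M.exists_lift_basis.choose_spec.1 i)

/-- An integral combination `∑ pᵢ(j) bᵢ` of the lifted basis. -/
def comb (p : Fin (Module.finrank (ResidueField A)⟮M.jK⟯ Fk) → A[X]) : LaurentSeries A :=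
  ∑ i, M.evalJ (p i) * M.basisLift i

theorem comb_mem (p : Fin (Module.finrank (ResidueField A)⟮M.jK⟯ Fk) → A[X]) :
    ιS A (M.comb p) ∈ F ∧ redS A (M.comb p) ∈ Fk := by
  rw [comb, map_sum, map_sum]
  refine ⟨sum_mem fun i _ => ?_, sum_mem fun i _ => ?_⟩
  · rw [map_mul, ι_evalJ]; exact mul_mem (SetLike.coe_mem _) (M.basisLift_mem i).1
  · rw [map_mul, red_evalJ]; exact mul_mem (SetLike.coe_mem _) (M.basisLift_mem i).2

theorem red_comb_ne_zero {p : Fin (Module.finrank (ResidueField A)⟮M.jK⟯ Fk) → A[X]}
    (hp : ∃ i, (p i).map (residue A) ≠ 0) : redS A (M.comb p) ≠ 0 := by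
  classical
  obtain ⟨e, he, hli⟩ := M.exists_lift_basis.choose_spec.2
  intro h
  let a : Fin (Module.finrank (ResidueField A)⟮M.jK⟯ Fk) → (ResidueField A)⟮M.jK⟯ := fun i =>
    ⟨aeval M.jK ((p i).map (residue A)),
      algebra_adjoin_le_adjoin _ _ (aeval_mem_adjoin_singleton _ _)⟩
  have hsum : ∑ i, a i • e i = 0 := by
    apply Subtype.val_injective
    rw [ZeroMemClass.coe_zero, ← h, comb, map_sum, AddSubmonoidClass.coe_finsetSum]
    refine Finset.sum_congr rfl fun i _ => ?_
    rw [IntermediateField.smul_def, smul_eq_mul, map_mul, red_evalJ, MulMemClass.coe_mul, he]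
    rfl
  obtain ⟨i, hi⟩ := hp
  have := congrArg Subtype.val (Fintype.linearIndependent_iff.mp hli a hsum i)
  exact hi (transcendental_iff.mp M.transcendental_jK _ this)

theorem linearIndependent_basisLift :
    LinearIndependent L⟮M.jF⟯ fun i => (⟨_, (M.basisLift_mem i).1⟩ : F) := by
  classical
  rw [Fintype.linearIndependent_iff]
  intro a ha i
  by_contra hai
  choose p s hs hps using fun i => exists_aeval_mul_eq M.transcendental_jF (a i)
  -- clear denominators
  let P : Fin (Module.finrank (ResidueField A)⟮M.jK⟯ Fk) → L[X] := fun l =>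
    p l * ∏ m ∈ Finset.univ.erase l, s m
  have hsum : ∑ l, aeval M.jF (P l) * (⟨_, (M.basisLift_mem l).1⟩ : F) = 0 := by
    have : aeval M.jF (∏ m, s m) * ∑ l, (a l : F) * (⟨_, (M.basisLift_mem l).1⟩ : F) = 0 := by
      have e : ∑ l, (a l : F) * (⟨_, (M.basisLift_mem l).1⟩ : F) = 0 := ha
      rw [e, mul_zero]
    rw [← this, Finset.mul_sum]
    refine Finset.sum_congr rfl fun l _ => ?_
    rw [← Finset.mul_prod_erase Finset.univ s (Finset.mem_univ l), map_mul, map_mul, ← hps]
    ring
  have hP : P i ≠ 0 := by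
    refine mul_ne_zero (fun h => hai ?_) (Finset.prod_ne_zero_iff.mpr fun m _ => hs m)
    have h' := hps i
    rw [h, map_zero] at h'
    exact Subtype.ext ((mul_eq_zero.mp h').resolve_left
      fun e => hs i (transcendental_iff.mp M.transcendental_jF _ e))
  set d := Finset.univ.sup (fun l => (P l).natDegree) with hd
  obtain ⟨c₀, b, hc₀, hb, ⟨⟨l₀, n₀⟩, hone⟩⟩ := exists_scale A
    (fun x : Fin (Module.finrank (ResidueField A)⟮M.jK⟯ Fk) × Fin (d + 1) => (P x.1).coeff x.2)
    ⟨⟨i, ⟨(P i).natDegree, Nat.lt_succ_of_le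
      (Finset.le_sup (f := fun l => (P l).natDegree) (Finset.mem_univ i))⟩⟩,
      by simpa using hP⟩
  let q : Fin (Module.finrank (ResidueField A)⟮M.jK⟯ Fk) → A[X] := fun l =>
    ∑ n : Fin (d + 1), Polynomial.C (b (l, n)) * Polynomial.X ^ (n : ℕ)
  have hq : ∀ l, P l = Polynomial.C c₀ * (q l).map A.subtype := fun l => by
    conv_lhs => rw [Polynomial.as_sum_range' (P l) (d + 1)
      (Nat.lt_succ_of_le (Finset.le_sup (f := fun l => (P l).natDegree) (Finset.mem_univ l)))]
    rw [← Fin.sum_univ_eq_sum_range (fun k => monomial k ((P l).coeff k)), Polynomial.map_sum,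
      Finset.mul_sum]
    refine Finset.sum_congr rfl fun n _ => ?_
    rw [Polynomial.map_mul, Polynomial.map_pow, Polynomial.map_C, Polynomial.map_X, ← mul_assoc,
      ← map_mul, ← C_mul_X_pow_eq_monomial]
    exact congrArg (fun z => Polynomial.C z * _) (hb (l, n))
  have hcomb : ιS A (M.comb q) = 0 := by
    have h0 := congrArg (Subtype.val : F → LaurentSeries L) hsum
    simp only [hq, map_mul, aeval_C, AddSubmonoidClass.coe_finsetSum, MulMemClass.coe_mul,
      ZeroMemClass.coe_zero, mul_assoc, ← Finset.mul_sum] at h0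
    rw [comb, map_sum]
    refine (Finset.sum_congr rfl fun l _ => ?_).trans ((mul_eq_zero.mp h0).resolve_left ?_)
    · rw [map_mul, ι_evalJ]
    · rw [IntermediateField.coe_algebraMap_apply, algebraMap_laurentSeries_eq_single]
      simpa using hc₀
  refine M.red_comb_ne_zero (p := q) ⟨l₀, fun h => ?_⟩ ?_
  · have := congrArg (fun z : (ResidueField A)[X] => z.coeff n₀) h
    simp [q, Polynomial.map_sum, coeff_X_pow, Fin.val_inj, hone] at this
  · rw [show M.comb q = 0 from ιS_injective (by rw [hcomb, map_zero]), map_zero]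

variable [FiniteDimensional L⟮M.jF⟯ F]
  (hdeg : Module.finrank L⟮M.jF⟯ F ≤ Module.finrank (ResidueField A)⟮M.jK⟯ Fk)

include hdeg in
/-- Every nonzero function is a constant times a ratio of integral series with nonzero
reductions lying in the reduced field. -/
theorem exists_rep {x : F} (hx : x ≠ 0) :
    ∃ (c : L) (P Q : LaurentSeries A), c ≠ 0 ∧
      ιS A Q * (x : LaurentSeries L) = HahnSeries.single 0 c * ιS A P ∧
      ιS A P ∈ F ∧ ιS A Q ∈ F ∧ redS A P ∈ Fk ∧ redS A Q ∈ Fk ∧
      redS A P ≠ 0 ∧ redS A Q ≠ 0 := by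
  classical
  have hli := M.linearIndependent_basisLift
  have hspan : Submodule.span L⟮M.jF⟯
      (Set.range fun i => (⟨_, (M.basisLift_mem i).1⟩ : F)) = ⊤ := by
    refine hli.span_eq_top_of_card_eq_finrank' ?_
    refine le_antisymm ?_ ?_
    · exact hli.fintype_card_le_finrank
    · rw [Fintype.card_fin]; exact hdeg
  obtain ⟨a, ha⟩ := (Submodule.mem_span_range_iff_exists_fun _).mp
    (hspan ▸ Submodule.mem_top : x ∈ _)
  choose p s hs hps using fun i => exists_aeval_mul_eq M.transcendental_jF (a i)
  set S₀ := ∏ m, s m with hS₀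
  let P : Fin (Module.finrank (ResidueField A)⟮M.jK⟯ Fk) → L[X] := fun l =>
    p l * ∏ m ∈ Finset.univ.erase l, s m
  have hsum : aeval M.jF S₀ * x =
      ∑ l, aeval M.jF (P l) * (⟨_, (M.basisLift_mem l).1⟩ : F) := by
    rw [← ha, Finset.mul_sum]
    refine Finset.sum_congr rfl fun l _ => ?_
    rw [hS₀, ← Finset.mul_prod_erase Finset.univ s (Finset.mem_univ l), map_mul, map_mul, ← hps]
    rw [IntermediateField.smul_def, smul_eq_mul]
    ring
  have hS₀0 : S₀ ≠ 0 := Finset.prod_ne_zero_iff.mpr fun m _ => hs m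
  set d := max S₀.natDegree (Finset.univ.sup (fun l => (P l).natDegree)) with hd
  -- scale numerator and denominator separately
  have hscale : ∀ (T : L[X]), T.natDegree ≤ d →
      ∀ (c₀ : L) (b : Fin (d + 1) → A), (∀ n : Fin (d + 1), T.coeff n = c₀ * (b n : L)) →
      T = Polynomial.C c₀ *
        (∑ n : Fin (d + 1), Polynomial.C (b n) * Polynomial.X ^ (n : ℕ)).map A.subtype := by
    intro T hT c₀ b hb
    conv_lhs => rw [Polynomial.as_sum_range' T (d + 1) (Nat.lt_succ_of_le hT)]
    rw [← Fin.sum_univ_eq_sum_range (fun k => monomial k (T.coeff k)), Polynomial.map_sum,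
      Finset.mul_sum]
    refine Finset.sum_congr rfl fun n _ => ?_
    rw [Polynomial.map_mul, Polynomial.map_pow, Polynomial.map_C, Polynomial.map_X, ← mul_assoc,
      ← map_mul, ← C_mul_X_pow_eq_monomial]
    exact congrArg (fun z => Polynomial.C z * _) (hb n)
  have hx' : ∃ l, P l ≠ 0 := by
    by_contra hall
    push Not at hall
    simp only [hall, map_zero, zero_mul, Finset.sum_const_zero, mul_eq_zero] at hsum
    exact hsum.elim (fun h => hS₀0 (transcendental_iff.mp M.transcendental_jF _ h)) hx
  obtain ⟨cs, bs, hcs, hbs, ns, hns⟩ := exists_scale A (fun n : Fin (d + 1) => S₀.coeff n)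
    ⟨⟨S₀.natDegree, Nat.lt_succ_of_le (le_max_left _ _)⟩, by simpa using hS₀0⟩
  have hPd : ∀ l, (P l).natDegree ≤ d := fun l =>
    (Finset.le_sup (f := fun l => (P l).natDegree) (Finset.mem_univ l)).trans (le_max_right _ _)
  obtain ⟨cp, bp, hcp, hbp, ⟨lp, np⟩, hnp⟩ := exists_scale A
    (fun z : Fin (Module.finrank (ResidueField A)⟮M.jK⟯ Fk) × Fin (d + 1) => (P z.1).coeff z.2)
    (by
      obtain ⟨l, hl⟩ := hx'
      exact ⟨⟨l, ⟨(P l).natDegree, Nat.lt_succ_of_le (hPd l)⟩⟩, by simpa using hl⟩)
  let qs : A[X] := ∑ n : Fin (d + 1), Polynomial.C (bs n) * Polynomial.X ^ (n : ℕ)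
  let qp : Fin (Module.finrank (ResidueField A)⟮M.jK⟯ Fk) → A[X] := fun l =>
    ∑ n : Fin (d + 1), Polynomial.C (bp (l, n)) * Polynomial.X ^ (n : ℕ)
  have hqs : S₀ = Polynomial.C cs * qs.map A.subtype :=
    hscale S₀ (le_max_left _ _) cs bs hbs
  have hqp : ∀ l, P l = Polynomial.C cp * (qp l).map A.subtype := fun l =>
    hscale (P l) (hPd l) cp (fun n => bp (l, n)) fun n => hbp (l, n)
  have hQ0 : redS A (M.evalJ qs) ≠ 0 := by
    rw [red_evalJ]
    intro h
    have h' := transcendental_iff.mp M.transcendental_jK _ (Subtype.ext h)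
    have := congrArg (fun z : (ResidueField A)[X] => z.coeff ns) h'
    simp [qs, Polynomial.map_sum, coeff_X_pow, Fin.val_inj, hns] at this
  refine ⟨cp / cs, M.comb qp, M.evalJ qs, div_ne_zero hcp hcs, ?_, (M.comb_mem qp).1, ?_,
    (M.comb_mem qp).2, ?_, M.red_comb_ne_zero ⟨lp, fun h => ?_⟩, hQ0⟩
  · have h0 := congrArg (Subtype.val : F → LaurentSeries L) hsum
    simp only [hqs, hqp, map_mul, aeval_C, AddSubmonoidClass.coe_finsetSum, MulMemClass.coe_mul,
      IntermediateField.coe_algebraMap_apply, algebraMap_laurentSeries_eq_single, mul_assoc,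
      ← Finset.mul_sum] at h0
    have hcs' : (HahnSeries.single 0 cs : LaurentSeries L) ≠ 0 := by simpa using hcs
    apply mul_left_cancel₀ hcs'
    rw [ι_evalJ, h0, ← mul_assoc, HahnSeries.single_mul_single, zero_add,
      mul_div_cancel₀ _ hcs, comb, map_sum]
    congr 1
    refine Finset.sum_congr rfl fun l _ => ?_
    rw [map_mul, ι_evalJ]
  · rw [ι_evalJ]; exact SetLike.coe_mem _
  · rw [red_evalJ]; exact SetLike.coe_mem _
  · have := congrArg (fun z : (ResidueField A)[X] => z.coeff np) h
    simp [qp, Polynomial.map_sum, coeff_X_pow, Fin.val_inj, hnp] at this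

end SeriesModel

end Fermat.Agent.Reduction
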