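import Fermat.Agent.Reduction.Series
import Fermat.Agent.Reduction.CurveBasics

/-!
# Integral models given by generating series

Two function fields inside Laurent series generated by the same integral series (in
characteristic zero and after reduction), with the same degree over the distinguished
series `j`: a basis lifts, so every function is a constant times a ratio of integral series
with nonzero reductions.
-/

set_option autoImplicit false

noncomputable section

namespace Fermat.Agent.Reduction

open IsLocalRing ModularCurve HahnSeries IntermediateField Polynomial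

variable {L : Type*} [Field L] (A : ValuationSubring L)
  (F : IntermediateField L (LaurentSeries L))
  (Fk : IntermediateField (ResidueField A) (LaurentSeries (ResidueField A)))

/-- Series generating both `F` and its reduction `Fk`, with a distinguished one of order `-1`. -/
structure SeriesModel where
  /-- the generators -/
  gens : Set (LaurentSeries A)
  /-- the distinguished generator -/
  j : LaurentSeries A
  j_mem : j ∈ gens
  coeff_j : j.coeff (-1) = 1
  coeff_j_of_lt : ∀ n < -1, j.coeff n = 0
  bar_eq : F = IntermediateField.adjoin L (ιS A '' gens)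
  red_eq : Fk = IntermediateField.adjoin (ResidueField A) (redS A '' gens)

namespace SeriesModel

variable {A F Fk} (M : SeriesModel A F Fk)

theorem ι_gens_mem {y : LaurentSeries A} (hy : y ∈ M.gens) : ιS A y ∈ F := by
  have h : ιS A y ∈ IntermediateField.adjoin L (ιS A '' M.gens) :=
    subset_adjoin _ _ ⟨y, hy, rfl⟩
  exact M.bar_eq.symm ▸ h

theorem red_gens_mem {y : LaurentSeries A} (hy : y ∈ M.gens) : redS A y ∈ Fk := by
  have h : redS A y ∈ IntermediateField.adjoin (ResidueField A) (redS A '' M.gens) :=
    subset_adjoin _ _ ⟨y, hy, rfl⟩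
  exact M.red_eq.symm ▸ h

/-- `j` in `F`. -/
def jF : F := ⟨ιS A M.j, M.ι_gens_mem M.j_mem⟩

/-- `j` in `Fk`. -/
def jK : Fk := ⟨redS A M.j, M.red_gens_mem M.j_mem⟩

theorem coe_jF : (M.jF : LaurentSeries L) = ιS A M.j := rfl

theorem coe_jK : (M.jK : LaurentSeries (ResidueField A)) = redS A M.j := rfl

include M in
theorem mem_of_mem_closure {y : LaurentSeries A} (hy : y ∈ Subring.closure M.gens) :
    ιS A y ∈ F ∧ redS A y ∈ Fk := by
  induction hy using Subring.closure_induction with
  | mem y hy => exact ⟨M.ι_gens_mem hy, M.red_gens_mem hy⟩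
  | zero => simp
  | one => simp
  | add x y _ _ hx hy => rw [map_add, map_add]; exact ⟨add_mem hx.1 hy.1, add_mem hx.2 hy.2⟩
  | neg x _ hx => rw [map_neg, map_neg]; exact ⟨neg_mem hx.1, neg_mem hx.2⟩
  | mul x y _ _ hx hy => rw [map_mul, map_mul]; exact ⟨mul_mem hx.1 hy.1, mul_mem hx.2 hy.2⟩

end SeriesModel

/-- Scale finitely many constants so that all are integral and one is a unit. -/
theorem exists_scale {L : Type*} [Field L] (A : ValuationSubring L) {ι : Type*} [Finite ι]
    (c : ι → L) (hc : ∃ i, c i ≠ 0) :
    ∃ (c₀ : L) (b : ι → A), c₀ ≠ 0 ∧ (∀ i, c i = c₀ * (b i : L)) ∧ ∃ i, b i = 1 := by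
  classical
  have := Fintype.ofFinite ι
  obtain ⟨i₁, hi₁⟩ := hc
  obtain ⟨i₀, -, hmax⟩ := Finset.exists_max_image Finset.univ (fun i => A.valuation (c i))
    ⟨i₁, Finset.mem_univ _⟩
  have h0 : c i₀ ≠ 0 := fun h => by
    have := hmax i₁ (Finset.mem_univ _)
    rw [h, map_zero, le_zero_iff, Valuation.zero_iff] at this
    exact hi₁ this
  refine ⟨c i₀, fun i => ⟨c i / c i₀, ?_⟩, h0, fun i => ?_, i₀, ?_⟩
  · rw [← A.valuation_le_one_iff, map_div₀]
    exact div_le_one₀ (zero_lt_iff.2 ((Valuation.ne_zero_iff _).mpr h0)) |>.2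
      (hmax i (Finset.mem_univ _))
  · rw [mul_div_cancel₀ _ h0]
  · exact Subtype.ext (div_self h0)

/-- An element of `K⟮x⟯` is a ratio of polynomials in `x`. -/
theorem exists_aeval_mul_eq {K E : Type*} [Field K] [Field E] [Algebra K E] {x : E}
    (hx : Transcendental K x) (r : K⟮x⟯) :
    ∃ p s : K[X], s ≠ 0 ∧ aeval x s * (r : E) = aeval x p := by
  obtain ⟨p, s, h⟩ := (mem_adjoin_simple_iff K (r : E)).mp r.2
  rcases eq_or_ne (aeval x s) 0 with hs | hs
  · rw [hs, div_zero] at h
    exact ⟨0, 1, one_ne_zero, by simp [h]⟩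
  · exact ⟨p, s, fun e => hs (by simp [e]), by rw [h, mul_div_cancel₀ _ hs]⟩

end Fermat.Agent.Reduction
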