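import Fermat.Agent.Reduction.Rank
import Mathlib

/-!
# Roots of integral power series

Over a valuation subring of an algebraically closed field, a power series congruent to `1` has
an `m`-th root congruent to `1` whenever `m` is a unit.
-/

set_option autoImplicit false

noncomputable section

namespace Fermat.Agent.Reduction

open IsLocalRing PowerSeries

/-- Coefficientwise Newton step for `m`-th roots. -/
theorem coeff_pow_add_C_mul_X_pow {R : Type*} [CommRing R] (p : R⟦X⟧) (γ : R) (n m : ℕ) :
    (∀ k ≤ n, coeff k ((p + C γ * X ^ (n + 1)) ^ m) = coeff k (p ^ m)) ∧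
    coeff (n + 1) ((p + C γ * X ^ (n + 1)) ^ m) =
      coeff (n + 1) (p ^ m) + m * constantCoeff p ^ (m - 1) * γ := by
  induction m with
  | zero => simp
  | succ m ih =>
    obtain ⟨hlow, htop⟩ := ih
    have hexp : (p + C γ * X ^ (n + 1)) ^ (m + 1) =
        (p + C γ * X ^ (n + 1)) ^ m * p + C γ * (X ^ (n + 1) * (p + C γ * X ^ (n + 1)) ^ m) := by
      rw [pow_succ]; ring
    have hconst : constantCoeff ((p + C γ * X ^ (n + 1)) ^ m) = constantCoeff p ^ m := by
      rw [map_pow, map_add, map_mul, map_pow, constantCoeff_X, zero_pow (Nat.succ_ne_zero n),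
        mul_zero, add_zero]
    constructor
    · intro k hk
      rw [hexp, map_add, coeff_C_mul, coeff_X_pow_mul', if_neg (by omega), mul_zero, add_zero,
        pow_succ p m, coeff_mul, coeff_mul]
      refine Finset.sum_congr rfl fun x hx => ?_
      have := Finset.HasAntidiagonal.mem_antidiagonal.mp hx
      rw [hlow x.1 (by omega)]
    · rw [hexp, map_add, coeff_C_mul, coeff_X_pow_mul', if_pos le_rfl, Nat.sub_self,
        coeff_zero_eq_constantCoeff_apply, hconst, pow_succ p m, coeff_mul, coeff_mul]
      have hmem : (n + 1, 0) ∈ Finset.HasAntidiagonal.antidiagonal (n + 1) := by simp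
      rw [← Finset.add_sum_erase _ _ hmem, ← Finset.add_sum_erase _ _ hmem]
      have hrest : ∀ x ∈ (Finset.HasAntidiagonal.antidiagonal (n + 1)).erase (n + 1, 0),
          coeff x.1 ((p + C γ * X ^ (n + 1)) ^ m) * coeff x.2 p =
            coeff x.1 (p ^ m) * coeff x.2 p := by
        intro x hx
        obtain ⟨hne, hx⟩ := Finset.mem_erase.mp hx
        have hsum := Finset.HasAntidiagonal.mem_antidiagonal.mp hx
        have h2 : x.2 ≠ 0 := fun h => hne (Prod.ext (by simp; omega) h)
        rw [hlow x.1 (by omega)]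
      rw [Finset.sum_congr rfl hrest, htop, coeff_zero_eq_constantCoeff_apply]
      rcases Nat.eq_zero_or_pos m with rfl | hm
      · simp
      · rw [show m + 1 - 1 = m from rfl,
          show constantCoeff p ^ m = constantCoeff p ^ (m - 1) * constantCoeff p from by
            rw [← pow_succ, Nat.sub_add_cancel hm]]
        push_cast
        ring

/-- Roots of power series exist once the constant term has one and the derivative is a unit. -/
theorem exists_root_powerSeries {R : Type*} [CommRing R] (m : ℕ) (T : R⟦X⟧) (a : R)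
    (ha : a ^ m = constantCoeff T) (hu : IsUnit ((m : R) * a ^ (m - 1))) :
    ∃ G : R⟦X⟧, G ^ m = T ∧ constantCoeff G = a := by
  set d : R := ↑(hu.unit⁻¹) with hd
  have hd1 : (m : R) * a ^ (m - 1) * d = 1 := by rw [hd]; exact hu.mul_val_inv
  let p : ℕ → R⟦X⟧ := fun n => Nat.rec (C a)
    (fun n q => q + C (d * (coeff (n + 1) T - coeff (n + 1) (q ^ m))) * X ^ (n + 1)) n
  have hp0 : p 0 = C a := rfl
  have hps : ∀ n, p (n + 1) =
      p n + C (d * (coeff (n + 1) T - coeff (n + 1) (p n ^ m))) * X ^ (n + 1) := fun n => rfl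
  have hconst : ∀ n, constantCoeff (p n) = a := fun n => by
    induction n with
    | zero => rw [hp0, constantCoeff_C]
    | succ n ih =>
      rw [hps, map_add, map_mul, map_pow constantCoeff X, constantCoeff_X, zero_pow (Nat.succ_ne_zero n),
        mul_zero, add_zero, ih]
  have hstab : ∀ n k, k ≤ n → coeff k (p n) = coeff k (p k) := fun n => by
    induction n with
    | zero => intro k hk; rw [Nat.le_zero.mp hk]
    | succ n ih =>
      intro k hk
      rcases hk.lt_or_eq with hlt | rfl
      · rw [hps, map_add, coeff_C_mul, coeff_X_pow, if_neg (by omega), mul_zero, add_zero,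
          ih k (by omega)]
      · rfl
  have hroot : ∀ n k, k ≤ n → coeff k (p n ^ m) = coeff k T := fun n => by
    induction n with
    | zero =>
      intro k hk
      rw [Nat.le_zero.mp hk, coeff_zero_eq_constantCoeff_apply, map_pow, hconst, ha,
        coeff_zero_eq_constantCoeff_apply]
    | succ n ih =>
      intro k hk
      obtain ⟨hlow, htop⟩ := coeff_pow_add_C_mul_X_pow (p n)
        (d * (coeff (n + 1) T - coeff (n + 1) (p n ^ m))) n m
      rcases hk.lt_or_eq with hlt | rfl
      · rw [hps, hlow k (by omega), ih k (by omega)]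
      · rw [hps, htop, hconst, ← mul_assoc, hd1, one_mul, add_sub_cancel]
  refine ⟨PowerSeries.mk fun k => coeff k (p k), ?_, ?_⟩
  · ext n
    rw [← hroot n n le_rfl]
    have htr : trunc (n + 1) (PowerSeries.mk fun k => coeff k (p k)) = trunc (n + 1) (p n) := by
      ext k
      rw [coeff_trunc, coeff_trunc]
      split_ifs with hk
      · rw [coeff_mk, hstab n k (by omega)]
      · rfl
    rw [← coeff_coe_trunc_of_lt (Nat.lt_succ_self n), ← trunc_trunc_pow, htr, trunc_trunc_pow,
      coeff_coe_trunc_of_lt (Nat.lt_succ_self n)]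
  · rw [← coeff_zero_eq_constantCoeff_apply, coeff_mk, coeff_zero_eq_constantCoeff_apply, hconst]

/-- A power series congruent to `1` has an `m`-th root congruent to `1`. -/
theorem exists_root_powerSeries_residue {L : Type*} [Field L] [IsAlgClosed L]
    {A : ValuationSubring L} {m : ℕ} (hm : IsUnit (m : A)) (T : PowerSeries A)
    (hT : residue A (constantCoeff T) = 1) :
    ∃ G : PowerSeries A, G ^ m = T ∧ residue A (constantCoeff G) = 1 := by
  have hm0 : 0 < m := Nat.pos_of_ne_zero fun h => by simp [h] at hm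
  set t := constantCoeff T with ht
  have hint : ∀ y : L, y ^ m ∈ A → y ∈ A := fun y hy => by
    by_contra hyA
    have hy' : y⁻¹ ∈ A := (A.mem_or_inv_mem y).resolve_left hyA
    have hy0 : y ≠ 0 := fun e => hyA (e ▸ A.zero_mem)
    refine hyA ?_
    have : y = y ^ m * y⁻¹ ^ (m - 1) := by
      conv_rhs => rw [← Nat.succ_pred_eq_of_pos hm0, pow_succ, Nat.succ_sub_one]
      rw [inv_pow, mul_comm (y ^ (m.pred)) y, mul_assoc,
        mul_inv_cancel₀ (pow_ne_zero _ hy0), mul_one]
    rw [this]
    exact mul_mem hy (pow_mem hy' _)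
  obtain ⟨a, ha⟩ := IsAlgClosed.exists_pow_nat_eq (t : L) hm0
  have haA : a ∈ A := hint a (ha ▸ t.2)
  set a' : A := ⟨a, haA⟩ with ha'
  have ha't : a' ^ m = t := Subtype.ext ha
  have hamod : residue A a' ^ m = 1 := by rw [← map_pow, ha't, hT]
  -- a root of unity with the same residue
  have hmk : (m : ResidueField A) ≠ 0 := by
    rw [← map_natCast (residue A)]
    exact (hm.map _).ne_zero
  have hmL : (m : L) ≠ 0 := by
    intro h
    exact hm.ne_zero (Subtype.ext (by simpa using h))
  obtain ⟨ζ, hζ⟩ := (IsAlgClosed.exists_pow_nat_eq (1 : L) hm0)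
  have hroots : ∃ z : A, z ^ m = 1 ∧ residue A z = residue A a' := by
    have : NeZero (m : L) := ⟨hmL⟩
    have : NeZero m := ⟨hm0.ne'⟩
    obtain ⟨ξ, hξ⟩ := HasEnoughRootsOfUnity.exists_primitiveRoot L m
    set ξ' : A := ⟨ξ, hint ξ (hξ.pow_eq_one ▸ A.one_mem)⟩ with hξ'
    have hprod : (Polynomial.X ^ m - 1 : Polynomial A) =
        ∏ i ∈ Finset.range m, (Polynomial.X - Polynomial.C (ξ' ^ i)) := by
      apply Polynomial.map_injective A.subtype A.subtype_injective
      rw [Polynomial.map_prod, Polynomial.map_sub, Polynomial.map_pow, Polynomial.map_X,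
        Polynomial.map_one, ← map_one Polynomial.C, X_pow_sub_C_eq_prod hξ hm0 (one_pow m)]
      refine Finset.prod_congr rfl fun i _ => ?_
      rw [Polynomial.map_sub, Polynomial.map_X, Polynomial.map_C, map_pow A.subtype, mul_one]
      rfl
    have h0 := congrArg (Polynomial.eval₂ (residue A) (residue A a')) hprod
    rw [Polynomial.eval₂_sub, Polynomial.eval₂_X_pow, Polynomial.eval₂_one, hamod, sub_self,
      Polynomial.eval₂_finsetProd] at h0
    obtain ⟨i, -, hi⟩ := Finset.prod_eq_zero_iff.mp h0.symm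
    rw [Polynomial.eval₂_sub, Polynomial.eval₂_X, Polynomial.eval₂_C, sub_eq_zero] at hi
    refine ⟨ξ' ^ i, ?_, hi.symm⟩
    rw [← pow_mul, mul_comm, pow_mul]
    exact (congrArg (· ^ i) (Subtype.ext hξ.pow_eq_one : ξ' ^ m = 1)).trans (one_pow i)
  obtain ⟨z, hz, hzres⟩ := hroots
  obtain ⟨u, hu⟩ : IsUnit z := IsUnit.of_mul_eq_one (z ^ (m - 1)) (by
    rw [← pow_succ', Nat.sub_add_cancel hm0, hz])
  obtain ⟨G, hG, hG0⟩ := exists_root_powerSeries m T (a' * ↑u⁻¹) (by
      rw [mul_pow, ha't, ← Units.val_pow_eq_pow_val, inv_pow]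
      have : u ^ m = 1 := Units.ext (by rw [Units.val_pow_eq_pow_val, hu, hz]; rfl)
      rw [this, inv_one, Units.val_one, mul_one])
    (by
      refine hm.mul (IsUnit.pow _ (IsUnit.mul ?_ (Units.isUnit _)))
      refine (IsLocalRing.residue_ne_zero_iff_isUnit a').mp ?_
      intro h
      rw [h, zero_pow hm0.ne'] at hamod
      exact zero_ne_one hamod)
  refine ⟨G, hG, ?_⟩
  rw [hG0, map_mul, ← hzres, ← map_mul, ← hu, Units.mul_inv, map_one]

end Fermat.Agent.Reduction
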