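import Fermat.Agent.Reduction.SeriesShape

/-!
# An `m`-th root at infinity

A function in the Gauss ring with reduction `1` whose divisor is `m` times a divisor
`B - eP∞`, with `B` in the residue disc of the cusp, has an `m`-th root in `q⁻ᵉA⟦q⟧`.
-/

set_option autoImplicit false
set_option linter.unusedSectionVars false

noncomputable section

namespace Fermat.Agent.Reduction

open IsLocalRing ModularCurve HahnSeries AlgebraicCurve IntermediateField
  Fermat.Agent.FunctionFieldRR

variable {L : Type*} [Field L] {A : ValuationSubring L}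
  {F : IntermediateField L (LaurentSeries L)}
  {Fk : IntermediateField (ResidueField A) (LaurentSeries (ResidueField A))}
  [IsAlgClosed L] [IsFunctionField L F] [IsAlgClosed (ResidueField A)]
  [IsFunctionField (ResidueField A) Fk]
  [HasPrincipalDivisors L F] [HasPrincipalDivisors (ResidueField A) Fk]

theorem isInt_prod {M : GoodModel A F Fk} {ι : Type*} (s : Finset ι) (f : ι → F)
    (h : ∀ i ∈ s, M.IsInt (f i)) :
    M.IsInt (∏ i ∈ s, f i) ∧ M.red (∏ i ∈ s, f i) = ∏ i ∈ s, M.red (f i) := by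
  classical
  induction s using Finset.induction_on with
  | empty => simp [GoodModel.isInt_one]
  | insert a s ha ih =>
    rw [Finset.prod_insert ha, Finset.prod_insert ha]
    obtain ⟨h1, h2⟩ := ih fun i hi => h i (Finset.mem_insert_of_mem hi)
    obtain ⟨h3, h4⟩ := M.isInt_mul (h a (Finset.mem_insert_self a s)) h1
    exact ⟨h3, by rw [h4, h2]⟩

theorem dvs_prod {K E : Type*} [Field K] [Field E] [Algebra K E] [HasPrincipalDivisors K E]
    {ι : Type*} (s : Finset ι) (f : ι → E) (h : ∀ i ∈ s, f i ≠ 0) :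
    dvs (K := K) (∏ i ∈ s, f i) = ∑ i ∈ s, dvs (f i) := by
  classical
  induction s using Finset.induction_on with
  | empty => simpa using dvs_algebraMap (F := E) (1 : K)
  | insert a s ha ih =>
    have h' : ∀ i ∈ s, f i ≠ 0 := fun i hi => h i (Finset.mem_insert_of_mem hi)
    rw [Finset.prod_insert ha, Finset.sum_insert ha,
      dvs_mul (h a (Finset.mem_insert_self a s)) (Finset.prod_ne_zero_iff.mpr h'), ih h']

namespace GoodModel

variable {M : GoodModel A F Fk} (R : M.ReductionMap) {g c : ℤ}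
  (H : RRData (A := A) (F := F) (Fk := Fk) g c)

/-- A place in the residue disc of the cusp gives a translate `u - a` of the parameter, whose
zero divisor meets that disc only at the place. -/
theorem exists_translate (R : M.ReductionMap) (H : RRData (A := A) (F := F) (Fk := Fk) g c)
    {P : Place L F} (hP : R.toFun P = M.cuspK) :
    ∃ (a : A) (C : Divisor L F), residue A a = 0 ∧ 0 ≤ C ∧
      Finsupp.mapDomain R.toFun C M.cuspK = 0 ∧
      M.uF - algebraMap L F (a : L) ≠ 0 ∧
      dvs (M.uF - algebraMap L F (a : L)) = Finsupp.single P 1 + C - M.Zdiv := by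
  classical
  have hZP : M.Zdiv P = 0 := Z_apply_eq_zero R H (by rw [hP, ZK_apply_cusp])
  have hmem : M.uF ∈ P.toValuationSubring := by
    rw [mem_iff P M.uF_ne_zero]
    rw [polesOf_apply] at hZP
    have := le_max_left (-P.ord M.uF) 0
    omega
  obtain ⟨a₀, ha₀⟩ := exists_residue P hmem
  obtain ⟨ha, hvan⟩ := exists_residue_eq R H M.red_uF.1 (polesOf_nonneg M.uF)
    (mem_rr_polesOf M.uF) (by rw [map_Z R H, hP, ZK_apply_cusp]) ha₀
  set a : A := ⟨a₀, ha⟩ with hadef
  rw [M.red_uF.2, hP] at hvan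
  have hu1 : VanishesTo M.cuspK 1 M.uK := Or.inr (by rw [ord_cuspK, M.order_uK])
  have hres : residue A a = 0 := by
    have := hu1.sub hvan
    rw [sub_sub_cancel] at this
    rcases this with h | h
    · exact (map_eq_zero (algebraMap (ResidueField A) Fk)).mp h
    · rw [ord_algebraMap] at h; omega
  obtain ⟨hvi, hvr⟩ := M.isInt_sub M.red_uF.1 (M.isInt_const a.2).1
  rw [(M.isInt_const a.2).2, show (⟨(a : L), a.2⟩ : A) = a from rfl, hres, map_zero, sub_zero,
    M.red_uF.2] at hvr
  set v : F := M.uF - algebraMap L F (a : L) with hv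
  have hv0 : v ≠ 0 := fun e => M.uK_ne_zero (by rw [← hvr, e, M.red_zero])
  have hvZ : v ∈ riemannRochSpace M.Zdiv :=
    sub_mem (mem_rr_polesOf M.uF) (algebraMap_mem_rr (polesOf_nonneg _) _)
  have hC0 : 0 ≤ dvs (K := L) v + M.Zdiv := by rw [add_comm]; exact (mem_rr_iff_dvs hv0).mp hvZ
  have hP1 : 1 ≤ (dvs (K := L) v + M.Zdiv) P := by
    rw [Finsupp.add_apply, dvs_apply, hZP, add_zero]
    exact ha₀.resolve_left hv0
  refine ⟨a, dvs v + M.Zdiv - Finsupp.single P 1, hres, ?_, ?_, hv0, by abel⟩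
  · refine Finsupp.le_def.mpr fun w => ?_
    rcases eq_or_ne P w with rfl | hw
    · simp only [Finsupp.zero_apply, Finsupp.sub_apply, Finsupp.single_eq_same]
      omega
    · simpa [hw, hw.symm] using Finsupp.le_def.mp hC0 w
  · rw [Finsupp.mapDomain_sub, Finsupp.mapDomain_add, R.spec v hvi (hvr ▸ M.uK_ne_zero), hvr,
      map_Z R H, Finsupp.mapDomain_single, hP]
    simp [dvs_apply, ord_cuspK, M.order_uK, ZK_apply_cusp]

include R H in
/-- The root at infinity. -/
theorem exists_root_series {m e : ℕ} (hm : IsUnit (m : A)) {B : Divisor L F} (hB : 0 ≤ B)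
    (hrB : Finsupp.mapDomain R.toFun B = Finsupp.single M.cuspK (e : ℤ))
    {F₀ : F} (hi : M.IsInt F₀) (hred : M.red F₀ = 1)
    (hdiv : dvs F₀ = m • (B - Finsupp.single M.cuspF (e : ℤ))) :
    ∃ γ : LaurentSeries A, (ιS A γ) ^ m = (F₀ : LaurentSeries L) ∧ redS A γ = 1 ∧
      ∀ k < -(e : ℤ), γ.coeff k = 0 := by
  classical
  have hm0 : 0 < m := Nat.pos_of_ne_zero fun h => by simp [h] at hm
  have hF₀0 : F₀ ≠ 0 := fun h => by rw [h, M.red_zero] at hred; exact zero_ne_one hred
  have hPQ : ∀ P ∈ B.support, R.toFun P = M.cuspK := by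
    intro P hP
    by_contra hne
    have := le_mapDomain_apply R.toFun hB P
    rw [hrB, Finsupp.single_apply, if_neg (Ne.symm hne)] at this
    exact Finsupp.mem_support_iff.mp hP (le_antisymm this (Finsupp.le_def.mp hB P))
  choose a C ha hC0 hCQ hv0 hdv using fun P : B.support =>
    exists_translate R H (hPQ P.1 P.2)
  set b : B.support → ℕ := fun P => (B P.1).toNat with hb
  have hbcast : ∀ P : B.support, ((b P : ℕ) : ℤ) = B P.1 := fun P =>
    Int.toNat_of_nonneg (Finsupp.le_def.mp hB P.1)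
  have hBsum : B = ∑ P : B.support, (b P : ℕ) • Finsupp.single P.1 (1 : ℤ) := by
    conv_lhs => rw [← Finsupp.sum_single B, Finsupp.sum, ← Finset.sum_attach]
    refine Finset.sum_congr rfl fun P _ => ?_
    rw [Finsupp.smul_single, nsmul_eq_mul, mul_one, hbcast]
  have hbe : ∑ P : B.support, b P = e := by
    have h := congrArg Divisor.degree hBsum
    have h' := congrArg Divisor.degree hrB
    rw [ReductionMap.degree_map, Divisor.degree_single, deg_eq_one] at h'
    simp only [map_sum, map_nsmul, Divisor.degree_single, deg_eq_one, h'] at h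
    simp only [Nat.cast_one, mul_one, nsmul_eq_mul] at h
    exact_mod_cast h.symm
  set v : B.support → F := fun P => M.uF - algebraMap L F (a P : L) with hv
  have hvint : ∀ P, M.IsInt (v P) ∧ M.red (v P) = M.uK := fun P => by
    obtain ⟨h1, h2⟩ := M.isInt_sub M.red_uF.1 (M.isInt_const (a P).2).1
    refine ⟨h1, ?_⟩
    rw [show M.red (v P) = _ from h2, M.red_uF.2, (M.isInt_const (a P).2).2,
      show (⟨(a P : L), (a P).2⟩ : A) = a P from rfl, ha P, map_zero, sub_zero]
  -- the auxiliary function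
  set T : Divisor L F := ∑ P : B.support, (m * b P) • C P with hT
  have hT0 : 0 ≤ T := Finset.sum_nonneg fun P _ => nsmul_nonneg (hC0 P) _
  have hTQ : Finsupp.mapDomain R.toFun T M.cuspK = 0 := by
    rw [hT, ← Finsupp.mapDomain.addMonoidHom_apply, map_sum, Finsupp.finsetSum_apply]
    refine Finset.sum_eq_zero fun P _ => ?_
    rw [map_nsmul, Finsupp.smul_apply, Finsupp.mapDomain.addMonoidHom_apply, hCQ, smul_zero]
  set N : ℕ := (c + Divisor.degree T + 2).toNat + 1 with hN
  have hdegZ := one_le_degree_Z (M := M)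
  have hNge := Int.self_le_toNat (c + Divisor.degree T + 2)
  set D' : Divisor L F := N • M.Zdiv - T with hD'
  have hD'deg : c + 2 ≤ Divisor.degree D' := by
    rw [hD', map_sub, map_nsmul, nsmul_eq_mul]
    push_cast [hN]
    nlinarith
  have hD'Q : Finsupp.mapDomain R.toFun D' M.cuspK = 0 := by
    rw [hD', Finsupp.mapDomain_sub, Finsupp.sub_apply, hTQ, sub_zero,
      ← Finsupp.mapDomain.addMonoidHom_apply, map_nsmul, Finsupp.mapDomain.addMonoidHom_apply,
      map_Z R H, Finsupp.smul_apply, ZK_apply_cusp, smul_zero]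
  obtain ⟨sc, hsc, hsc'⟩ : ∃ sc ∈ riemannRochSpace (Finsupp.mapDomain R.toFun D'),
      sc ∉ riemannRochSpace (Finsupp.mapDomain R.toFun D' - Finsupp.single M.cuspK 1) := by
    by_contra hall
    push Not at hall
    have h1 := Submodule.finrank_mono
      (show riemannRochSpace (Finsupp.mapDomain R.toFun D') ≤ _ from hall)
    have h2 := H.up (Finsupp.mapDomain R.toFun D' - Finsupp.single M.cuspK 1) (by
      rw [map_sub, ReductionMap.degree_map, Divisor.degree_single, deg_eq_one]; omega)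
    rw [map_sub, ReductionMap.degree_map, Divisor.degree_single, deg_eq_one] at h2
    have h3 := H.low D'
    have h4 := R.finrank_le D'
    omega
  obtain ⟨cf, hcf, hcfi, hcfr⟩ := R.exists_lift H.low H.up (by omega) hsc
  have hcfZ : cf ∈ riemannRochSpace (N • M.Zdiv) :=
    rr_mono (by rw [hD']; exact sub_le_self _ hT0) hcf
  have hsc0 : sc ≠ 0 := fun h => hsc' (h ▸ zero_mem _)
  have hcf0 : cf ≠ 0 := fun h => hsc0 (by rw [← hcfr, h, M.red_zero])
  -- the numerator
  set W : F := F₀ * M.uF ^ (m * e) with hW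
  set Θ : F := ∏ P : B.support, v P ^ (m * b P) with hΘ
  obtain ⟨hWi, hWr⟩ := M.isInt_mul hi (M.isInt_pow M.red_uF.1 (m * e)).1
  rw [(M.isInt_pow M.red_uF.1 _).2, hred, one_mul, M.red_uF.2, ← hW] at hWr
  obtain ⟨hΘi, hΘr⟩ := isInt_prod (M := M) Finset.univ (fun P => v P ^ (m * b P))
    fun P _ => (M.isInt_pow (hvint P).1 _).1
  have hΘr' : M.red Θ = M.uK ^ (m * e) := by
    rw [hΘ, hΘr, ← hbe, Finset.mul_sum, ← Finset.prod_pow_eq_pow_sum]
    exact Finset.prod_congr rfl fun P _ => by rw [(M.isInt_pow (hvint P).1 _).2, (hvint P).2]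
  have hΘr0 : M.red Θ ≠ 0 := hΘr' ▸ pow_ne_zero _ M.uK_ne_zero
  have hΘ0 : Θ ≠ 0 := fun h => hΘr0 (by rw [h, M.red_zero])
  obtain ⟨hHi, hHr⟩ := M.isInt_mul (M.isInt_mul hWi hcfi).1 (M.isInt_inv hΘi hΘr0).1
  rw [(M.isInt_mul hWi hcfi).2, (M.isInt_inv hΘi hΘr0).2, ← hW, hWr, hΘr', hcfr] at hHr
  set Hf : F := W * cf * Θ⁻¹ with hHf
  have hHr' : M.red Hf = sc := by
    rw [hHr, mul_comm (M.uK ^ (m * e)), mul_assoc,
      mul_inv_cancel₀ (pow_ne_zero _ M.uK_ne_zero), mul_one]
  have hW0 : W ≠ 0 := mul_ne_zero hF₀0 (pow_ne_zero _ M.uF_ne_zero)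
  have hHZ : Hf ∈ riemannRochSpace (N • M.Zdiv) := by
    rw [mem_rr_iff_dvs (mul_ne_zero (mul_ne_zero hW0 hcf0) (inv_ne_zero hΘ0))]
    have hvP : ∀ P, v P ≠ 0 := hv0
    have hdΘ : dvs (K := L) Θ = m • B + T - (m * e) • M.Zdiv := by
      rw [hΘ, dvs_prod _ _ fun P _ => pow_ne_zero _ (hvP P)]
      simp only [dvs_pow, hv, hdv, nsmul_sub, nsmul_add, Finset.sum_add_distrib,
        Finset.sum_sub_distrib, ← hT, ← Finset.sum_smul]
      rw [← Finset.mul_sum, hbe]
      conv_rhs => rw [hBsum, Finset.smul_sum]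
      simp only [mul_smul]
    have hinv : dvs (K := L) Θ⁻¹ = - dvs Θ := Finsupp.ext fun w => by
      simp [dvs_apply, w.ord_inv]
    rw [dvs_mul (mul_ne_zero hW0 hcf0) (inv_ne_zero hΘ0), dvs_mul hW0 hcf0, hinv, hW,
      dvs_mul hF₀0 (pow_ne_zero _ M.uF_ne_zero), dvs_pow, hdiv, hdΘ]
    have h1 := (mem_rr_iff_dvs hcf0).mp hcf
    have h2 := nsmul_nonneg (sub_nonneg.mpr (single_cusp_le (M := M))) (m * e)
    rw [nsmul_sub, nsmul_add, Finsupp.smul_single, nsmul_eq_mul, mul_one] at h2
    calc (0 : Divisor L F) ≤ _ := add_nonneg h1 h2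
      _ = _ := by
        rw [hD', nsmul_sub, Finsupp.smul_single, nsmul_eq_mul, Nat.cast_mul]
        abel
  obtain ⟨yH, hyH, hyH', hyH0⟩ := exists_series_of_mem R H hHZ hHi
  obtain ⟨yc, hyc, hyc', hyc0⟩ := exists_series_of_mem R H hcfZ hcfi
  obtain ⟨pH, rfl⟩ := exists_ofPowerSeries hyH0
  obtain ⟨pc, rfl⟩ := exists_ofPowerSeries hyc0
  rw [hHr'] at hyH'
  rw [hcfr] at hyc'
  have hcst : ∀ p : PowerSeries A, (redS A (HahnSeries.ofPowerSeries ℤ A p)).coeff 0 =
      residue A (PowerSeries.constantCoeff p) := fun p => by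
    rw [coeffMap_coeff, show (0 : ℤ) = ((0 : ℕ) : ℤ) from rfl,
      HahnSeries.ofPowerSeries_apply_coeff, PowerSeries.coeff_zero_eq_constantCoeff_apply]
  have hpc0 : residue A (PowerSeries.constantCoeff pc) ≠ 0 := by
    intro h
    apply hsc'
    rw [mem_riemannRochSpace_iff]
    intro w
    rcases eq_or_ne w M.cuspK with rfl | hw
    · right
      simp only [Finsupp.sub_apply, hD'Q, Finsupp.single_eq_same, zero_sub, neg_neg, ord_cuspK]
      by_contra hlt
      refine hsc0 (Subtype.ext (HahnSeries.coeff_order_eq_zero.mp ?_))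
      rw [hyc'] at hlt ⊢
      rcases lt_or_ge (redS A (HahnSeries.ofPowerSeries ℤ A pc)).order 0 with hneg | hnn
      · rw [coeffMap_coeff, coeff_ofPowerSeries_of_neg _ hneg, map_zero]
      · rw [show (redS A (HahnSeries.ofPowerSeries ℤ A pc)).order = (0 : ℤ) by omega, hcst, h]
    · simpa [hw, hw.symm] using mem_riemannRochSpace_iff.mp hsc w
  obtain ⟨uc, huc⟩ : IsUnit (PowerSeries.constantCoeff pc) :=
    (residue_ne_zero_iff_isUnit _).mp hpc0
  set ic := pc.invOfUnit uc with hic
  have hpcic : pc * ic = 1 := PowerSeries.mul_invOfUnit _ _ huc.symm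
  have heq : residue A (PowerSeries.constantCoeff pH) = residue A (PowerSeries.constantCoeff pc) := by
    rw [← hcst, ← hcst, ← hyH', ← hyc']
  have hT0' : residue A (PowerSeries.constantCoeff (pH * ic)) = 1 := by
    rw [map_mul, map_mul, heq, ← map_mul, ← map_mul, hpcic, map_one, map_one]
  obtain ⟨G, hG, hG0⟩ := exists_root_powerSeries_residue hm (pH * ic) hT0'
  -- the root
  set θ : PowerSeries A := ∏ P : B.support, (M.uPS - PowerSeries.C (a P)) ^ b P with hθ
  have hθι : (ιS A (HahnSeries.ofPowerSeries ℤ A θ)) ^ m = (Θ : LaurentSeries L) := by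
    rw [hθ, map_prod, map_prod, ← Finset.prod_pow, hΘ, IntermediateField.coe_prod]
    refine Finset.prod_congr rfl fun P _ => ?_
    rw [map_pow, map_pow, ← pow_mul, mul_comm, SubmonoidClass.coe_pow, map_sub, map_sub,
      HahnSeries.ofPowerSeries_C, M.ofPowerSeries_uPS, HahnSeries.C_apply, ιS_single,
      AddSubgroupClass.coe_sub, M.coe_uF, IntermediateField.coe_algebraMap_apply,
      algebraMap_laurentSeries_eq_single]
  set γ : LaurentSeries A := M.j ^ e * HahnSeries.ofPowerSeries ℤ A (θ * G) with hγ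
  have hγpow : (ιS A γ) ^ m = (F₀ : LaurentSeries L) := by
    have hGι : (ιS A (HahnSeries.ofPowerSeries ℤ A G)) ^ m =
        (Hf : LaurentSeries L) * (cf : LaurentSeries L)⁻¹ := by
      rw [← map_pow, ← map_pow, hG, map_mul, map_mul, hyH, hyc]
      congr 1
      refine (inv_eq_of_mul_eq_one_left ?_).symm
      rw [← map_mul, ← map_mul, mul_comm ic pc, hpcic, map_one, map_one]
    have hju : ιS A M.j = (M.uF : LaurentSeries L)⁻¹ := by
      refine (inv_eq_of_mul_eq_one_left ?_).symm
      rw [M.coe_uF, ← map_mul, mul_comm M.j, M.uA_mul_j, map_one]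
    have hcfL : (cf : LaurentSeries L) ≠ 0 := fun h => hcf0 (Subtype.ext h)
    have hΘL : (Θ : LaurentSeries L) ≠ 0 := fun h => hΘ0 (Subtype.ext h)
    have huL : (M.uF : LaurentSeries L) ≠ 0 := fun h => M.uF_ne_zero (Subtype.ext h)
    rw [hγ, map_mul, map_pow, map_mul, map_mul, mul_pow, mul_pow, hθι, hGι, ← pow_mul, hju,
      inv_pow, mul_comm e m, hHf, MulMemClass.coe_mul, MulMemClass.coe_mul,
      IntermediateField.coe_inv, hW, MulMemClass.coe_mul, SubmonoidClass.coe_pow]
    field_simp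
  refine ⟨γ, hγpow, ?_, fun k hk => M.coeff_j_pow_mul_of_lt e _ hk⟩
  -- the reduction of the root
  have hθr : redS A (HahnSeries.ofPowerSeries ℤ A θ) =
      (M.uK : LaurentSeries (ResidueField A)) ^ e := by
    rw [hθ, map_prod, map_prod, ← hbe, ← Finset.prod_pow_eq_pow_sum]
    refine Finset.prod_congr rfl fun P _ => ?_
    rw [map_pow, map_pow, map_sub, map_sub, HahnSeries.ofPowerSeries_C, M.ofPowerSeries_uPS,
      HahnSeries.C_apply, redS_single, ha P, map_zero, sub_zero, M.coe_uK]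
  have hjr : redS A M.j = (M.uK : LaurentSeries (ResidueField A))⁻¹ := by
    refine (inv_eq_of_mul_eq_one_left ?_).symm
    rw [M.coe_uK, ← map_mul, mul_comm M.j, M.uA_mul_j, map_one]
  have hγr : redS A γ = redS A (HahnSeries.ofPowerSeries ℤ A G) := by
    have huk : (M.uK : LaurentSeries (ResidueField A)) ≠ 0 := fun h =>
      M.uK_ne_zero (Subtype.ext h)
    rw [hγ, map_mul, map_pow, map_mul, map_mul, hθr, hjr, ← mul_assoc, inv_pow,
      inv_mul_cancel₀ (pow_ne_zero _ huk), one_mul]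
  refine eq_one_of_pow_eq_one hm0 ?_ (by rw [hγr, hcst, hG0])
  have h := (M.isInt_series (x := F₀) (y := γ ^ m) (by rw [map_pow, hγpow])).2
  rw [hred, map_pow] at h
  exact h.symm

end GoodModel

end Fermat.Agent.Reduction
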