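import Fermat.Prelude.Def_ModularCurve_LaurentCoeff
import Mathlib

/-!
# Units in rings of Laurent series

A Laurent series whose coefficients are nilpotent or units, one of them a unit, is a unit.
-/

set_option autoImplicit false

noncomputable section

namespace Fermat.Agent.Reduction

open HahnSeries

theorem isNilpotent_single {R : Type*} [CommRing R] (n : ℤ) {a : R} (ha : IsNilpotent a) :
    IsNilpotent (HahnSeries.single n a : LaurentSeries R) := by
  obtain ⟨k, hk⟩ := ha
  exact ⟨k, by rw [HahnSeries.single_pow, hk, map_zero]⟩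

/-- A lower bound for the support of a Laurent series. -/
theorem exists_support_bound {R : Type*} [Zero R] (x : LaurentSeries R) :
    ∃ M : ℤ, ∀ n < M, x.coeff n = 0 :=
  ⟨x.order, fun _ hn => HahnSeries.coeff_eq_zero_of_lt_order hn⟩

/-- A Laurent series with nilpotent or unit coefficients, one of them a unit, is a unit. -/
theorem isUnit_laurentSeries {R : Type*} [CommRing R] (x : LaurentSeries R)
    (hx : ∀ n, IsNilpotent (x.coeff n) ∨ IsUnit (x.coeff n))
    (hu : ∃ n, IsUnit (x.coeff n)) : IsUnit x := by
  classical
  rcases subsingleton_or_nontrivial R with hR | hR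
  · exact isUnit_of_subsingleton x
  obtain ⟨M, hM⟩ := exists_support_bound x
  obtain ⟨n₀, hn₀, hleast⟩ := Int.exists_least_of_bdd (P := fun n => IsUnit (x.coeff n))
    ⟨M, fun n hn => by
      by_contra hlt
      exact hn.ne_zero (hM n (not_le.mp hlt))⟩ hu
  set lo : LaurentSeries R := ∑ j ∈ Finset.Ico M n₀, HahnSeries.single j (x.coeff j) with hlo
  set hi : LaurentSeries R := HahnSeries.single n₀ 1 *
    HahnSeries.ofPowerSeries ℤ R (PowerSeries.mk fun k => x.coeff (n₀ + k)) with hhi
  have hdec : lo + hi = x := by
    ext n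
    rw [HahnSeries.coeff_add, hlo, hhi, HahnSeries.coeff_sum, HahnSeries.coeff_single_mul,
      one_mul]
    simp only [HahnSeries.coeff_single, eq_comm (a := n)]
    rw [Finset.sum_ite_eq']
    rcases le_or_gt n₀ n with hn | hn
    · obtain ⟨k, hk⟩ := Int.le.dest hn
      rw [if_neg (by simp; omega), zero_add, show n - n₀ = (k : ℤ) by omega,
        HahnSeries.ofPowerSeries_apply_coeff, PowerSeries.coeff_mk, hk]
    · have hneg : ((HahnSeries.ofPowerSeries ℤ R)
          (PowerSeries.mk fun k => x.coeff (n₀ + k))).coeff (n - n₀) = 0 := by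
        rw [HahnSeries.ofPowerSeries_apply]
        refine HahnSeries.embDomain_of_notMem_range ?_
        rintro ⟨m, hm⟩
        simp at hm
        omega
      rw [hneg, add_zero]
      rcases lt_or_ge n M with hnM | hnM
      · rw [if_neg (by simp; omega), hM n hnM]
      · rw [if_pos (Finset.mem_Ico.mpr ⟨hnM, hn⟩)]
  have hnil : IsNilpotent lo := by
    refine isNilpotent_sum fun j hj => isNilpotent_single j ?_
    rcases hx j with h | h
    · exact h
    · exact absurd (hleast j h) (by have := (Finset.mem_Ico.mp hj).2; omega)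
  have hunit : IsUnit hi := by
    refine IsUnit.mul ?_ ((PowerSeries.isUnit_iff_constantCoeff.mpr ?_).map _)
    · refine IsUnit.of_mul_eq_one (HahnSeries.single (-n₀) 1) ?_
      simp
    · rw [← PowerSeries.coeff_zero_eq_constantCoeff, PowerSeries.coeff_mk]
      simpa using hn₀
  rw [← hdec, add_comm]
  exact hnil.isUnit_add_left_of_commute hunit (mul_comm _ _)

end Fermat.Agent.Reduction
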