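import Fermat.Agent.Reduction.Rank
import Fermat.Agent.Reduction.UnitSeries
import Fermat.Agent.Reduction.Instances

/-!
# Laurent series with coefficients in a valuation subring

A series with nonzero reduction divides integrally; almost integral series are integral.
-/

set_option autoImplicit false

noncomputable section

namespace Fermat.Agent.Reduction

open IsLocalRing ModularCurve HahnSeries

variable {L : Type*} [Field L] (A : ValuationSubring L)

/-- Series with coefficients in `A`, as series with coefficients in `L`. -/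
abbrev ιS : LaurentSeries A →+* LaurentSeries L := coeffMap A.subtype

/-- Coefficientwise reduction. -/
abbrev redS : LaurentSeries A →+* LaurentSeries (ResidueField A) := coeffMap (residue A)

/-- The coefficients of `x` have a common denominator. -/
def Bdd (x : LaurentSeries L) : Prop :=
  ∃ c : A, c ≠ 0 ∧ ∃ y : LaurentSeries A, ιS A y = HahnSeries.single 0 (c : L) * x

variable {A}

theorem ιS_injective : Function.Injective (ιS A) := fun x y h => by
  refine HahnSeries.ext (funext fun n => A.subtype_injective ?_)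
  exact congrArg (fun z => z.coeff n) h

theorem mem_range_ιS_iff {x : LaurentSeries L} :
    x ∈ (ιS A).range ↔ ∀ n, x.coeff n ∈ A := by
  classical
  constructor
  · rintro ⟨y, rfl⟩ n
    exact (y.coeff n).2
  · intro h
    refine ⟨⟨fun n => ⟨x.coeff n, h n⟩, ?_⟩, ?_⟩
    · refine x.isPWO_support.mono fun n hn => ?_
      simp only [Function.mem_support, ne_eq] at hn ⊢
      intro h0
      exact hn (Subtype.ext h0)
    · ext n
      rfl

@[simp] theorem ιS_single (n : ℤ) (a : A) :
    ιS A (HahnSeries.single n a) = HahnSeries.single n (a : L) :=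
  coeffMap_single _ _ _

@[simp] theorem redS_single (n : ℤ) (a : A) :
    redS A (HahnSeries.single n a) = HahnSeries.single n (residue A a) :=
  coeffMap_single _ _ _

theorem redS_eq_zero_iff {y : LaurentSeries A} :
    redS A y = 0 ↔ ∀ n, y.coeff n ∈ maximalIdeal A := by
  simp [HahnSeries.ext_iff, funext_iff, residue_eq_zero_iff]

theorem coeff_single_zero_mul {R : Type*} [CommRing R] (c : R) (x : LaurentSeries R) (n : ℤ) :
    (HahnSeries.single 0 c * x).coeff n = c * x.coeff n := by
  simp

/-- If `c` divides every coefficient, it divides the series. -/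
theorem exists_eq_single_zero_mul {y : LaurentSeries A} {c : A} (hc : c ≠ 0)
    (h : ∀ n, c ∣ y.coeff n) : ∃ w, y = HahnSeries.single 0 c * w := by
  classical
  choose f hf using h
  refine ⟨⟨f, y.isPWO_support.mono fun n hn => ?_⟩, ?_⟩
  · simp only [Function.mem_support, ne_eq] at hn ⊢
    intro h0
    rw [hf n, mul_eq_zero] at h0
    exact hn (h0.resolve_left hc)
  · ext n
    rw [coeff_single_zero_mul]
    exact congrArg Subtype.val (hf n)

variable (hnil : NilModulo A)

include hnil in
/-- A series with nonzero reduction is invertible modulo every nonzero constant. -/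
theorem isUnit_mod {Q : LaurentSeries A} (hQ : redS A Q ≠ 0) {c : A} (hc : c ≠ 0) :
    IsUnit (coeffMap (Ideal.Quotient.mk (Ideal.span {c})) Q) := by
  obtain ⟨n, hn⟩ : ∃ n, Q.coeff n ∉ maximalIdeal A := by
    by_contra h
    push Not at h
    exact hQ (redS_eq_zero_iff.mpr h)
  refine isUnit_laurentSeries _ (fun m => ?_) ⟨n, ?_⟩
  · by_cases hm : Q.coeff m ∈ maximalIdeal A
    · obtain ⟨k, hk⟩ := hnil _ hm c hc
      left
      refine ⟨k, ?_⟩
      rw [coeffMap_coeff, ← map_pow, Ideal.Quotient.eq_zero_iff_mem, Ideal.mem_span_singleton]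
      exact hk
    · right
      rw [coeffMap_coeff]
      exact (not_not.mp fun h => hm h).map _
  · rw [coeffMap_coeff]
    exact (not_not.mp fun h => hn h).map _

include hnil in
theorem dvd_of_mul_dvd {Q y z : LaurentSeries A} (hQ : redS A Q ≠ 0) {c : A} (hc : c ≠ 0)
    (h : Q * y = HahnSeries.single 0 c * z) : ∃ w, y = HahnSeries.single 0 c * w := by
  refine exists_eq_single_zero_mul hc fun n => ?_
  have h0 : coeffMap (Ideal.Quotient.mk (Ideal.span {c})) y = 0 := by
    refine (isUnit_mod hnil hQ hc).mul_right_eq_zero.mp ?_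
    rw [← map_mul, h, map_mul, coeffMap_single,
      Ideal.Quotient.eq_zero_iff_mem.mpr (Ideal.mem_span_singleton_self c), map_zero, zero_mul]
  have := congrArg (fun x => x.coeff n) h0
  simpa [Ideal.Quotient.eq_zero_iff_mem, Ideal.mem_span_singleton] using this

theorem Bdd.of_range {x : LaurentSeries L} (hx : x ∈ (ιS A).range) : Bdd A x := by
  obtain ⟨y, rfl⟩ := hx
  exact ⟨1, one_ne_zero, y, by simp⟩

include hnil in
/-- Division by a series with nonzero reduction preserves integrality of bounded series. -/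
theorem exists_div {Q z : LaurentSeries A} (hQ : redS A Q ≠ 0) {x : LaurentSeries L}
    (hx : Bdd A x) (h : ιS A Q * x = ιS A z) : ∃ w, ιS A w = x ∧ Q * w = z := by
  obtain ⟨c, hc, y, hy⟩ := hx
  have hQy : Q * y = HahnSeries.single 0 c * z := ιS_injective (by
    rw [map_mul, map_mul, hy, ιS_single, ← h]
    ring)
  obtain ⟨w, rfl⟩ := dvd_of_mul_dvd hnil hQ hc hQy
  have hcL : (HahnSeries.single 0 (c : L) : LaurentSeries L) ≠ 0 := by
    simpa using hc
  have hw : ιS A w = x := by
    rw [map_mul, ιS_single] at hy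
    exact mul_left_cancel₀ hcL hy
  exact ⟨w, hw, ιS_injective (by rw [map_mul, hw, h])⟩

include hnil in
theorem mem_of_forall_mul_pow_mem {a b : L} (hb : b ≠ 0) (hbA : b ∈ A)
    (h : ∀ k : ℕ, b * a ^ k ∈ A) : a ∈ A := by
  by_contra ha
  have ha' : a⁻¹ ∈ A := (A.mem_or_inv_mem a).resolve_left ha
  have ha0 : a ≠ 0 := fun e => ha (e ▸ A.zero_mem)
  have hρ : (⟨a⁻¹, ha'⟩ : A) ∈ maximalIdeal A := by
    intro hu
    obtain ⟨u, hu⟩ := hu
    have hinv : a⁻¹ * ((↑u⁻¹ : A) : L) = 1 := by
      have h1 : ((u : A) : L) * ((↑u⁻¹ : A) : L) = 1 := by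
        rw [← MulMemClass.coe_mul, Units.mul_inv]; rfl
      rwa [hu] at h1
    have : ((↑u⁻¹ : A) : L) = a := by
      field_simp at hinv
      exact hinv
    exact ha (this ▸ (↑u⁻¹ : A).2)
  obtain ⟨k, t, ht⟩ := hnil _ hρ (⟨b, hbA⟩ : A) (fun e => hb (congrArg Subtype.val e))
  have ht' : a⁻¹ ^ k = b * (t : L) := by
    have := congrArg Subtype.val ht
    simpa using this
  refine ha ?_
  have hmem : (t : L) * (b * a ^ (k + 1)) ∈ A := A.mul_mem _ _ t.2 (h (k + 1))
  have e : (t : L) * (b * a ^ (k + 1)) = a := by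
    calc (t : L) * (b * a ^ (k + 1)) = (b * (t : L)) * a ^ k * a := by ring
      _ = a := by rw [← ht', inv_pow, inv_mul_cancel₀ (pow_ne_zero _ ha0), one_mul]
  rwa [e] at hmem

include hnil in
/-- An almost integral series is integral. -/
theorem mem_range_of_almostIntegral {Q : LaurentSeries A} (hQ : Q ≠ 0) {x : LaurentSeries L}
    (h : ∀ k : ℕ, ιS A Q * x ^ k ∈ (ιS A).range) : x ∈ (ιS A).range := by
  classical
  rw [mem_range_ιS_iff]
  obtain ⟨M, hM⟩ := exists_support_bound x
  suffices H : ∀ (j : ℕ) (y : LaurentSeries L), (∀ n < M, y.coeff n = 0) →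
      (∀ k : ℕ, ιS A Q * y ^ k ∈ (ιS A).range) → ∀ n < M + j, y.coeff n ∈ A by
    intro n
    exact H ((n - M).toNat + 1) x hM h n (by omega)
  intro j
  induction j with
  | zero =>
    intro y hy _ n hn
    rw [hy n (by omega)]
    exact A.zero_mem
  | succ j ih =>
    intro y hy hk n hn
    rcases lt_or_ge n (M + j) with hlt | hge
    · exact ih y hy hk n hlt
    have hnj : n = M + j := by omega
    -- remove the integral lower part
    set lo : LaurentSeries L :=
      ∑ i ∈ Finset.Ico M n, HahnSeries.single i (y.coeff i) with hlo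
    have hlomem : lo ∈ (ιS A).range := by
      refine Subring.sum_mem _ fun i hi => ?_
      exact ⟨HahnSeries.single i ⟨y.coeff i, ih y hy hk i (by
        have := (Finset.mem_Ico.mp hi).2; omega)⟩, by simp⟩
    set z := y - lo with hz
    have hzc : ∀ i, z.coeff i = y.coeff i - if i ∈ Finset.Ico M n then y.coeff i else 0 := by
      intro i
      rw [hz, hlo, HahnSeries.coeff_sub, HahnSeries.coeff_sum]
      simp only [HahnSeries.coeff_single, eq_comm (a := i)]
      rw [Finset.sum_ite_eq']
    have hzlow : ∀ i < n, z.coeff i = 0 := by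
      intro i hi
      rw [hzc i]
      rcases lt_or_ge i M with h' | h'
      · rw [hy i h']; simp
      · rw [if_pos (Finset.mem_Ico.mpr ⟨h', hi⟩), sub_self]
    have hzn : z.coeff n = y.coeff n := by
      rw [hzc n, if_neg (by simp), sub_zero]
    have hzk : ∀ k : ℕ, ιS A Q * z ^ k ∈ (ιS A).range := by
      intro k
      rw [hz, sub_eq_add_neg, add_pow, Finset.mul_sum]
      refine Subring.sum_mem _ fun i _ => ?_
      rw [← mul_assoc, ← mul_assoc]
      exact Subring.mul_mem _ (Subring.mul_mem _ (hk i)
        (Subring.pow_mem _ (Subring.neg_mem _ hlomem) _)) (natCast_mem _ _)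
    rw [← hzn]
    rcases eq_or_ne (z.coeff n) 0 with h0 | h0
    · rw [h0]; exact A.zero_mem
    have hz0 : z ≠ 0 := fun e => h0 (by rw [e]; rfl)
    have hord : z.order = n :=
      le_antisymm (HahnSeries.order_le_of_coeff_ne_zero h0) (by
        by_contra hlt
        exact hz0 (HahnSeries.coeff_order_eq_zero.mp (hzlow _ (not_le.mp hlt))))
    have hQ' : ιS A Q ≠ 0 := fun e => hQ (ιS_injective (by rw [e, map_zero]))
    refine mem_of_forall_mul_pow_mem hnil (b := (ιS A Q).leadingCoeff)
      (HahnSeries.leadingCoeff_ne_zero.mpr hQ') ?_ fun k => ?_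
    · rw [HahnSeries.leadingCoeff_eq]
      exact mem_range_ιS_iff.mp ⟨Q, rfl⟩ _
    · have hlead : z.leadingCoeff = z.coeff n := by rw [HahnSeries.leadingCoeff_eq, hord]
      have hpow : (z ^ k).leadingCoeff = z.coeff n ^ k := by
        induction k with
        | zero => simp
        | succ k ihk => rw [pow_succ, HahnSeries.leadingCoeff_mul, ihk, pow_succ, hlead]
      rw [← hpow, ← HahnSeries.leadingCoeff_mul, HahnSeries.leadingCoeff_eq]
      exact mem_range_ιS_iff.mp (hzk k) _

end Fermat.Agent.Reduction
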