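import Fermat.Agent.Reduction.Bounded
import Fermat.Agent.Reduction.Root

/-!
# Expansions of functions with poles only at infinity, and roots of unity in Laurent series
-/

set_option autoImplicit false
set_option linter.unusedSectionVars false

noncomputable section

namespace Fermat.Agent.Reduction

open IsLocalRing ModularCurve HahnSeries AlgebraicCurve IntermediateField
  Fermat.Agent.FunctionFieldRR

/-- A series with no negative coefficients is a power series. -/
theorem exists_ofPowerSeries {R : Type*} [CommRing R] {y : LaurentSeries R}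
    (h : ∀ k < 0, y.coeff k = 0) :
    ∃ p : PowerSeries R, HahnSeries.ofPowerSeries ℤ R p = y := by
  refine ⟨PowerSeries.mk fun n : ℕ => y.coeff (n : ℤ), ?_⟩
  ext n
  rcases lt_or_ge n 0 with hn | hn
  · rw [h n hn, HahnSeries.ofPowerSeries_apply, HahnSeries.embDomain_of_notMem_range]
    rintro ⟨m, hm⟩
    simp at hm
    omega
  · obtain ⟨k, rfl⟩ := Int.eq_ofNat_of_zero_le hn
    rw [HahnSeries.ofPowerSeries_apply_coeff, PowerSeries.coeff_mk]

theorem coeff_ofPowerSeries_of_neg {R : Type*} [CommRing R] (p : PowerSeries R) {k : ℤ}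
    (hk : k < 0) : (HahnSeries.ofPowerSeries ℤ R p).coeff k = 0 := by
  rw [HahnSeries.ofPowerSeries_apply, HahnSeries.embDomain_of_notMem_range]
  rintro ⟨m, hm⟩
  simp at hm
  omega

/-- An `m`-th root of unity among Laurent series with constant coefficient `1` is `1`. -/
theorem eq_one_of_pow_eq_one {K : Type*} [Field K] [IsAlgClosed K] {z : LaurentSeries K}
    {m : ℕ} (hm : 0 < m) (hz : z ^ m = 1) (h0 : z.coeff 0 = 1) : z = 1 := by
  have halg : IsAlgebraic K z := by
    refine IsAlgebraic.of_pow hm ?_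
    rw [hz]
    exact isAlgebraic_one
  rcases eq_algebraMap_or_transcendental (K := K) z with ⟨c, hc⟩ | h
  · rw [hc, algebraMap_laurentSeries_eq_single, HahnSeries.coeff_single_same] at h0
    rw [hc, h0, map_one]
  · exact absurd halg h

namespace SeriesModel

variable {L : Type*} [Field L] {A : ValuationSubring L}
  {F : IntermediateField L (LaurentSeries L)}
  {Fk : IntermediateField (ResidueField A) (LaurentSeries (ResidueField A))}
  (M : SeriesModel A F Fk)

/-- The power series of `u`. -/
def uPS : PowerSeries A := PowerSeries.X * M.jUnit.invOfUnit 1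

theorem ofPowerSeries_uPS : HahnSeries.ofPowerSeries ℤ A M.uPS = M.uA := by
  rw [uPS, uA, map_mul, HahnSeries.ofPowerSeries_X]

theorem j_pow_eq (n : ℕ) : M.j ^ n =
    HahnSeries.single (-(n : ℤ)) (1 : A) * HahnSeries.ofPowerSeries ℤ A (M.jUnit ^ n) := by
  rw [← M.single_mul_jUnit, mul_pow, HahnSeries.single_pow, one_pow, map_pow, nsmul_eq_mul,
    mul_neg_one]

theorem coeff_j_pow_mul_of_lt (n : ℕ) (p : PowerSeries A) {k : ℤ} (hk : k < -(n : ℤ)) :
    (M.j ^ n * HahnSeries.ofPowerSeries ℤ A p).coeff k = 0 := by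
  rw [j_pow_eq, mul_assoc, ← map_mul, HahnSeries.coeff_single_mul, one_mul,
    coeff_ofPowerSeries_of_neg _ (by omega)]

end SeriesModel

variable {L : Type*} [Field L] {A : ValuationSubring L}
  {F : IntermediateField L (LaurentSeries L)}
  {Fk : IntermediateField (ResidueField A) (LaurentSeries (ResidueField A))}
  [IsAlgClosed L] [IsFunctionField L F] [IsAlgClosed (ResidueField A)]
  [IsFunctionField (ResidueField A) Fk]
  [HasPrincipalDivisors L F] [HasPrincipalDivisors (ResidueField A) Fk]

namespace GoodModel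

variable {M : GoodModel A F Fk} (R : M.ReductionMap) {g c : ℤ}
  (H : RRData (A := A) (F := F) (Fk := Fk) g c)

theorem single_cusp_le : Finsupp.single M.cuspF 1 ≤ dvs (K := L) M.uF + M.Zdiv := by
  classical
  refine Finsupp.le_def.mpr fun v => ?_
  rcases eq_or_ne v M.cuspF with rfl | hv
  · simp [dvs_apply, ord_cuspF, M.order_uF, Z_apply_cusp]
  · rw [Finsupp.single_apply, if_neg (Ne.symm hv)]
    exact Finsupp.le_def.mp M.dvs_u_add_Z_nonneg v

/-- Multiplying by `uⁿ` moves poles at infinity to the poles of `u`. -/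
theorem mul_pow_mem {n : ℕ} {x : F}
    (hx : x ∈ riemannRochSpace (Finsupp.single M.cuspF (n : ℤ))) :
    x * M.uF ^ n ∈ riemannRochSpace (n • M.Zdiv) := by
  rcases eq_or_ne x 0 with rfl | h0
  · simp
  rw [mem_rr_iff_dvs (mul_ne_zero h0 (pow_ne_zero _ M.uF_ne_zero)),
    dvs_mul h0 (pow_ne_zero _ M.uF_ne_zero), dvs_pow]
  have h1 := (mem_rr_iff_dvs h0).mp hx
  have h2 := nsmul_nonneg (sub_nonneg.mpr (single_cusp_le (M := M))) n
  rw [nsmul_sub, nsmul_add, Finsupp.smul_single, nsmul_eq_mul, mul_one] at h2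
  have h3 := add_nonneg h1 h2
  calc (0 : Divisor L F) ≤ _ := h3
    _ = _ := by abel

include R H in
/-- Expansions of functions in the Gauss ring with poles only at infinity. -/
theorem exists_series_cusp {n : ℕ} {x : F}
    (hx : x ∈ riemannRochSpace (Finsupp.single M.cuspF (n : ℤ))) (hi : M.IsInt x) :
    ∃ y : LaurentSeries A, (x : LaurentSeries L) = ιS A y ∧
      (M.red x : LaurentSeries (ResidueField A)) = redS A y ∧
      ∀ k < -(n : ℤ), y.coeff k = 0 := by
  obtain ⟨hi', -⟩ := M.isInt_mul hi (M.isInt_pow M.red_uF.1 n).1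
  obtain ⟨w, hw, -, hw0⟩ := exists_series_of_mem R H (mul_pow_mem hx) hi'
  obtain ⟨p, rfl⟩ := exists_ofPowerSeries hw0
  have hy : (x : LaurentSeries L) = ιS A (M.j ^ n * HahnSeries.ofPowerSeries ℤ A p) := by
    rw [map_mul, ← hw, map_pow, MulMemClass.coe_mul, SubmonoidClass.coe_pow, M.coe_uF,
      mul_left_comm, ← mul_pow, ← map_mul, mul_comm M.j, M.uA_mul_j, map_one, one_pow, mul_one]
  exact ⟨_, hy, (M.isInt_series hy).2, fun k hk => M.coeff_j_pow_mul_of_lt n p hk⟩

end GoodModel

end Fermat.Agent.Reduction
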